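import Fermat.Agent.ClassField.S55.Complex

/-!
# `p`-class modules

The input that local and global class field theory has to provide for Poitou–Tate:
only `p`-subgroups occur.
-/

set_option autoImplicit false

namespace Fermat.Agent.ClassField.S55

variable (p : ℕ) (G : Type*) [Group G] (C : Type*) [AddCommGroup C] [DistribMulAction G C]

/-- `u` makes `C` a class module for the `p`-subgroups of `G`: for each such subgroup `P`,
`H¹(P, C) = 0` and `H²(P, C)` is cyclic of order `#P`, generated by the restriction of `u`. -/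
structure IsPClassModule (u : G × G → C) : Prop where
  cocycle : ∀ g h j : G, g • u (h, j) - u (g * h, j) + u (g, h * j) - u (g, h) = 0
  h1 : ∀ P : Subgroup G, IsPGroup p P → ∀ f : P → C, d1 f = 0 → ∃ x : C, d0 x = f
  h2_gen : ∀ P : Subgroup G, IsPGroup p P → ∀ c : P × P → C,
    (∀ g h j : P, g • c (h, j) - c (g * h, j) + c (g, h * j) - c (g, h) = 0) →
      ∃ (n : ℤ) (b : P → C), c = fun x => n • u ((x.1 : G), (x.2 : G)) + d1 b x
  h2_order : ∀ P : Subgroup G, IsPGroup p P → ∀ (n : ℤ) (b : P → C),
    (fun x : P × P => n • u ((x.1 : G), (x.2 : G))) = d1 b → (Nat.card P : ℤ) ∣ n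

end Fermat.Agent.ClassField.S55
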