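import Fermat.Agent.ClassField.AcyclicTransfer
import Fermat.Agent.ClassField.S55.ClassModule

/-!
# Class modules: bounds plus exact order, and passage through acyclic kernels
-/

set_option autoImplicit false

namespace Fermat.Agent.ClassField.S55

open CochainH2

variable {p : ℕ} [Fact p.Prime] {G : Type*} [Group G] {C : Type*} [AddCommGroup C]
  [DistribMulAction G C]

omit [Fact p.Prime] in
theorem mem_Z2_iff_cocycle {f : G × G → C} :
    f ∈ Z2 G C ↔ ∀ g h j : G, g • f (h, j) - f (g * h, j) + f (g, h * j) - f (g, h) = 0 := by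
  refine forall₃_congr fun g h j => ?_
  show f (g * h, j) + f (g, h) = g • f (h, j) + f (g, h * j) ↔ _
  rw [← sub_eq_zero]
  constructor <;> intro e <;> rw [← neg_eq_zero, ← e] <;> abel

omit [Fact p.Prime] in
theorem d1_eq_cochain (x : G → C) : CochainH2.d1 G C x = S55.d1 x := rfl

omit [Fact p.Prime] in
theorem exists_d0_of_h1Vanishes (h : Devissage.H1Vanishes G C) {f : G → C} (hf : S55.d1 f = 0) :
    ∃ x, d0 x = f := by
  obtain ⟨x, hx⟩ := h f fun g g' => by
    have e := congrFun hf (g, g')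
    simp only [S55.d1, Pi.zero_apply] at e
    rw [← sub_eq_zero, ← neg_eq_zero, ← e]
    abel
  exact ⟨x, funext fun g => (hx g).symm⟩

omit [Fact p.Prime] in
/-- A class of exact order `#P` on every `p`-subgroup `P`, where `H²` has at most `#P` elements,
is fundamental. -/
theorem isPClassModule_of_bounds [Finite G] (u : G × G → C) (hu : u ∈ Z2 G C)
    (hb : ∀ P : Subgroup G, IsPGroup p P → Devissage.H1Vanishes P C ∧ Finite (H2 P C) ∧
      Nat.card (H2 P C) ≤ Nat.card P)
    (hord : ∀ P : Subgroup G, IsPGroup p P → ∀ (n : ℤ) (b : P → C),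
      (fun x : P × P => n • u ((x.1 : G), (x.2 : G))) = S55.d1 b → (Nat.card P : ℤ) ∣ n) :
    IsPClassModule p G C u where
  cocycle := mem_Z2_iff_cocycle.1 hu
  h1 P hP f hf := exists_d0_of_h1Vanishes (hb P hP).1 hf
  h2_gen P hP c hc := by
    obtain ⟨-, hfin, hle⟩ := hb P hP
    set uP : Z2 P C := ⟨fun x => u ((x.1 : G), (x.2 : G)), fun g h j => hu g h j⟩
    set z := CochainH2.mk P C uP
    have hordz : ∀ n : ℤ, n • z = 0 → (Nat.card P : ℤ) ∣ n := fun n hn => by
      rw [← map_zsmul, mk_eq_zero] at hn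
      obtain ⟨b, hb'⟩ := hn
      refine hord P hP n b ?_
      rw [← d1_eq_cochain, hb']
      rfl
    have hz : addOrderOf z = Nat.card (H2 P C) := by
      refine le_antisymm (Nat.le_of_dvd Nat.card_pos (addOrderOf_dvd_natCard z)) (hle.trans ?_)
      refine Nat.le_of_dvd (addOrderOf_pos z) (Int.natCast_dvd_natCast.1 (hordz _ ?_))
      rw [natCast_zsmul, addOrderOf_nsmul_eq_zero]
    have htop : AddSubgroup.zmultiples z = ⊤ := by
      apply AddSubgroup.eq_top_of_card_eq
      rw [Nat.card_zmultiples, hz]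
    obtain ⟨n, hn⟩ := AddSubgroup.mem_zmultiples_iff.1
      (htop ▸ AddSubgroup.mem_top (CochainH2.mk P C ⟨c, mem_Z2_iff_cocycle.2 hc⟩))
    rw [← map_zsmul, eq_comm, mk_eq_mk] at hn
    obtain ⟨b, hb'⟩ := hn
    refine ⟨n, b, funext fun x => ?_⟩
    have e := congrFun hb' x
    rw [d1_eq_cochain, Pi.sub_apply, eq_sub_iff_add_eq, add_comm] at e
    exact e.symm
  h2_order := hord

/-- A class module stays one after dividing by an acyclic submodule. -/
theorem IsPClassModule.quotient [Finite G] {A : Type*} [AddCommGroup A] [DistribMulAction G A]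
    {W : Type*} [AddCommGroup W] [DistribMulAction G W] {u : G × G → A}
    (hu : IsPClassModule p G A u) (π : A →+ C) (hπ : ∀ (g : G) (a : A), π (g • a) = g • π a)
    (ι : W →+ A) (hι : ∀ (g : G) (w : W), ι (g • w) = g • ι w)
    (hexact : ∀ a, π a = 0 ↔ ∃ w, ι w = a) (hinj : Function.Injective ι)
    (hsurj : Function.Surjective π)
    (hA : ∀ P : Subgroup G, IsPGroup p P → Devissage.StepHyp A P p)
    (hW : ∀ P : Subgroup G, IsPGroup p P → Devissage.StepAcyclic W P p) :
    IsPClassModule p G C (π ∘ u) := by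
  refine isPClassModule_of_bounds _ ?_ (fun P hP => ?_) fun P hP n b hb => ?_
  · rw [mem_Z2_iff_cocycle]
    intro g h j
    simp only [Function.comp_apply, ← hπ, ← map_sub, ← map_add, hu.cocycle g h j, map_zero]
  · have hstep := Devissage.StepHyp.quotient (G := P) (A := A) (A' := C) (W := W) π
      (fun g a => hπ (g : G) a) ι (fun g w => hι (g : G) w) hexact hinj hsurj hP (hW P hP) (hA P hP)
    obtain ⟨h1, h2, h3⟩ := Devissage.h1_h2_le hP hstep ⊤
    have he : ∀ (w : (⊤ : Subgroup P)) (a : C), Subgroup.topEquiv w • a = w • a := fun _ _ => rfl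
    obtain ⟨h2', h3'⟩ := Devissage.card_h2_of_equiv Subgroup.topEquiv he h2
    exact ⟨Devissage.h1Vanishes_of_equiv Subgroup.topEquiv he h1, h2',
      by rw [h3']; rwa [Subgroup.card_top] at h3⟩
  · let f : (⊤ : Subgroup P) × (⊤ : Subgroup P) → A := fun x =>
      n • u (((x.1 : P) : G), ((x.2 : P) : G))
    have hf : f ∈ Z2 (⊤ : Subgroup P) A := by
      rw [mem_Z2_iff_cocycle]
      intro g h j
      have e : ∀ a : A, (g : (⊤ : Subgroup P)) • n • a = n • (((g : P) : G) • a) := fun a =>
        smul_comm _ n a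
      simp only [f, e, ← zsmul_sub, ← zsmul_add]
      rw [show (((g * h : (⊤ : Subgroup P)) : P) : G) = ((g : P) : G) * ((h : P) : G) from rfl,
        show (((h * j : (⊤ : Subgroup P)) : P) : G) = ((h : P) : G) * ((j : P) : G) from rfl,
        hu.cocycle, zsmul_zero]
    obtain ⟨x, hx⟩ := Devissage.exists_d1_eq_of_quotient (G := P) (A := A) (A' := C) (W := W) π
      (fun g a => hπ (g : G) a) ι (fun g w => hι (g : G) w) hexact hinj hsurj hP (hW P hP)
      ⊤ hf (fun v => b v) (funext fun y => by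
        have e := congrFun hb ((y.1 : P), (y.2 : P))
        show S55.d1 b ((y.1 : P), (y.2 : P)) = π (n • _)
        rw [map_zsmul, ← e]
        rfl)
    refine hu.h2_order P hP n (fun v => x ⟨v, trivial⟩) (funext fun y => ?_)
    exact (congrFun hx (⟨y.1, trivial⟩, ⟨y.2, trivial⟩)).symm

end Fermat.Agent.ClassField.S55
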