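import Fermat.Agent.ClassField.S55.TateVanishing

/-!
# S55: `Hom(lattice, acyclic module)` has trivial `Ĥ⁰` and `Ĥ⁻¹`
-/

set_option autoImplicit false

namespace Fermat.Agent.ClassField.S55

section IndCohomology

variable {G B : Type*} [Group G] [AddCommGroup B]

lemma Ind.h1 (z : G → Ind G B) (hz : d1 z = 0) : ∃ x : Ind G B, d0 x = z := by
  refine ⟨⟨fun τ => -(z τ).val τ⟩, funext fun g => Ind.ext (funext fun τ => ?_)⟩
  have h := congrArg (fun e : Ind G B => e.val τ) (congrFun hz (g, g⁻¹ * τ))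
  simp only [d1, mul_inv_cancel_left, Ind.add_apply, Ind.sub_apply, Ind.smul_apply,
    Pi.zero_apply, Ind.zero_apply] at h
  simp only [d0, Ind.sub_apply, Ind.smul_apply]
  rw [← sub_eq_zero, ← neg_eq_zero, ← h]; abel

lemma Ind.h2 (c : G × G → Ind G B)
    (hc : ∀ g h j : G, g • c (h, j) - c (g * h, j) + c (g, h * j) - c (g, h) = 0) :
    ∃ b : G → Ind G B, d1 b = c := by
  refine ⟨fun g => ⟨fun τ => (c (τ⁻¹, g)).val 1⟩, funext fun ⟨g, h⟩ => Ind.ext (funext fun τ => ?_)⟩
  have e := congrArg (fun f : Ind G B => f.val 1) (hc τ⁻¹ g h)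
  simp only [Ind.add_apply, Ind.sub_apply, Ind.smul_apply, inv_inv, mul_one, Ind.zero_apply] at e
  simp only [d1, Ind.add_apply, Ind.sub_apply, Ind.smul_apply, mul_inv_rev, inv_inv]
  rw [← sub_eq_zero, ← neg_eq_zero, ← e]; abel

end IndCohomology

section Ker

variable {G : Type*} [Group G] {A B : Type*} [AddCommGroup A] [AddCommGroup B]
  [DistribMulAction G A] [DistribMulAction G B]

/-- the kernel of an equivariant map -/
def kerOf (π : A →+[G] B) : AddSubgroup A := (π : A →+ B).ker

lemma mem_kerOf {π : A →+[G] B} {a : A} : a ∈ kerOf π ↔ π a = 0 := Iff.rfl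

instance (π : A →+[G] B) : DistribMulAction G (kerOf π) where
  smul g a := ⟨g • (a : A), by rw [mem_kerOf, map_smul, mem_kerOf.1 a.2, smul_zero]⟩
  one_smul a := Subtype.ext (one_smul G (a : A))
  mul_smul g h a := Subtype.ext (mul_smul g h (a : A))
  smul_zero g := Subtype.ext (smul_zero g)
  smul_add g a b := Subtype.ext (smul_add g (a : A) b)

/-- the inclusion of the kernel -/
def kerIncl (π : A →+[G] B) : kerOf π →+[G] A where
  toFun a := a
  map_smul' _ _ := rfl
  map_zero' := rfl
  map_add' _ _ := rfl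

/-- the subgroup of multiples of `p` -/
def pSub (p : ℕ) (A : Type*) [AddCommGroup A] : AddSubgroup A := (nsmulAddMonoidHom p).range

lemma mem_pSub {p : ℕ} {a : A} : a ∈ pSub p A ↔ ∃ b, p • b = a := Iff.rfl

instance (p : ℕ) : DistribMulAction G (A ⧸ pSub p A) where
  smul g := QuotientAddGroup.map (pSub p A) (pSub p A) (DistribSMul.toAddMonoidHom A g) (fun x hx => by
    obtain ⟨b, rfl⟩ := hx
    exact mem_pSub.2 ⟨g • b, smul_comm p g b⟩)
  one_smul x := by
    induction x using QuotientAddGroup.induction_on with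
    | H y => exact congrArg QuotientAddGroup.mk (one_smul G y)
  mul_smul g h x := by
    induction x using QuotientAddGroup.induction_on with
    | H y => exact congrArg QuotientAddGroup.mk (mul_smul g h y)
  smul_zero g := congrArg QuotientAddGroup.mk (smul_zero g)
  smul_add g x y := map_add _ x y

variable (G) in
/-- reduction mod `p` -/
def pRed (p : ℕ) : A →+[G] A ⧸ pSub p A where
  toFun a := a
  map_smul' _ _ := rfl
  map_zero' := rfl
  map_add' _ _ := rfl

end Ker

section Lattice

variable {p : ℕ} [Fact p.Prime] {P : Type*} [Group P] [Fintype P]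
  {X : Type*} [AddCommGroup X] [DistribMulAction P X]

variable (P X) in
/-- the free resolution map -/
noncomputable def freeCover : Ind P (X →₀ ℤ) →+[P] X where
  toFun f := ∑ τ : P, τ • Finsupp.linearCombination ℤ id (f.val τ)
  map_smul' g f := by
    show _ = g • _
    rw [Finset.smul_sum]
    exact Fintype.sum_equiv (Equiv.mulLeft g⁻¹) _ _ fun τ => by
      simp only [Ind.smul_apply, Equiv.coe_mulLeft, ← mul_smul, mul_inv_cancel_left]
  map_zero' := by simp
  map_add' f f' := by simp [Finset.sum_add_distrib]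

lemma freeCover_surjective : Function.Surjective (freeCover P X) := by
  classical
  intro x
  refine ⟨Ind.single 1 (Finsupp.single x 1), ?_⟩
  show ∑ τ : P, τ • Finsupp.linearCombination ℤ id
    (if τ = 1 then Finsupp.single x (1 : ℤ) else 0) = x
  rw [Finset.sum_eq_single_of_mem (1 : P) (Finset.mem_univ _)]
  · simp
  · intro τ _ hτ; simp [hτ]

/-- the relation module -/
noncomputable abbrev RelModule (P X : Type*) [Group P] [Fintype P] [AddCommGroup X] [DistribMulAction P X] :=
  kerOf (freeCover P X)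

lemma relModule_tf (w : RelModule P X) (hw : p • w = 0) : w = 0 := by
  refine Subtype.ext (Ind.ext (funext fun τ => ?_))
  have h := congrArg (fun e : RelModule P X => (e : Ind P (X →₀ ℤ)).val τ) hw
  simp only [AddSubgroup.coe_nsmul, Ind.nsmul_apply, AddSubgroup.coe_zero, Ind.zero_apply] at h
  exact (smul_eq_zero.1 h).resolve_left (Fact.out : p.Prime).ne_zero

variable (hP : IsPGroup p P) (hX : Acyclic P X)
include hX

lemma acyclic_h1 (f : P → X) (hf : d1 f = 0) : ∃ x, d0 x = f := by
  obtain ⟨x, hx⟩ := hX.h1 ⊤ (fun g => f g) (funext fun ⟨g, h⟩ => congrFun hf (↑g, ↑h))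
  exact ⟨x, funext fun g => congrFun hx ⟨g, trivial⟩⟩

include hP

lemma relModule_h1 (z : P → RelModule P X) (hz : d1 z = 0) : ∃ x, d0 x = z := by
  obtain ⟨f, hf⟩ := Ind.h1 (fun g => (z g : Ind P (X →₀ ℤ))) (funext fun ⟨g, h⟩ =>
    congrArg Subtype.val (congrFun hz (g, h)))
  have hfix : ∀ g : P, g • freeCover P X f = freeCover P X f := fun g => by
    rw [← sub_eq_zero, ← map_smul, ← map_sub, show g • f - f = _ from congrFun hf g]
    exact (z g).2
  obtain ⟨y, hy⟩ := fixed_eq_norm hP hX hfix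
  obtain ⟨yt, rfl⟩ := freeCover_surjective (P := P) y
  refine ⟨⟨f - normSum P yt, by rw [mem_kerOf, map_sub, map_normSum, hy, sub_self]⟩,
    funext fun g => Subtype.ext ?_⟩
  show g • (f - normSum P yt) - (f - normSum P yt) = _
  rw [smul_sub, smul_normSum, ← congrFun hf g, d0]; abel

omit hP in
lemma relModule_h2 (t : P × P → RelModule P X)
    (ht : ∀ g h j : P, g • t (h, j) - t (g * h, j) + t (g, h * j) - t (g, h) = 0) :
    ∃ b, d1 b = t := by
  obtain ⟨b, hb⟩ := Ind.h2 (fun x => (t x : Ind P (X →₀ ℤ))) fun g h j =>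
    congrArg Subtype.val (ht g h j)
  obtain ⟨x, hx⟩ := acyclic_h1 hX (freeCover P X ∘ b) (by
    rw [← comp_d1, hb]; exact funext fun y => (t y).2)
  obtain ⟨xt, rfl⟩ := freeCover_surjective (P := P) x
  refine ⟨fun g => ⟨b g - d0 xt g, ?_⟩, funext fun y => Subtype.ext ?_⟩
  · have := congrFun hx g
    simp only [Function.comp_apply, d0] at this
    rw [mem_kerOf, map_sub, ← this, d0, map_sub, map_smul, sub_self]
  · have h := congrFun hb y
    have h0 := congrFun (d1_d0 (G := P) xt) y
    simp only [d1, Pi.zero_apply] at h h0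
    show y.1 • (b y.2 - d0 xt y.2) - (b (y.1 * y.2) - d0 xt (y.1 * y.2)) + (b y.1 - d0 xt y.1) = _
    rw [← h, ← sub_eq_zero, smul_sub, ← neg_eq_zero, ← h0]; abel

lemma relModule_mod_h1 (z : P → RelModule P X ⧸ pSub p (RelModule P X)) (hz : d1 z = 0) :
    ∃ x, d0 x = z := by
  let q := pRed P (A := RelModule P X) p
  have hq : Function.Surjective q := QuotientAddGroup.mk_surjective
  let zt : P → RelModule P X := fun g => Function.surjInv hq (z g)
  have hzt : q ∘ zt = z := funext fun g => Function.surjInv_eq hq _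
  have hk : ∀ y, ∃ t, p • t = d1 zt y := fun y => mem_pSub.1 ((QuotientAddGroup.eq_zero_iff _).1 (by
    show q (d1 zt y) = 0
    rw [show q (d1 zt y) = (q ∘ d1 zt) y from rfl, comp_d1, hzt, hz]; rfl))
  choose t ht using hk
  obtain ⟨b, hb⟩ := relModule_h2 hX t fun g h j => relModule_tf (p := p) _ (by
    simp only [nsmul_add, nsmul_sub, smul_comm p g, ht, d1, smul_add, smul_sub, mul_smul,
      mul_assoc]
    abel)
  obtain ⟨v, hv⟩ := relModule_h1 hP hX (zt - p • b) (by
    rw [d1_sub, d1_nsmul, hb]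
    exact funext fun y => sub_eq_zero.2 (ht y).symm)
  refine ⟨q v, funext fun g => ?_⟩
  have h := congrArg q (congrFun hv g)
  simp only [d0, map_sub, map_smul, Pi.sub_apply, Pi.smul_apply] at h
  rw [d0, h, show q (zt g) = z g from congrFun hzt g,
    show q (p • b g) = 0 from (QuotientAddGroup.eq_zero_iff _).2 ⟨b g, rfl⟩, sub_zero]

theorem exists_inducedMod (R : Type*) [AddCommGroup R] [DistribMulAction P R] [Module.Free ℤ R] :
    ∃ (B : AddSubgroup (RelModule P X ⧸ pSub p (RelModule P X)))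
      (q : CHom R (RelModule P X) →+[P] Ind P (CHom R B)), InducedMod p q := by
  classical
  obtain ⟨e, he⟩ := exists_ind_equiv hP (V := RelModule P X ⧸ pSub p (RelModule P X))
    (fun v => by
      induction v using QuotientAddGroup.induction_on with
      | H w => exact (QuotientAddGroup.eq_zero_iff _).2 ⟨w, rfl⟩)
    (relModule_mod_h1 hP hX)
  let r := e.comp (pRed P (A := RelModule P X) p)
  have hr : Function.Surjective r := he.2.comp QuotientAddGroup.mk_surjective
  have hrp : ∀ w, r (p • w) = 0 := fun w => by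
    show e (pRed P p (p • w)) = 0
    rw [show pRed P (A := RelModule P X) p (p • w) = 0 from
      (QuotientAddGroup.eq_zero_iff _).2 ⟨w, rfl⟩, map_zero]
  have hrk : ∀ w, r w = 0 → ∃ u, p • u = w := fun w hw =>
    mem_pSub.1 ((QuotientAddGroup.eq_zero_iff _).1 (he.1 (hw.trans (map_zero e).symm)))
  refine ⟨fixedSub P (RelModule P X ⧸ pSub p (RelModule P X)), ?_⟩
  let B := fixedSub P (RelModule P X ⧸ pSub p (RelModule P X))
  let q : CHom R (RelModule P X) →+[P] Ind P (CHom R B) :=
    { toFun := fun ψ => ⟨fun τ => ⟨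
        { toFun := fun x => (r (ψ (τ • x))).val τ
          map_zero' := by rw [smul_zero, map_zero, map_zero]; rfl
          map_add' := fun x y => by rw [smul_add, map_add, map_add]; rfl }⟩⟩
      map_smul' := fun g ψ => Ind.ext (funext fun τ => CHom.ext' fun x => by
        show (r (g • ψ (g⁻¹ • τ • x))).val τ = (r (ψ ((g⁻¹ * τ) • x))).val (g⁻¹ * τ)
        rw [map_smul, mul_smul, Ind.smul_apply])
      map_zero' := Ind.ext (funext fun τ => CHom.ext' fun x => by
        show (r ((0 : CHom R (RelModule P X)) (τ • x))).val τ = 0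
        rw [CHom.zero_apply, map_zero]; rfl)
      map_add' := fun ψ ψ' => Ind.ext (funext fun τ => CHom.ext' fun x => by
        show (r ((ψ + ψ') (τ • x))).val τ = (r (ψ (τ • x))).val τ + (r (ψ' (τ • x))).val τ
        rw [CHom.add_apply, map_add]; rfl) }
  refine ⟨q, ⟨fun ψ h => CHom.ext' fun x => ?_, fun F => ?_, fun ψ => ?_, fun ψ hψ => ?_⟩⟩
  · have := congrArg (fun f : CHom R (RelModule P X) => f x) h
    simp only [CHom.nsmul_apply, CHom.zero_apply] at this
    exact relModule_tf _ this
  · let l : R →+ Ind P B :=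
      { toFun := fun x => ⟨fun τ => F.val τ (τ⁻¹ • x)⟩
        map_zero' := Ind.ext (funext fun τ => by
          show F.val τ (τ⁻¹ • (0 : R)) = 0
          rw [smul_zero, map_zero])
        map_add' := fun x y => Ind.ext (funext fun τ => by
          show F.val τ (τ⁻¹ • (x + y)) = F.val τ (τ⁻¹ • x) + F.val τ (τ⁻¹ • y)
          rw [smul_add, map_add]) }
    obtain ⟨ψ, hψ⟩ := CHom.post_surjective (G := P) (R := R) hr ⟨l⟩
    refine ⟨ψ, Ind.ext (funext fun τ => CHom.ext' fun x => ?_)⟩
    show (r (ψ (τ • x))).val τ = F.val τ x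
    rw [show r (ψ (τ • x)) = l (τ • x) from congrArg (fun f : CHom R _ => f (τ • x)) hψ]
    show F.val τ (τ⁻¹ • τ • x) = _
    rw [inv_smul_smul]
  · refine Ind.ext (funext fun τ => CHom.ext' fun x => ?_)
    show (r ((p • ψ) (τ • x))).val τ = 0
    rw [CHom.nsmul_apply, hrp]; rfl
  · have h0 : ∀ x, ∃ u, p • u = ψ x := fun x => hrk _ (Ind.ext (funext fun τ => by
      have := congrArg (fun f : Ind P (CHom R B) => f.val τ (τ⁻¹ • x)) hψ
      simp only [Ind.zero_apply, CHom.zero_apply] at this
      rw [Ind.zero_apply, ← this]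
      show (r (ψ x)).val τ = (r (ψ (τ • τ⁻¹ • x))).val τ
      rw [smul_inv_smul]))
    choose u hu using h0
    refine ⟨⟨AddMonoidHom.mk' u fun x y => sub_eq_zero.1 (relModule_tf (p := p) _ ?_)⟩,
      CHom.ext' fun x => ?_⟩
    · rw [nsmul_sub, nsmul_add, hu, hu, hu, map_add, sub_self]
    · rw [CHom.nsmul_apply]; exact hu x

omit hX hP in
/-- `Hom(R, Ind P A)` is induced, concretely -/
lemma indHom_facts {R A : Type*} [AddCommGroup R] [DistribMulAction P R] [AddCommGroup A] :
    (∀ φ : CHom R (Ind P A), (∀ g : P, g • φ = φ) → ∃ η, normSum P η = φ) ∧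
    (∀ φ : CHom R (Ind P A), normSum P φ = 0 → φ ∈ aug P (CHom R (Ind P A))) := by
  let e : Ind P (CHom R A) →+[P] CHom R (Ind P A) :=
    { toFun := fun F => ⟨
        { toFun := fun x => ⟨fun τ => F.val τ (τ⁻¹ • x)⟩
          map_zero' := Ind.ext (funext fun τ => by
            show F.val τ (τ⁻¹ • (0 : R)) = 0
            rw [smul_zero, map_zero])
          map_add' := fun x y => Ind.ext (funext fun τ => by
            show F.val τ (τ⁻¹ • (x + y)) = F.val τ (τ⁻¹ • x) + F.val τ (τ⁻¹ • y)
            rw [smul_add, map_add]) }⟩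
      map_smul' := fun g F => CHom.ext' fun x => Ind.ext (funext fun τ => by
        show F.val (g⁻¹ * τ) (τ⁻¹ • x) = F.val (g⁻¹ * τ) ((g⁻¹ * τ)⁻¹ • g⁻¹ • x)
        rw [← mul_smul]; simp)
      map_zero' := CHom.ext' fun x => Ind.ext (funext fun τ => rfl)
      map_add' := fun F F' => CHom.ext' fun x => Ind.ext (funext fun τ => rfl) }
  have hinj : Function.Injective e := fun F F' h => Ind.ext (funext fun τ => CHom.ext' fun x => by
    have := congrArg (fun f : CHom R (Ind P A) => (f (τ • x)).val τ) h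
    change F.val τ (τ⁻¹ • τ • x) = F'.val τ (τ⁻¹ • τ • x) at this
    rwa [inv_smul_smul] at this)
  have hsurj : Function.Surjective e := fun φ => ⟨⟨fun τ => ⟨
    { toFun := fun x => (φ (τ • x)).val τ
      map_zero' := by rw [smul_zero, map_zero]; rfl
      map_add' := fun x y => by rw [smul_add, map_add]; rfl }⟩⟩,
    CHom.ext' fun x => Ind.ext (funext fun τ => by
      show (φ (τ • τ⁻¹ • x)).val τ = (φ x).val τ
      rw [smul_inv_smul])⟩
  refine ⟨fun φ hφ => ?_, fun φ hφ => ?_⟩
  · obtain ⟨F, rfl⟩ := hsurj φ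
    obtain ⟨η, hη⟩ := Ind.exists_normSum_of_fixed (f := F) fun g => hinj (by rw [map_smul, hφ g])
    exact ⟨e η, by rw [← map_normSum, hη]⟩
  · obtain ⟨F, rfl⟩ := hsurj φ
    refine map_mem_aug e (Ind.mem_aug_of_normSum (hinj ?_))
    rw [map_normSum, hφ, map_zero]

variable {R : Type*} [AddCommGroup R] [DistribMulAction P R] [Module.Free ℤ R]

/-- `Ĥ⁰(P, Hom(R,X)) = 0` -/
theorem hom_fixed_eq_norm (φ : CHom R X) (hφ : ∀ g : P, g • φ = φ) :
    ∃ ψ, normSum P ψ = φ := by
  obtain ⟨B, q, hq⟩ := exists_inducedMod hP hX R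
  let post := CHom.post (R := R) (freeCover P X)
  obtain ⟨φt, hφt⟩ := CHom.post_surjective (R := R) (freeCover_surjective (P := P) (X := X)) φ
  let ι := CHom.post (R := R) (kerIncl (freeCover P X))
  have hι : Function.Injective ι := fun a b h => CHom.ext' fun x =>
    Subtype.ext (congrArg (fun f : CHom R (Ind P (X →₀ ℤ)) => f x) h)
  have hker : ∀ f, post f = 0 → ∃ w, ι w = f := fun f hf => by
    have hm : ∀ x, f x ∈ kerOf (freeCover P X) := fun x => congrArg (fun u : CHom R X => u x) hf
    exact ⟨⟨f.hom.codRestrict _ hm⟩, CHom.ext' fun x => rfl⟩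
  choose z hz using fun g : P => hker (g • φt - φt) (by
    rw [map_sub, map_smul, hφt, hφ g, sub_self])
  obtain ⟨w, hw⟩ := hq.h1 (IsPGroup.iff_card.1 hP |>.imp fun n hn => by
    rwa [Nat.card_eq_fintype_card] at hn) (z := z) (funext fun y => hι (by
      rw [show ι (d1 z y) = (ι ∘ d1 z) y from rfl, comp_d1, show ι ∘ z = d0 φt from funext hz,
        d1_d0]
      simp))
  obtain ⟨η, hη⟩ := indHom_facts.1 (φt - ι w) fun g => by
    have h := congrArg ι (congrFun hw g)
    simp only [d0, map_sub, map_smul, hz] at h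
    rw [smul_sub, ← sub_eq_zero, ← sub_eq_zero.2 h.symm]; abel
  refine ⟨post η, ?_⟩
  rw [← map_normSum, hη, map_sub, hφt, sub_eq_self]
  exact CHom.ext' fun x => (w x).2

/-- `Ĥ⁻¹(P, Hom(R,X)) = 0` -/
theorem hom_mem_aug (ψ : CHom R X) (hψ : normSum P ψ = 0) : ψ ∈ aug P (CHom R X) := by
  obtain ⟨B, q, hq⟩ := exists_inducedMod hP hX R
  let post := CHom.post (R := R) (freeCover P X)
  obtain ⟨ψt, hψt⟩ := CHom.post_surjective (R := R) (freeCover_surjective (P := P) (X := X)) ψ
  let ι := CHom.post (R := R) (kerIncl (freeCover P X))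
  have hι : Function.Injective ι := fun a b h => CHom.ext' fun x =>
    Subtype.ext (congrArg (fun f : CHom R (Ind P (X →₀ ℤ)) => f x) h)
  have hm : ∀ x, normSum P ψt x ∈ kerOf (freeCover P X) := fun x => by
    have h0 : post (normSum P ψt) = 0 := by rw [map_normSum, hψt, hψ]
    exact congrArg (fun u : CHom R X => u x) h0
  let w : CHom R (RelModule P X) := ⟨(normSum P ψt).hom.codRestrict _ hm⟩
  have hw : ι w = normSum P ψt := CHom.ext' fun x => rfl
  obtain ⟨η, hη⟩ := hq.fixed_eq_norm (IsPGroup.iff_card.1 hP |>.imp fun n hn => by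
    rwa [Nat.card_eq_fintype_card] at hn) (v := w) fun g => hι (by rw [map_smul, hw, smul_normSum])
  have := map_mem_aug post (indHom_facts.2 (ψt - ι η) (by
    rw [map_sub, ← map_normSum ι, hη, hw, sub_self]))
  rwa [map_sub, hψt, show post (ι η) = 0 from CHom.ext' fun x => (η x).2, sub_zero] at this

end Lattice

end Fermat.Agent.ClassField.S55
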