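import Fermat.Agent.ClassField.S55.Chains

/-!
# S55, step T2: finite level Poitou–Tate duality from class formations
-/

set_option autoImplicit false

namespace Fermat.Agent.ClassField.S55

/-- Linear algebra: annihilator of a preimage. -/
lemma dualAnnihilator_comap_eq {K V W : Type*} [Field K] [AddCommGroup V] [Module K V]
    [AddCommGroup W] [Module K W] (f : V →ₗ[K] W) (S : Submodule K W) :
    (S.comap f).dualAnnihilator = S.dualAnnihilator.map f.dualMap := by
  rw [show S.comap f = LinearMap.ker (S.mkQ.comp f) by rw [LinearMap.ker_comp, Submodule.ker_mkQ],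
    ← LinearMap.range_dualMap_eq_dualAnnihilator_ker, ← LinearMap.dualMap_comp_dualMap,
    LinearMap.range_comp, Submodule.range_dualMap_mkQ_eq]

lemma mem_of_nsmul_mem_of_not_dvd {p : ℕ} [Fact p.Prime] {A : Type*} [AddCommGroup A]
    {S : AddSubgroup A} {m : ℕ} (hm : ¬ p ∣ m) {x : A} (h1 : m • x ∈ S) (h2 : p • x ∈ S) :
    x ∈ S := by
  have hc : Nat.Coprime p m := (Fact.out : p.Prime).coprime_iff_not_dvd.2 hm
  obtain ⟨a, b, hab⟩ := Int.isCoprime_iff_nat_coprime.2 (by simpa using hc : Nat.Coprime (p : ℤ).natAbs (m : ℤ).natAbs)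
  have : x = a • ((p : ℤ) • x) + b • ((m : ℤ) • x) := by
    rw [← mul_smul, ← mul_smul, ← add_smul, hab, one_smul]
  rw [this, natCast_zsmul, natCast_zsmul]
  exact add_mem (S.zsmul_mem h2 a) (S.zsmul_mem h1 b)

/-- `θ` of a cycle is invariant. -/
lemma theta_fixed {G : Type*} [Group G] [Fintype G] {C : Type*} [AddCommGroup C]
    [DistribMulAction G C] {R : Type*} [AddCommGroup R] [DistribMulAction G R] {u : G × G → C}
    [IsTwoCocycle u] {a : G → (R →+ ℤ)} (ha : bd1 G R a = 0) (g : G) :
    g • theta u a = theta u a := by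
  have h := smul_normSum g (xi u a)
  rw [normSum_xi_of_cycle ha] at h
  refine CHom.ext' fun r => ?_
  have := congrArg (fun F : CHom R (SplitMod u) => (F r).c) h
  simp only [CHom.smul_apply] at this ⊢
  change (g • SplitMod.incl (theta u a (g⁻¹ • r)) : SplitMod u).c = _ at this
  rw [SplitMod.smul_incl] at this
  exact this

section

variable (p : ℕ) [Fact p.Prime] {G : Type*} [Group G] [Fintype G] (C : Type*) [AddCommGroup C]
  [DistribMulAction G C] {R P N Y : Type*} [AddCommGroup R] [AddCommGroup P] [AddCommGroup N]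
  [DistribMulAction G R] [DistribMulAction G P] [DistribMulAction G N] [MulAction G Y]
  [Module (ZMod p) N] {ι : Type*} (Gv : ι → Subgroup G) {B : ι → Type*}
  [∀ v, AddCommGroup (B v)] [∀ v, DistribMulAction (Gv v) (B v)]

/-- coset sum -/
noncomputable def cores {V : Type*} [AddCommGroup V] [DistribMulAction G V] (H : Subgroup G)
    (x : V) : V :=
  letI := Fintype.ofFinite (G ⧸ H)
  ∑ q : G ⧸ H, Quotient.out q • x

variable {C Gv}

/-- `im Hom_G(P,C) + Σ_v cores (im Hom_{G_v}(R, B v))` -/
noncomputable def trivSub (D : FinPresentation G R P N Y) (jv : ∀ v, B v →+[Gv v] C) :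
    AddSubgroup (CHom R C) :=
  AddSubgroup.closure
    ({x | ∃ h : CHom P C, (∀ g : G, g • h = h) ∧ CHom.pre D.i h = x} ∪
     {x | ∃ (v : ι) (φ : CHom R (B v)), (∀ g : Gv v, g • φ = φ) ∧
        cores (Gv v) (CHom.post (jv v) φ) = x})

variable (Gv) in
/-- cocycles which are coboundaries on every `G_v` -/
def locCocycles : Submodule (ZMod p) (G → N) :=
  LinearMap.ker (d1L G N p) ⊓
    ⨅ v, (LinearMap.range (d0L (Gv v) N p)).comap (LinearMap.funLeft (ZMod p) N (Subtype.val))

lemma mem_locCocycles (f : G → N) :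
    f ∈ locCocycles p Gv ↔ d1 f = 0 ∧ ∀ v, ∃ n : N, ∀ h : Gv v, f h = (h : G) • n - n := by
  simp only [locCocycles, Submodule.mem_inf, LinearMap.mem_ker, d1L_apply, Submodule.mem_iInf,
    Submodule.mem_comap, LinearMap.mem_range, d0L_apply, funext_iff, LinearMap.funLeft_apply]
  refine and_congr_right fun _ => forall_congr' fun v => exists_congr fun n => forall_congr' fun h => ?_
  exact eq_comm

lemma range_d0L_le_locCocycles : LinearMap.range (d0L G N p) ≤ locCocycles p Gv := by
  rintro _ ⟨n, rfl⟩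
  rw [mem_locCocycles]
  exact ⟨d1_d0 n, fun v => ⟨n, fun h => rfl⟩⟩

variable [Fintype Y] [Finite ι] [Module.Free ℤ R] [Finite N]

/-- **T2**: the finite level duality. -/
theorem finite_duality {u : G × G → C} (hu : IsPClassModule p G C u)
    {uv : ∀ v, Gv v × Gv v → B v} (huv : ∀ v, IsPClassModule p (Gv v) (B v) (uv v))
    (jv : ∀ v, B v →+[Gv v] C)
    (hcompat : ∀ v, ∃ w : Gv v → C, ∀ x : Gv v × Gv v,
      u ((x.1 : G), (x.2 : G)) = jv v (uv v x) + d1 w x)
    (D : FinPresentation G R P N Y)
    (hnorm : ∀ y : CHom R C, normSum G y ∈ trivSub D jv) :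
    Finite (fixedSub G (CHom R C) ⧸ (trivSub D jv).addSubgroupOf (fixedSub G (CHom R C))) ∧
    Nat.card (fixedSub G (CHom R C) ⧸ (trivSub D jv).addSubgroupOf (fixedSub G (CHom R C))) =
      Nat.card (locCocycles p (N := N) Gv ⧸
        (LinearMap.range (d0L G N p)).comap (locCocycles p (N := N) Gv).subtype) := by
  classical
  have : IsTwoCocycle u := ⟨hu.cocycle⟩
  have hP := D.free_P
  let T := trivSub D jv
  let Sc := locCocycles p (N := N) Gv
  let B1 := LinearMap.range (d0L G N p)
  -- restrictions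
  let rs : ∀ v, (G → N) →ₗ[ZMod p] (Gv v → N) := fun v => LinearMap.funLeft (ZMod p) N Subtype.val
  have hrs : ∀ (v : ι) (z : Gv v → (R →+ ℤ)),
      Phi p D (extChain (Gv v) z) = (rs v).dualMap (Phi p (D.restrict (Gv v)) z) := by
    intro v z
    refine LinearMap.ext fun f => ?_
    rw [LinearMap.dualMap_apply, Phi_apply, Phi_apply]
    exact sum_extChain (Gv v) z (fun g φ => D.dlt p φ (f g)) (fun g => by simp)
  -- every cycle gives an invariant
  have hfix : ∀ a, bd1 G R a = 0 → ∀ g : G, g • theta u a = theta u a := fun a ha g =>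
    theta_fixed ha g
  let Z : AddSubgroup (G → (R →+ ℤ)) := (bd1 G R).ker
  let T0 := T.addSubgroupOf (fixedSub G (CHom R C))
  let Θ : Z →+ fixedSub G (CHom R C) ⧸ T0 := (QuotientAddGroup.mk' T0).comp
    ((((theta u).comp Z.subtype)).codRestrict _ fun a => hfix a.1 a.2)
  have hΘ0 : ∀ a : Z, Θ a = 0 ↔ theta u (a : G → (R →+ ℤ)) ∈ T := fun a => by
    simp only [Θ, AddMonoidHom.coe_comp, Function.comp_apply, QuotientAddGroup.mk'_apply,
      QuotientAddGroup.eq_zero_iff, T0, AddSubgroup.mem_addSubgroupOf]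
    rfl
  -- `p` kills the quotient
  have hp : ∀ s : CHom R C, (∀ g : G, g • s = s) → p • s ∈ T := fun s hs => by
    refine AddSubgroup.subset_closure (Or.inl ⟨⟨s.hom.comp (D.pR p)⟩, ?_, ?_⟩)
    · rw [CHom.fixed_iff]
      intro g y
      show s (D.pR p (g • y)) = g • s (D.pR p y)
      rw [D.pR_smul, (CHom.fixed_iff s).1 hs]
    · refine CHom.ext' fun r => ?_
      show s (D.pR p (D.i r)) = (p • s) r
      rw [D.pR_i, map_nsmul, CHom.nsmul_apply]
  have hΘ : Function.Surjective Θ := by
    intro x
    obtain ⟨s, rfl⟩ := QuotientAddGroup.mk'_surjective _ x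
    obtain ⟨m, hm, hsurj⟩ := theta_surjective (R := R) hu
    obtain ⟨a, y, ha, hay⟩ := hsurj s s.2
    have hc : Nat.Coprime p m := (Fact.out : p.Prime).coprime_iff_not_dvd.2 hm
    obtain ⟨c, d, hcd⟩ := Int.isCoprime_iff_nat_coprime.2
      (by simpa using hc : Nat.Coprime (p : ℤ).natAbs (m : ℤ).natAbs)
    refine ⟨d • ⟨a, ha⟩, ?_⟩
    rw [map_zsmul]
    simp only [Θ, AddMonoidHom.coe_comp, Function.comp_apply, QuotientAddGroup.mk'_apply,
      ← QuotientAddGroup.mk_zsmul, QuotientAddGroup.eq, T0, AddSubgroup.mem_addSubgroupOf]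
    show -(d • theta u a) + (s : CHom R C) ∈ T
    have e : -(d • theta u a) + (s : CHom R C) = c • (p • (s : CHom R C)) + d • normSum G y := by
      have h1 : (s : CHom R C) = c • ((p : ℤ) • (s : CHom R C)) + d • ((m : ℤ) • (s : CHom R C)) := by
        rw [← mul_smul, ← mul_smul, ← add_smul, hcd, one_smul]
      conv_lhs => rw [h1, natCast_zsmul, natCast_zsmul, hay, smul_add]
      abel
    rw [e]
    exact add_mem (T.zsmul_mem (hp _ s.2) c) (T.zsmul_mem (hnorm y) d)
  -- annihilators
  have hΦB1 : ∀ a, bd1 G R a = 0 → Phi p D a ∈ B1.dualAnnihilator := fun a ha => by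
    rw [Submodule.mem_dualAnnihilator]
    rintro _ ⟨n, rfl⟩
    rw [d0L_apply, ← dlt_bd1, ha, map_zero]
    rfl
  let Φ : Z →+ B1.dualAnnihilator.toAddSubgroup :=
    ((Phi p D).comp Z.subtype).codRestrict _ fun a => hΦB1 a.1 a.2
  have hΦ : Function.Surjective Φ := by
    rintro ⟨Λ, hΛ⟩
    obtain ⟨a, ha, hΛa⟩ := exists_cycle_Phi_eq D Λ fun n =>
      (Submodule.mem_dualAnnihilator Λ).1 hΛ _ ⟨n, rfl⟩
    exact ⟨⟨a, ha⟩, Subtype.ext hΛa⟩
  have hbdry : ∀ b, ∀ f : G → N, d1 f = 0 → Phi p D (bd2 G R b) f = 0 := fun b f hf => by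
    simp [Phi_bd2, hf]
  have hbb : ∀ b : G → G → (R →+ ℤ), bd1 G R (bd2 G R b) = 0 := by
    intro b
    ext r
    simp only [bd1_apply, bd2_apply, AddMonoidHom.zero_apply, ← Finset.sum_sub_distrib]
    simp only [Finset.sum_sub_distrib, Finset.sum_add_distrib]
    have e1 : ∑ x : G, ∑ h : G, b h (h⁻¹ * x) (x • r) = ∑ x : G, ∑ h : G, b h x (h • x • r) := by
      rw [Finset.sum_comm, Finset.sum_comm (f := fun (x h : G) => b h x (h • x • r))]
      exact Finset.sum_congr rfl fun h _ => Fintype.sum_equiv (Equiv.mulLeft h⁻¹) _ _ fun x => by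
        simp [← mul_smul]
    have e2 : ∑ x : G, ∑ h : G, b h (h⁻¹ * x) r = ∑ x : G, ∑ h : G, b h x r := by
      rw [Finset.sum_comm, Finset.sum_comm (f := fun (x h : G) => b h x r)]
      exact Finset.sum_congr rfl fun h _ => Fintype.sum_equiv (Equiv.mulLeft h⁻¹) _ _ fun x => rfl
    have e3 : ∑ x : G, ∑ h : G, b x h (x • r) = ∑ x : G, ∑ h : G, b h x (h • r) := Finset.sum_comm
    have e4 : ∑ x : G, ∑ h : G, b x h r = ∑ x : G, ∑ h : G, b h x r := Finset.sum_comm
    rw [e1, e2, e3, e4]
    ring
  have hTnorm : ∀ y : CHom R C, normSum G y ∈ T := hnorm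
  -- comparison of the kernels
  have key : ∀ a : Z, theta u (a : G → (R →+ ℤ)) ∈ T ↔
      Phi p D (a : G → (R →+ ℤ)) ∈ Sc.dualAnnihilator := by
    rintro ⟨a, ha : bd1 G R a = 0⟩
    constructor
    · intro hT
      -- elements of `T` come, up to prime to `p`, from chains killed on `Sc`
      have main : ∀ x ∈ T, ∃ (m : ℕ) (c : G → (R →+ ℤ)) (y : CHom R C), ¬ p ∣ m ∧
          bd1 G R c = 0 ∧ m • x = theta u c + normSum G y ∧ Phi p D c ∈ Sc.dualAnnihilator := by
        intro x hx
        induction hx using AddSubgroup.closure_induction with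
        | mem x hx =>
          rcases hx with ⟨h, hh, rfl⟩ | ⟨v, φ, hφ, rfl⟩
          · obtain ⟨m, hm, hsurj⟩ := theta_surjective (R := P) hu
            obtain ⟨e, y, he, hey⟩ := hsurj h hh
            refine ⟨m, fun g => (e g).comp (D.i : R →+ P), CHom.pre D.i y, hm, ?_, ?_, ?_⟩
            · ext r; rw [bd1_comp, he]; rfl
            · rw [theta_comp, ← map_normSum, ← map_add, ← hey, map_nsmul]
            · rw [Submodule.mem_dualAnnihilator]
              intro f _
              rw [Phi_apply]
              exact Finset.sum_eq_zero fun g _ => by rw [D.dlt_comp_i]; rfl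
          · have : IsTwoCocycle (uv v) := ⟨(huv v).cocycle⟩
            have : IsTwoCocycle (fun x : Gv v × Gv v => u ((x.1 : G), (x.2 : G))) :=
              ⟨fun g h j => hu.cocycle g h j⟩
            obtain ⟨m, hm, hsurj⟩ := theta_surjective (R := R) (huv v)
            obtain ⟨z, y, hz, hzy⟩ := hsurj φ hφ
            obtain ⟨w, hw⟩ := hcompat v
            obtain ⟨y', hy'⟩ := theta_change (u := fun x : Gv v × Gv v => u ((x.1 : G), (x.2 : G)))
              (jv v) w hw hz
            let _ := Fintype.ofFinite (G ⧸ Gv v)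
            refine ⟨m, extChain (Gv v) z, CHom.post (jv v) y - y', hm, ?_, ?_, ?_⟩
            · ext r; rw [bd1_extChain, hz]
            · rw [theta_extChain (Gv v) hz, normSum_eq_sum_normSum (Gv v), ← Finset.sum_add_distrib]
              show m • ∑ q : G ⧸ Gv v, Quotient.out q • CHom.post (jv v) φ = _
              rw [Finset.smul_sum]
              refine Finset.sum_congr rfl fun q _ => ?_
              rw [smul_comm m, ← map_nsmul (CHom.post (jv v)), hzy, map_add, map_normSum,
                ← smul_add, map_sub, hy']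
              congr 1
              rw [add_assoc]
              refine congrArg _ ?_
              exact (add_sub_cancel _ _).symm
            · rw [hrs, Submodule.mem_dualAnnihilator]
              intro f hf
              obtain ⟨-, hloc⟩ := (mem_locCocycles p f).1 hf
              obtain ⟨n, hn⟩ := hloc v
              rw [LinearMap.dualMap_apply,
                show rs v f = d0 (G := Gv v) n from funext hn, ← dlt_bd1, hz, map_zero]
              rfl
        | zero =>
          exact ⟨1, 0, 0, (Fact.out : p.Prime).not_dvd_one, map_zero _, by simp, by simp⟩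
        | add x y _ _ hx hy =>
          obtain ⟨m, c, z, hm, hc, hcz, hΦc⟩ := hx
          obtain ⟨m', c', z', hm', hc', hcz', hΦc'⟩ := hy
          refine ⟨m * m', m' • c + m • c', m' • z + m • z',
            fun h => ((Fact.out : p.Prime).dvd_mul.1 h).elim hm hm', ?_, ?_, ?_⟩
          · rw [map_add, map_nsmul, map_nsmul, hc, hc', smul_zero, smul_zero, add_zero]
          · rw [smul_add, mul_comm, mul_smul, hcz, mul_comm, mul_smul, hcz']
            simp only [map_add, map_nsmul, smul_add]
            abel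
          · rw [map_add, map_nsmul, map_nsmul]
            exact add_mem (nsmul_mem hΦc _) (nsmul_mem hΦc' _)
        | neg x _ hx =>
          obtain ⟨m, c, z, hm, hc, hcz, hΦc⟩ := hx
          exact ⟨m, -c, -z, hm, by rw [map_neg, hc, neg_zero],
            by rw [smul_neg, hcz, map_neg, map_neg]; abel,
            by rw [map_neg]; exact neg_mem hΦc⟩
      obtain ⟨m, c, y, hm, hc, hcy, hΦc⟩ := main _ hT
      obtain ⟨m', hm', hinj⟩ := theta_injective (R := R) hu
      obtain ⟨b, hb⟩ := hinj (m • a - c) y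
        (by rw [map_sub, map_nsmul, ha, hc, smul_zero, sub_zero])
        (by rw [map_sub, map_nsmul, hcy]; abel)
      rw [Submodule.mem_dualAnnihilator] at hΦc ⊢
      intro f hf
      have e := hbdry b f ((mem_locCocycles p f).1 hf).1
      rw [hb, map_nsmul, LinearMap.smul_apply, map_sub, LinearMap.sub_apply, map_nsmul,
        LinearMap.smul_apply, hΦc f hf, sub_zero, ← mul_smul, nsmul_eq_mul, mul_eq_zero] at e
      refine e.resolve_left fun h0 => ?_
      rw [ZMod.natCast_eq_zero_iff] at h0
      exact ((Fact.out : p.Prime).dvd_mul.1 h0).elim hm' hm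
    · intro hΛ
      -- decompose the functional
      have hann : Sc.dualAnnihilator = LinearMap.range (d1L G N p).dualMap ⊔
          ⨆ v, (LinearMap.range (d0L (Gv v) N p)).dualAnnihilator.map (rs v).dualMap := by
        show (LinearMap.ker (d1L G N p) ⊓ _).dualAnnihilator = _
        rw [Subspace.dualAnnihilator_inf_eq, Subspace.dualAnnihilator_iInf_eq,
          ← LinearMap.range_dualMap_eq_dualAnnihilator_ker]
        simp only [rs, dualAnnihilator_comap_eq]
      rw [hann] at hΛ
      have main : ∀ Λ ∈ LinearMap.range (d1L G N p).dualMap ⊔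
          ⨆ v, (LinearMap.range (d0L (Gv v) N p)).dualAnnihilator.map (rs v).dualMap,
          ∃ c : G → (R →+ ℤ), bd1 G R c = 0 ∧ theta u c ∈ T ∧ Phi p D c = Λ := by
        let S : AddSubgroup (Module.Dual (ZMod p) (G → N)) :=
          { carrier := {Λ | ∃ c : G → (R →+ ℤ), bd1 G R c = 0 ∧ theta u c ∈ T ∧ Phi p D c = Λ}
            add_mem' := by
              rintro _ _ ⟨c, hc, hcT, rfl⟩ ⟨c', hc', hcT', rfl⟩
              exact ⟨c + c', by rw [map_add, hc, hc', add_zero],
                by rw [map_add]; exact add_mem hcT hcT', map_add _ _ _⟩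
            zero_mem' := ⟨0, map_zero _, by rw [map_zero]; exact zero_mem _, map_zero _⟩
            neg_mem' := by
              rintro _ ⟨c, hc, hcT, rfl⟩
              exact ⟨-c, by rw [map_neg, hc, neg_zero],
                by rw [map_neg]; exact neg_mem hcT, map_neg _ _⟩ }
        suffices h : LinearMap.range (d1L G N p).dualMap ⊔
            ⨆ v, (LinearMap.range (d0L (Gv v) N p)).dualAnnihilator.map (rs v).dualMap
            ≤ AddSubgroup.toZModSubmodule p S from fun Λ hΛ' => h hΛ'
        refine sup_le ?_ (iSup_le fun v => ?_)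
        · rintro _ ⟨Ξ, rfl⟩
          have : ∀ x y : G, ∃ φ : R →+ ℤ, D.dlt p φ =
              Ξ.toAddMonoidHom.comp (AddMonoidHom.single _ (x, y)) := fun x y => D.dlt_surjective _
          choose b hb using this
          obtain ⟨y, hy⟩ := theta_bd2 (u := u) b
          refine ⟨bd2 G R b, hbb b, hy ▸ hTnorm y, LinearMap.ext fun f => ?_⟩
          rw [Phi_bd2, ← Fintype.sum_prod_type', LinearMap.dualMap_apply, d1L_apply]
          simp only [hb, AddMonoidHom.coe_comp, Function.comp_apply, AddMonoidHom.single_apply,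
            LinearMap.toAddMonoidHom_coe, Prod.mk.eta]
          rw [← map_sum, Finset.univ_sum_single]
        · rintro _ ⟨Ξ, hΞ, rfl⟩
          obtain ⟨z, hz, hzΞ⟩ := exists_cycle_Phi_eq (D.restrict (Gv v)) Ξ fun n =>
            (Submodule.mem_dualAnnihilator Ξ).1 hΞ _ ⟨n, rfl⟩
          have : IsTwoCocycle (uv v) := ⟨(huv v).cocycle⟩
          have : IsTwoCocycle (fun x : Gv v × Gv v => u ((x.1 : G), (x.2 : G))) :=
            ⟨fun g h j => hu.cocycle g h j⟩
          obtain ⟨w, hw⟩ := hcompat v
          obtain ⟨y', hy'⟩ := theta_change (u := fun x : Gv v × Gv v => u ((x.1 : G), (x.2 : G)))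
            (jv v) w hw hz
          let _ := Fintype.ofFinite (G ⧸ Gv v)
          refine ⟨extChain (Gv v) z, by ext r; rw [bd1_extChain, hz], ?_,
            by rw [hrs, hzΞ]⟩
          rw [theta_extChain (Gv v) hz]
          simp only [hy', smul_add, Finset.sum_add_distrib]
          refine add_mem ?_ (normSum_eq_sum_normSum (Gv v) y' ▸ hTnorm y')
          exact AddSubgroup.subset_closure (Or.inr ⟨v, theta (uv v) z, theta_fixed hz, rfl⟩)
      obtain ⟨c, hc, hcT, hcΦ⟩ := main _ hΛ
      obtain ⟨e, he, hea⟩ := exists_of_Phi_eq_zero (p := p) D (a := a - c)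
        (by rw [map_sub, ha, hc, sub_zero]) (by rw [map_sub, hcΦ, sub_self])
      show theta u a ∈ T
      have h2 : theta u (a - c) ∈ T := by
        rw [← hea, theta_comp]
        exact AddSubgroup.subset_closure (Or.inl ⟨theta u e, theta_fixed he, rfl⟩)
      rw [map_sub] at h2
      simpa using add_mem h2 hcT
  -- conclusion
  let A2 : AddSubgroup B1.dualAnnihilator.toAddSubgroup :=
    Sc.dualAnnihilator.toAddSubgroup.addSubgroupOf _
  let Φ' := (QuotientAddGroup.mk' A2).comp Φ
  have hker : Θ.ker = Φ'.ker := by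
    ext a
    rw [AddMonoidHom.mem_ker, hΘ0, key a, AddMonoidHom.mem_ker]
    simp only [Φ', AddMonoidHom.coe_comp, Function.comp_apply, QuotientAddGroup.mk'_apply,
      QuotientAddGroup.eq_zero_iff, A2, AddSubgroup.mem_addSubgroupOf]
    rfl
  let e : (fixedSub G (CHom R C) ⧸ T0) ≃+ (B1.dualAnnihilator.toAddSubgroup ⧸ A2) :=
    (QuotientAddGroup.quotientKerEquivOfSurjective Θ hΘ).symm.trans
      ((QuotientAddGroup.quotientAddEquivOfEq hker).trans
        (QuotientAddGroup.quotientKerEquivOfSurjective Φ'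
          ((QuotientAddGroup.mk'_surjective A2).comp hΦ)))
  have hfin : Finite (Module.Dual (ZMod p) (G → N)) :=
    Finite.of_injective (fun l : Module.Dual (ZMod p) (G → N) => (l : (G → N) → ZMod p))
      DFunLike.coe_injective
  refine ⟨Finite.of_equiv _ e.symm.toEquiv, ?_⟩
  rw [Nat.card_congr e.toEquiv]
  have h1 := A2.card_eq_card_quotient_mul_card_addSubgroup
  have hA2 : Nat.card A2 = Nat.card Sc.dualAnnihilator :=
    Nat.card_congr (AddSubgroup.addSubgroupOfEquivOfLe
      (fun x hx => Submodule.dualAnnihilator_anti (range_d0L_le_locCocycles p) hx)).toEquiv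
  have hB1 : Nat.card B1.dualAnnihilator.toAddSubgroup = Nat.card B1.dualAnnihilator := rfl
  rw [hA2, hB1, Module.natCard_eq_pow_finrank (K := ZMod p),
    Module.natCard_eq_pow_finrank (K := ZMod p) (V := Sc.dualAnnihilator)] at h1
  have e1 := Subspace.finrank_add_finrank_dualAnnihilator_eq B1
  have e2 := Subspace.finrank_add_finrank_dualAnnihilator_eq Sc
  have e3 := Submodule.finrank_quotient_add_finrank (B1.comap Sc.subtype)
  have e4 : Module.finrank (ZMod p) (B1.comap Sc.subtype) = Module.finrank (ZMod p) B1 :=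
    (Submodule.comapSubtypeEquivOfLe (range_d0L_le_locCocycles p)).finrank_eq
  show Nat.card (B1.dualAnnihilator.toAddSubgroup ⧸ A2) = Nat.card (Sc ⧸ B1.comap Sc.subtype)
  rw [Module.natCard_eq_pow_finrank (K := ZMod p) (V := Sc ⧸ B1.comap Sc.subtype)]
  have hpos : 0 < Nat.card (ZMod p) := by simp [(Fact.out : p.Prime).pos]
  refine Nat.eq_of_mul_eq_mul_right (pow_pos hpos (Module.finrank (ZMod p) Sc.dualAnnihilator)) ?_
  rw [← h1, ← pow_add]
  congr 1
  omega

end

end Fermat.Agent.ClassField.S55
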