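import Mathlib

/-!
# S55: basic lemmas on modules of finite groups (norms, augmentation, induced modules)
-/

set_option autoImplicit false

namespace Fermat.Agent.ClassField.S55

section Norm

variable (G : Type*) [Group G] [Fintype G] {V W : Type*} [AddCommGroup V] [DistribMulAction G V]
  [AddCommGroup W] [DistribMulAction G W]

/-- the norm `∑ g • v` -/
def normSum : V →+ V where
  toFun v := ∑ g : G, g • v
  map_zero' := by simp
  map_add' v w := by simp [Finset.sum_add_distrib]

/-- the augmentation subgroup, generated by the `g • v - v` -/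
def aug (V : Type*) [AddCommGroup V] [DistribMulAction G V] : AddSubgroup V :=
  AddSubgroup.closure {x | ∃ (g : G) (v : V), g • v - v = x}

variable {G}

omit [Fintype G] in
lemma smul_sub_mem_aug (g : G) (v : V) : g • v - v ∈ aug G V :=
  AddSubgroup.subset_closure ⟨g, v, rfl⟩

lemma smul_normSum (g : G) (v : V) : g • normSum G v = normSum G v := by
  simp only [normSum, AddMonoidHom.coe_mk, ZeroHom.coe_mk, Finset.smul_sum, smul_smul]
  exact Fintype.sum_equiv (Equiv.mulLeft g) _ _ fun _ => rfl

lemma normSum_smul (g : G) (v : V) : normSum G (g • v) = normSum G v := by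
  simp only [normSum, AddMonoidHom.coe_mk, ZeroHom.coe_mk, smul_smul]
  exact Fintype.sum_equiv (Equiv.mulRight g) _ _ fun _ => rfl

lemma normSum_eq_zero_of_mem_aug {v : V} (hv : v ∈ aug G V) : normSum G v = 0 := by
  induction hv using AddSubgroup.closure_induction with
  | mem x hx => obtain ⟨g, w, rfl⟩ := hx; rw [map_sub, normSum_smul, sub_self]
  | zero => exact map_zero _
  | add x y _ _ hx hy => rw [map_add, hx, hy, add_zero]
  | neg x _ hx => rw [map_neg, hx, neg_zero]

lemma normSum_of_fixed {v : V} (hv : ∀ g : G, g • v = v) :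
    normSum G v = Fintype.card G • v := by
  simp [normSum, hv]

lemma map_normSum (f : V →+[G] W) (v : V) : f (normSum G v) = normSum G (f v) := by
  simp [normSum, map_sum]

omit [Fintype G] in
lemma map_mem_aug (f : V →+[G] W) {v : V} (hv : v ∈ aug G V) : f v ∈ aug G W := by
  induction hv using AddSubgroup.closure_induction with
  | mem x hx => obtain ⟨g, w, rfl⟩ := hx; rw [map_sub, map_smul]; exact smul_sub_mem_aug g _
  | zero => rw [map_zero]; exact zero_mem _
  | add x y _ _ hx hy => rw [map_add]; exact add_mem hx hy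
  | neg x _ hx => rw [map_neg]; exact neg_mem hx

omit [Fintype G] in
lemma exists_mem_aug_lift (f : V →+[G] W) (hf : Function.Surjective f) {w : W}
    (hw : w ∈ aug G W) : ∃ v ∈ aug G V, f v = w := by
  induction hw using AddSubgroup.closure_induction with
  | mem x hx =>
    obtain ⟨g, y, rfl⟩ := hx
    obtain ⟨v, rfl⟩ := hf y
    exact ⟨g • v - v, smul_sub_mem_aug g v, by rw [map_sub, map_smul]⟩
  | zero => exact ⟨0, zero_mem _, map_zero _⟩
  | add x y _ _ hx hy =>
    obtain ⟨a, ha, rfl⟩ := hx; obtain ⟨b, hb, rfl⟩ := hy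
    exact ⟨a + b, add_mem ha hb, map_add _ _ _⟩
  | neg x _ hx =>
    obtain ⟨a, ha, rfl⟩ := hx
    exact ⟨-a, neg_mem ha, map_neg _ _⟩

end Norm

section Induced

/-- The induced module `G → B` with translation action. -/
@[ext]
structure Ind (G B : Type*) where
  /-- the underlying function -/
  val : G → B

variable {G B : Type*} [Group G] [AddCommGroup B]

instance : Add (Ind G B) := ⟨fun f f' => ⟨f.val + f'.val⟩⟩
instance : Zero (Ind G B) := ⟨⟨0⟩⟩
instance : Neg (Ind G B) := ⟨fun f => ⟨-f.val⟩⟩
instance : Sub (Ind G B) := ⟨fun f f' => ⟨f.val - f'.val⟩⟩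

instance : AddCommGroup (Ind G B) where
  add_assoc f g h := Ind.ext (add_assoc _ _ _)
  zero_add f := Ind.ext (zero_add _)
  add_zero f := Ind.ext (add_zero _)
  add_comm f g := Ind.ext (add_comm _ _)
  sub_eq_add_neg f g := Ind.ext (sub_eq_add_neg _ _)
  neg_add_cancel f := Ind.ext (neg_add_cancel _)
  nsmul := nsmulRec
  zsmul := zsmulRec

instance : DistribMulAction G (Ind G B) where
  smul g f := ⟨fun τ => f.val (g⁻¹ * τ)⟩
  one_smul f := Ind.ext (funext fun τ => by
    show f.val (1⁻¹ * τ) = f.val τ
    rw [inv_one, one_mul])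
  mul_smul g h f := Ind.ext (funext fun τ => by
    show f.val ((g * h)⁻¹ * τ) = f.val (h⁻¹ * (g⁻¹ * τ))
    rw [mul_inv_rev, mul_assoc])
  smul_zero g := rfl
  smul_add g f f' := rfl

lemma Ind.smul_apply (g : G) (f : Ind G B) (τ : G) : (g • f).val τ = f.val (g⁻¹ * τ) := rfl

omit [Group G] in
@[simp] lemma Ind.add_apply (f f' : Ind G B) (τ : G) : (f + f').val τ = f.val τ + f'.val τ := rfl

omit [Group G] in
@[simp] lemma Ind.sub_apply (f f' : Ind G B) (τ : G) : (f - f').val τ = f.val τ - f'.val τ := rfl

omit [Group G] in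
@[simp] lemma Ind.neg_apply (f : Ind G B) (τ : G) : (-f).val τ = -f.val τ := rfl

omit [Group G] in
@[simp] lemma Ind.zero_apply (τ : G) : (0 : Ind G B).val τ = 0 := rfl

/-- evaluation -/
def Ind.evalHom (τ : G) : Ind G B →+ B where
  toFun f := f.val τ
  map_zero' := rfl
  map_add' _ _ := rfl

omit [Group G] in
lemma Ind.sum_apply {ι : Type*} (s : Finset ι) (f : ι → Ind G B) (τ : G) :
    (∑ i ∈ s, f i).val τ = ∑ i ∈ s, (f i).val τ :=
  map_sum (Ind.evalHom τ) f s

omit [Group G] in
@[simp] lemma Ind.nsmul_apply (n : ℕ) (f : Ind G B) (τ : G) : (n • f).val τ = n • f.val τ :=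
  map_nsmul (Ind.evalHom τ) n f

open Classical in
/-- delta function -/
noncomputable def Ind.single (σ : G) : B →+ Ind G B where
  toFun b := ⟨fun τ => if τ = σ then b else 0⟩
  map_zero' := Ind.ext (funext fun τ => ite_self _)
  map_add' a b := Ind.ext (funext fun τ => by
    show (if τ = σ then a + b else 0) = (if τ = σ then a else 0) + (if τ = σ then b else 0)
    split <;> simp)

lemma Ind.smul_single (g σ : G) (b : B) : g • Ind.single σ b = Ind.single (g * σ) b := by
  classical
  refine Ind.ext (funext fun τ => ?_)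
  show (if g⁻¹ * τ = σ then b else 0) = if τ = g * σ then b else 0
  simp only [inv_mul_eq_iff_eq_mul]

variable [Fintype G]

lemma Ind.eq_sum_single (f : Ind G B) : f = ∑ σ : G, Ind.single σ (f.val σ) := by
  classical
  refine Ind.ext (funext fun τ => ?_)
  rw [Ind.sum_apply]
  show f.val τ = ∑ σ : G, if τ = σ then f.val σ else 0
  simp

lemma Ind.exists_normSum_of_fixed {f : Ind G B} (hf : ∀ g : G, g • f = f) :
    ∃ e : Ind G B, normSum G e = f := by
  refine ⟨Ind.single 1 (f.val 1), ?_⟩
  conv_rhs => rw [Ind.eq_sum_single f]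
  refine Finset.sum_congr rfl fun σ _ => ?_
  rw [Ind.smul_single, mul_one]
  congr 1
  have := congrArg (fun e : Ind G B => e.val σ) (hf σ)
  simpa [Ind.smul_apply] using this

lemma Ind.mem_aug_of_normSum {f : Ind G B} (hf : normSum G f = 0) : f ∈ aug G (Ind G B) := by
  have h1 : ∑ σ : G, f.val σ = 0 := by
    have h := congrArg (fun e : Ind G B => e.val 1) hf
    simp only [normSum, AddMonoidHom.coe_mk, ZeroHom.coe_mk, Ind.sum_apply, Ind.smul_apply,
      mul_one, Ind.zero_apply] at h
    rw [← h]
    exact Fintype.sum_equiv (Equiv.inv G) _ _ (fun σ => by simp)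
  have : f = ∑ σ : G, (σ • Ind.single 1 (f.val σ) - Ind.single 1 (f.val σ)) := by
    rw [Finset.sum_sub_distrib, ← map_sum, h1, map_zero, sub_zero]
    conv_lhs => rw [Ind.eq_sum_single f]
    exact Finset.sum_congr rfl fun σ _ => by rw [Ind.smul_single, mul_one]
  rw [this]
  exact sum_mem fun σ _ => smul_sub_mem_aug σ _

end Induced

end Fermat.Agent.ClassField.S55
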