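import Mathlib

/-!
# S55, step T1: the cochain algebra behind Poitou–Tate

For a group `G` with a family of levels (normal finite index subgroups) and a diagram of discrete
`G`-modules

```
       PE --a--> PJ --π--> PC
      ↗ |         |         |
     M  r         r         r
        v         v         v
       RE --a--> RJ --π--> RC
```

we identify the group of classes of `M` in `H²` which die in the mapping cone of `PJ → RJ`
with `RC^G / (r PC^G + π RJ^G)`.
-/

set_option autoImplicit false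

namespace Fermat.Agent.ClassField.S55

variable (G : Type*) [Group G]

/-- A family of levels: a directed family of normal subgroups of finite index. -/
structure Levels where
  carrier : Set (Subgroup G)
  nonempty : carrier.Nonempty
  directed : ∀ U ∈ carrier, ∀ V ∈ carrier, ∃ W ∈ carrier, W ≤ U ∧ W ≤ V
  normal : ∀ U ∈ carrier, U.Normal
  finiteIndex : ∀ U ∈ carrier, U.FiniteIndex

variable {G} (L : Levels G)

namespace Levels

/-- right invariance under some level -/
def Smooth₁ {X : Type*} (f : G → X) : Prop :=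
  ∃ U ∈ L.carrier, ∀ g s : G, s ∈ U → f (g * s) = f g

/-- right invariance under some level in both variables -/
def Smooth₂ {X : Type*} (f : G × G → X) : Prop :=
  ∃ U ∈ L.carrier, ∀ g g' s s' : G, s ∈ U → s' ∈ U → f (g * s, g' * s') = f (g, g')

/-- a `G`-module is discrete if every element is fixed by some level -/
def Discrete (X : Type*) [SMul G X] : Prop :=
  ∀ x : X, ∃ U ∈ L.carrier, ∀ s ∈ U, s • x = x

variable {L}

lemma Smooth₁.comp {X Y : Type*} {f : G → X} (hf : L.Smooth₁ f) (φ : X → Y) :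
    L.Smooth₁ (φ ∘ f) := by
  obtain ⟨U, hU, h⟩ := hf
  exact ⟨U, hU, fun g s hs => congrArg φ (h g s hs)⟩

lemma Smooth₁.map₂ {X Y Z : Type*} {f : G → X} {f' : G → Y} (hf : L.Smooth₁ f) (hf' : L.Smooth₁ f')
    (φ : X → Y → Z) : L.Smooth₁ (fun g => φ (f g) (f' g)) := by
  obtain ⟨U, hU, h⟩ := hf
  obtain ⟨V, hV, h'⟩ := hf'
  obtain ⟨W, hW, hWU, hWV⟩ := L.directed U hU V hV
  exact ⟨W, hW, fun g s hs => by simp only [h g s (hWU hs), h' g s (hWV hs)]⟩

lemma smooth₁_const {X : Type*} (x : X) : L.Smooth₁ (fun _ : G => x) :=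
  L.nonempty.elim fun U hU => ⟨U, hU, fun _ _ _ => rfl⟩

lemma smooth₂_const {X : Type*} (x : X) : L.Smooth₂ (fun _ : G × G => x) :=
  L.nonempty.elim fun U hU => ⟨U, hU, fun _ _ _ _ _ _ => rfl⟩

lemma Smooth₁.add {X : Type*} [Add X] {f f' : G → X} (hf : L.Smooth₁ f) (hf' : L.Smooth₁ f') :
    L.Smooth₁ (f + f') := hf.map₂ hf' (· + ·)

lemma Smooth₁.sub {X : Type*} [Sub X] {f f' : G → X} (hf : L.Smooth₁ f) (hf' : L.Smooth₁ f') :
    L.Smooth₁ (f - f') := hf.map₂ hf' (· - ·)

lemma Smooth₁.neg {X : Type*} [Neg X] {f : G → X} (hf : L.Smooth₁ f) : L.Smooth₁ (-f) :=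
  hf.comp (- ·)

lemma Smooth₂.comp {X Y : Type*} {f : G × G → X} (hf : L.Smooth₂ f) (φ : X → Y) :
    L.Smooth₂ (φ ∘ f) := by
  obtain ⟨U, hU, h⟩ := hf
  exact ⟨U, hU, fun g g' s s' hs hs' => congrArg φ (h g g' s s' hs hs')⟩

lemma Smooth₂.map₂ {X Y Z : Type*} {f : G × G → X} {f' : G × G → Y} (hf : L.Smooth₂ f)
    (hf' : L.Smooth₂ f') (φ : X → Y → Z) : L.Smooth₂ (fun g => φ (f g) (f' g)) := by
  obtain ⟨U, hU, h⟩ := hf
  obtain ⟨V, hV, h'⟩ := hf'
  obtain ⟨W, hW, hWU, hWV⟩ := L.directed U hU V hV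
  exact ⟨W, hW, fun g g' s s' hs hs' => by
    simp only [h g g' s s' (hWU hs) (hWU hs'), h' g g' s s' (hWV hs) (hWV hs')]⟩

lemma Smooth₂.of_comp {X Y : Type*} {f : G × G → X} {φ : X → Y} (hφ : Function.Injective φ)
    (hf : L.Smooth₂ (φ ∘ f)) : L.Smooth₂ f := by
  obtain ⟨U, hU, h⟩ := hf
  exact ⟨U, hU, fun g g' s s' hs hs' => hφ (h g g' s s' hs hs')⟩

lemma Smooth₁.of_comp {X Y : Type*} {f : G → X} {φ : X → Y} (hφ : Function.Injective φ)
    (hf : L.Smooth₁ (φ ∘ f)) : L.Smooth₁ f := by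
  obtain ⟨U, hU, h⟩ := hf
  exact ⟨U, hU, fun g s hs => hφ (h g s hs)⟩

end Levels

section Cochains

variable {X Y : Type*} [AddCommGroup X] [DistribMulAction G X] [AddCommGroup Y]
  [DistribMulAction G Y]

/-- differential on 0-cochains -/
def d0 (x : X) : G → X := fun g => g • x - x

/-- differential on 1-cochains -/
def d1 (f : G → X) : G × G → X := fun p => p.1 • f p.2 - f (p.1 * p.2) + f p.1

lemma d1_d0 (x : X) : d1 (d0 (G := G) x) = 0 := by
  ext ⟨g, h⟩
  simp only [d1, d0, smul_sub, mul_smul, Pi.zero_apply]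
  abel

lemma d1_add (f f' : G → X) : d1 (f + f') = d1 f + d1 f' := by
  ext ⟨g, h⟩
  simp only [d1, Pi.add_apply, smul_add]
  abel

lemma d1_sub (f f' : G → X) : d1 (f - f') = d1 f - d1 f' := by
  ext ⟨g, h⟩
  simp only [d1, Pi.sub_apply, smul_sub]
  abel

lemma d1_nsmul (n : ℕ) (f : G → X) : d1 (n • f) = n • d1 f := by
  ext ⟨g, h⟩
  simp only [d1, Pi.smul_apply, smul_comm g n, nsmul_add, nsmul_sub]

lemma d0_sub (x y : X) : d0 (G := G) (x - y) = d0 (G := G) x - d0 (G := G) y := by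
  ext g
  simp only [d0, Pi.sub_apply, smul_sub]
  abel

lemma d0_add (x y : X) : d0 (G := G) (x + y) = d0 (G := G) x + d0 (G := G) y := by
  ext g
  simp only [d0, Pi.add_apply, smul_add]
  abel

lemma comp_d1 (φ : X →+[G] Y) (f : G → X) : φ ∘ d1 f = d1 (φ ∘ f) := by
  ext ⟨g, h⟩
  simp only [d1, Function.comp_apply, map_add, map_sub, map_smul]

lemma comp_d0 (φ : X →+[G] Y) (x : X) : φ ∘ d0 (G := G) x = d0 (G := G) (φ x) := by
  ext g
  simp only [d0, Function.comp_apply, map_sub, map_smul]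

lemma d0_eq_zero_iff (x : X) : d0 (G := G) x = 0 ↔ ∀ g : G, g • x = x := by
  simp only [funext_iff, d0, Pi.zero_apply, sub_eq_zero]

variable {L}

lemma Levels.smooth₁_d0 (hX : L.Discrete X) (x : X) : L.Smooth₁ (d0 (G := G) x) := by
  obtain ⟨U, hU, h⟩ := hX x
  exact ⟨U, hU, fun g s hs => by simp only [d0, mul_smul, h s hs]⟩

lemma Levels.Smooth₁.smooth₂_d1 (hX : L.Discrete X) {f : G → X} (hf : L.Smooth₁ f) :
    L.Smooth₂ (d1 f) := by
  classical
  obtain ⟨U, hU, h⟩ := hf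
  have := L.finiteIndex U hU
  have : Finite (G ⧸ U) := U.finite_quotient_of_finiteIndex
  -- a level fixing all values of `f`
  have hval : ∀ g, f g = f (Quotient.out (s := QuotientGroup.leftRel U) (g : G ⧸ U)) := by
    intro g
    obtain ⟨s, hs⟩ := QuotientGroup.mk_out_eq_mul U g
    rw [hs, h g s s.2]
  have key : ∀ T : Finset (G ⧸ U), ∃ V ∈ L.carrier,
      ∀ q ∈ T, ∀ s ∈ V, s • f (Quotient.out q) = f (Quotient.out q) := by
    intro T
    induction T using Finset.induction_on with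
    | empty => exact ⟨U, hU, by simp⟩
    | @insert q T _ ih =>
      obtain ⟨V, hV, ihV⟩ := ih
      obtain ⟨V', hV', hq⟩ := hX (f (Quotient.out q))
      obtain ⟨W, hW, hWV, hWV'⟩ := L.directed V hV V' hV'
      refine ⟨W, hW, fun r hr s hs => ?_⟩
      rcases Finset.mem_insert.1 hr with rfl | hr
      · exact hq s (hWV' hs)
      · exact ihV r hr s (hWV hs)
  obtain ⟨V, hV, hfix⟩ := key (Set.finite_univ (α := G ⧸ U)).toFinset
  obtain ⟨W, hW, hWU, hWV⟩ := L.directed U hU V hV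
  refine ⟨W, hW, fun g g' s s' hs hs' => ?_⟩
  have hfix' : ∀ g : G, ∀ t ∈ W, t • f g = f g := by
    intro g t ht
    rw [hval g]
    exact hfix _ (by simp) t (hWV ht)
  have hconj : g'⁻¹ * s * g' ∈ U := by
    have := (L.normal U hU).conj_mem s (hWU hs) g'⁻¹
    simpa using this
  have h1 : f (g * s * (g' * s')) = f (g * g') := by
    have : g * s * (g' * s') = g * g' * (g'⁻¹ * s * g' * s') := by group
    rw [this, h _ _ (U.mul_mem hconj (hWU hs'))]
  simp only [d1, mul_smul, h g' s' (hWU hs'), h g s (hWU hs), hfix' g' s hs, h1]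

end Cochains

/-- The diagram of modules used in the Poitou–Tate cochain argument. -/
structure PTDiagram (L : Levels G) (p : ℕ)
    (M PE RE PJ RJ PC RC : Type*) [AddCommGroup M] [AddCommGroup PE] [AddCommGroup RE]
    [AddCommGroup PJ] [AddCommGroup RJ] [AddCommGroup PC] [AddCommGroup RC]
    [DistribMulAction G M] [DistribMulAction G PE] [DistribMulAction G RE] [DistribMulAction G PJ]
    [DistribMulAction G RJ] [DistribMulAction G PC] [DistribMulAction G RC] where
  i : M →+[G] PE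
  rE : PE →+[G] RE
  rJ : PJ →+[G] RJ
  rC : PC →+[G] RC
  aP : PE →+[G] PJ
  aR : RE →+[G] RJ
  πP : PJ →+[G] PC
  πR : RJ →+[G] RC
  i_inj : Function.Injective i
  rE_surj : Function.Surjective rE
  exact_E : ∀ x, rE x = 0 ↔ ∃ m, i m = x
  aP_inj : Function.Injective aP
  aR_inj : Function.Injective aR
  πP_surj : Function.Surjective πP
  πR_surj : Function.Surjective πR
  exact_P : ∀ x, πP x = 0 ↔ ∃ e, aP e = x
  exact_R : ∀ x, πR x = 0 ↔ ∃ e, aR e = x
  comm_a : ∀ x, rJ (aP x) = aR (rE x)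
  comm_π : ∀ x, rC (πP x) = πR (rJ x)
  discrete_M : L.Discrete M
  discrete_PE : L.Discrete PE
  discrete_PJ : L.Discrete PJ
  discrete_RJ : L.Discrete RJ
  p_smul_M : ∀ m : M, p • m = 0
  h1_PJ : ∀ f : G → PJ, L.Smooth₁ f → d1 f = 0 → ∃ x, d0 x = f
  h1_PC : ∀ f : G → PC, L.Smooth₁ f → d1 f = 0 → (∃ y, d0 y = p • f) → ∃ x, d0 x = f

namespace PTDiagram

variable {L} {p : ℕ} {M PE RE PJ RJ PC RC : Type*} [AddCommGroup M] [AddCommGroup PE]
  [AddCommGroup RE] [AddCommGroup PJ] [AddCommGroup RJ] [AddCommGroup PC] [AddCommGroup RC]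
  [DistribMulAction G M] [DistribMulAction G PE] [DistribMulAction G RE] [DistribMulAction G PJ]
  [DistribMulAction G RJ] [DistribMulAction G PC] [DistribMulAction G RC]
  (D : PTDiagram L p M PE RE PJ RJ PC RC)

/-- The invariants `RC^G` -/
def target (_D : PTDiagram L p M PE RE PJ RJ PC RC) : AddSubgroup RC where
  carrier := {s | ∀ g : G, g • s = s}
  add_mem' ha hb g := by rw [smul_add, ha g, hb g]
  zero_mem' g := smul_zero g
  neg_mem' ha g := by rw [smul_neg, ha g]

/-- `r PC^G + π RJ^G` -/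
def trivialPart : AddSubgroup RC where
  carrier := {s | ∃ (h : PC) (j : RJ), (∀ g : G, g • h = h) ∧ (∀ g : G, g • j = j) ∧
    D.rC h + D.πR j = s}
  add_mem' := by
    rintro _ _ ⟨h, j, hh, hj, rfl⟩ ⟨h', j', hh', hj', rfl⟩
    exact ⟨h + h', j + j', fun g => by rw [smul_add, hh, hh'],
      fun g => by rw [smul_add, hj, hj'], by rw [map_add, map_add]; abel⟩
  zero_mem' := ⟨0, 0, smul_zero, smul_zero, by simp⟩
  neg_mem' := by
    rintro _ ⟨h, j, hh, hj, rfl⟩
    exact ⟨-h, -j, fun g => by rw [smul_neg, hh], fun g => by rw [smul_neg, hj],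
      by rw [map_neg, map_neg]; abel⟩

/-- smooth 2-cochains of `M` which die in the cone of `PJ → RJ` -/
def locTriv : AddSubgroup (G × G → M) where
  carrier := {c | L.Smooth₂ c ∧ ∃ (b : G → PJ) (t : RJ), L.Smooth₁ b ∧
    d1 b = D.aP ∘ D.i ∘ c ∧ D.rJ ∘ b = d0 t}
  add_mem' := by
    rintro c c' ⟨hc, b, t, hb, h1, h2⟩ ⟨hc', b', t', hb', h1', h2'⟩
    refine ⟨hc.map₂ hc' (· + ·), b + b', t + t', hb.add hb', ?_, ?_⟩
    · rw [d1_add, h1, h1']; ext x; simp
    · rw [d0_add, ← h2, ← h2']; ext x; simp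
  zero_mem' := ⟨Levels.smooth₂_const 0, 0, 0, Levels.smooth₁_const 0,
    by ext x; simp [d1], by ext x; simp [d0]⟩
  neg_mem' := by
    rintro c ⟨hc, b, t, hb, h1, h2⟩
    refine ⟨hc.comp (- ·), -b, -t, hb.neg, ?_, ?_⟩
    · have : d1 (-b) = -d1 b := by
        rw [← zero_sub, d1_sub]; ext ⟨g, h⟩; simp [d1]
      rw [this, h1]; ext x; simp
    · ext x
      have := congrFun h2 x
      simp only [Function.comp_apply, d0] at this
      simp only [Function.comp_apply, Pi.neg_apply, map_neg, this, d0, smul_neg]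
      abel

/-- smooth 2-coboundaries -/
def coboundaries (_D : PTDiagram L p M PE RE PJ RJ PC RC) : AddSubgroup (G × G → M) where
  carrier := {c | ∃ m : G → M, L.Smooth₁ m ∧ d1 m = c}
  add_mem' := by
    rintro _ _ ⟨m, hm, rfl⟩ ⟨m', hm', rfl⟩
    exact ⟨m + m', hm.add hm', d1_add m m'⟩
  zero_mem' := ⟨0, Levels.smooth₁_const 0, by ext x; simp [d1]⟩
  neg_mem' := by
    rintro _ ⟨m, hm, rfl⟩
    exact ⟨0 - m, (Levels.smooth₁_const 0).sub hm,
      by rw [d1_sub]; ext ⟨g, h⟩; simp [d1]⟩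

lemma coboundaries_le_locTriv : D.coboundaries ≤ D.locTriv := by
  rintro _ ⟨m, hm, rfl⟩
  refine ⟨hm.smooth₂_d1 D.discrete_M, D.aP ∘ D.i ∘ m, 0, (hm.comp _).comp _, ?_, ?_⟩
  · rw [← comp_d1, ← comp_d1]
  · ext g
    simp [D.comm_a, (D.exact_E (D.i (m g))).2 ⟨m g, rfl⟩, d0]

/-- the relation between `RC^G` and locally trivial classes -/
def rel : AddSubgroup (D.target × D.locTriv) where
  carrier := {x | ∃ (st : RJ) (e : G → PE), L.Smooth₁ e ∧ D.πR st = (x.1 : RC) ∧
    d0 st = D.aR ∘ D.rE ∘ e ∧ d1 e = D.i ∘ (x.2 : G × G → M)}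
  add_mem' := by
    rintro x y ⟨st, e, he, h1, h2, h3⟩ ⟨st', e', he', h1', h2', h3'⟩
    refine ⟨st + st', e + e', he.add he', ?_, ?_, ?_⟩
    · simp [h1, h1']
    · rw [d0_add, h2, h2']; ext g; simp
    · rw [d1_add, h3, h3']; ext g; simp
  zero_mem' := ⟨0, 0, Levels.smooth₁_const 0, by simp, by ext g; simp [d0],
    by ext g; simp [d1]⟩
  neg_mem' := by
    rintro x ⟨st, e, he, h1, h2, h3⟩
    refine ⟨0 - st, 0 - e, (Levels.smooth₁_const 0).sub he, ?_, ?_, ?_⟩
    · simp [h1]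
    · rw [d0_sub, h2]; ext g; simp [d0]
    · rw [d1_sub, h3]; ext g; simp [d1]

lemma rel_fst_surjective (s : D.target) : ∃ c : D.locTriv, (s, c) ∈ D.rel := by
  classical
  obtain ⟨st, hst⟩ := D.πR_surj (s : RC)
  have hk : ∀ g : G, ∃ ε, D.aR ε = d0 st g := fun g => (D.exact_R _).1 (by
    simp only [d0, map_sub, map_smul, hst, s.2 g, sub_self])
  choose ε hε using hk
  have hεs : L.Smooth₁ ε := by
    refine Levels.Smooth₁.of_comp D.aR_inj ?_
    have : (D.aR ∘ ε) = d0 st := funext hε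
    rw [this]
    exact Levels.smooth₁_d0 D.discrete_RJ st
  let e : G → PE := fun g => Function.surjInv D.rE_surj (ε g)
  have he : L.Smooth₁ e := hεs.comp (Function.surjInv D.rE_surj)
  have hre : D.rE ∘ e = ε := funext fun g => Function.surjInv_eq D.rE_surj _
  have hd : D.aR ∘ D.rE ∘ e = d0 st := by rw [hre]; exact funext hε
  have hzero : ∀ x, D.rE (d1 e x) = 0 := by
    intro x
    apply D.aR_inj
    have h := congrFun (comp_d1 D.aR (D.rE ∘ e)) x
    simp only [Function.comp_apply] at h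
    have h' := congrFun (comp_d1 D.rE e) x
    simp only [Function.comp_apply] at h'
    rw [h', h, hd, d1_d0, map_zero]
    rfl
  have hm : ∀ x, ∃ m, D.i m = d1 e x := fun x => (D.exact_E _).1 (hzero x)
  choose c hc using hm
  have hc' : D.i ∘ c = d1 e := funext hc
  have hcs : L.Smooth₂ c := Levels.Smooth₂.of_comp D.i_inj
    (by rw [hc']; exact he.smooth₂_d1 D.discrete_PE)
  have hcl : c ∈ D.locTriv := ⟨hcs, D.aP ∘ e, st, he.comp _, by rw [hc', ← comp_d1],
    by rw [← hd]; ext g; simp [D.comm_a]⟩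
  exact ⟨⟨c, hcl⟩, st, e, he, hst, hd.symm, hc'.symm⟩

lemma rel_snd_surjective (c : D.locTriv) : ∃ s : D.target, (s, c) ∈ D.rel := by
  classical
  obtain ⟨hcs, b, t, hb, h1, h2⟩ := c.2
  -- `p • b` is a cocycle, hence a coboundary
  have hpb : d1 (p • b) = 0 := by
    rw [d1_nsmul, h1]
    ext x
    simp [← map_nsmul, D.p_smul_M]
  obtain ⟨k, hk⟩ := D.h1_PJ (p • b) (hb.comp (p • ·)) hpb
  have hz : d1 (D.πP ∘ b) = 0 := by
    rw [← comp_d1, h1]
    ext x
    exact (D.exact_P _).2 ⟨_, rfl⟩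
  obtain ⟨h, hh⟩ := D.h1_PC (D.πP ∘ b) (hb.comp _) hz ⟨D.πP k, by
    rw [← comp_d0, hk]; ext g; simp [map_nsmul]⟩
  obtain ⟨ht, hht⟩ := D.πP_surj h
  have hk' : ∀ g, ∃ e, D.aP e = b g - d0 ht g := fun g => (D.exact_P _).1 (by
    have := congrFun hh g
    simp only [Function.comp_apply, d0] at this
    simp only [d0, map_sub, map_smul, hht, this, sub_self])
  choose e he using hk'
  have he' : D.aP ∘ e = b - d0 ht := funext he
  have hes : L.Smooth₁ e := Levels.Smooth₁.of_comp D.aP_inj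
    (by rw [he']; exact hb.sub (Levels.smooth₁_d0 D.discrete_PJ ht))
  have hde : d1 e = D.i ∘ (c : G × G → M) := by
    have : D.aP ∘ d1 e = D.aP ∘ D.i ∘ (c : G × G → M) := by
      rw [comp_d1, he', d1_sub, d1_d0, sub_zero, h1]
    exact funext fun x => D.aP_inj (congrFun this x)
  have hst : d0 (t - D.rJ ht) = D.aR ∘ D.rE ∘ e := by
    rw [d0_sub, ← h2, ← comp_d0]
    ext g
    simp only [Pi.sub_apply, Function.comp_apply, ← D.comm_a, he, map_sub]
  refine ⟨⟨D.πR (t - D.rJ ht), fun g => ?_⟩, t - D.rJ ht, e, hes, rfl, hst, hde⟩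
  rw [← sub_eq_zero, ← map_smul, ← map_sub]
  exact (D.exact_R _).2 ⟨_, (congrFun hst g).symm⟩

lemma rel_iff {s : D.target} {c : D.locTriv} (hsc : (s, c) ∈ D.rel) :
    (s : RC) ∈ D.trivialPart ↔ (c : G × G → M) ∈ D.coboundaries := by
  classical
  obtain ⟨st, e, he, hs, hd, hc⟩ := hsc
  constructor
  · rintro ⟨h, j, hh, hj, hsum⟩
    obtain ⟨ht, hht⟩ := D.πP_surj h
    obtain ⟨ε, hε⟩ := (D.exact_R (st - j - D.rJ ht)).1 (by
      rw [map_sub, map_sub, ← D.comm_π, hht, hs]
      change (s : RC) - D.πR j - D.rC h = 0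
      rw [← hsum]; abel)
    obtain ⟨η, rfl⟩ := D.rE_surj ε
    -- `e₀` is the trivial solution
    have hk : ∀ g : G, ∃ e0, D.aP e0 = d0 ht g := fun g => (D.exact_P _).1 (by
      simp only [d0, map_sub, map_smul, hht, hh g, sub_self])
    choose e0 he0 using hk
    have he0' : D.aP ∘ e0 = d0 ht := funext he0
    have he0s : L.Smooth₁ e0 := Levels.Smooth₁.of_comp D.aP_inj
      (by rw [he0']; exact Levels.smooth₁_d0 D.discrete_PJ ht)
    have he0d : d1 e0 = 0 := by
      have : D.aP ∘ d1 e0 = 0 := by rw [comp_d1, he0', d1_d0]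
      exact funext fun x => D.aP_inj (by simpa using congrFun this x)
    have hdη : L.Smooth₁ (d0 (G := G) η) := Levels.smooth₁_d0 D.discrete_PE η
    have hz : ∀ g, D.rE (e g - e0 g - d0 η g) = 0 := by
      intro g
      apply D.aR_inj
      have hg := congrFun hd g
      simp only [Function.comp_apply] at hg
      have e1 : D.aR (D.rE (e0 g)) = g • D.rJ ht - D.rJ ht := by
        rw [← D.comm_a, he0, d0, map_sub, map_smul]
      rw [map_sub, map_sub, map_sub, map_sub, ← hg, e1, map_zero]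
      simp only [d0, map_sub, map_smul, hε, smul_sub, hj g]
      abel
    choose m hm using fun g => (D.exact_E _).1 (hz g)
    have hm' : D.i ∘ m = e - e0 - d0 η := funext hm
    have hms : L.Smooth₁ m := Levels.Smooth₁.of_comp D.i_inj
      (by rw [hm']; exact (he.sub he0s).sub hdη)
    refine ⟨m, hms, funext fun x => D.i_inj ?_⟩
    have := congrFun (comp_d1 D.i m) x
    simp only [Function.comp_apply] at this
    rw [this, hm', d1_sub, d1_sub, he0d, d1_d0, hc, sub_zero, sub_zero]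
    rfl
  · rintro ⟨m, hm, hdm⟩
    let e' : G → PE := e - D.i ∘ m
    have he' : L.Smooth₁ e' := he.sub (hm.comp _)
    have hz : d1 (D.aP ∘ e') = 0 := by
      rw [← comp_d1, d1_sub, hc, ← comp_d1, hdm, sub_self]
      ext x; simp
    obtain ⟨k, hk⟩ := D.h1_PJ (D.aP ∘ e') (he'.comp _) hz
    refine ⟨D.πP k, st - D.rJ k, fun g => ?_, fun g => ?_, ?_⟩
    · rw [← sub_eq_zero, ← map_smul, ← map_sub]
      exact (D.exact_P _).2 ⟨_, (congrFun hk g).symm⟩
    · rw [← sub_eq_zero]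
      have h2 := congrFun hd g
      have h3 := congrFun hk g
      simp only [d0, Function.comp_apply] at h2 h3
      have hi : D.rE (D.i (m g)) = 0 := (D.exact_E _).2 ⟨_, rfl⟩
      calc g • (st - D.rJ k) - (st - D.rJ k)
          = (g • st - st) - D.rJ (g • k - k) := by rw [smul_sub, map_sub, map_smul]; abel
        _ = 0 := by
          rw [h2, h3]
          simp only [e', Pi.sub_apply, Function.comp_apply, map_sub, D.comm_a, hi, map_zero,
            sub_zero, sub_self]
    · rw [map_sub, ← D.comm_π, hs]; abel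

/-- **T1**: `RC^G / (r PC^G + π RJ^G)` is isomorphic to the locally trivial classes. -/
theorem nonempty_equiv :
    Nonempty ((D.target ⧸ D.trivialPart.addSubgroupOf D.target) ≃+
      (D.locTriv ⧸ D.coboundaries.addSubgroupOf D.locTriv)) := by
  let f₁ : D.rel →+ D.target ⧸ D.trivialPart.addSubgroupOf D.target :=
    (QuotientAddGroup.mk' _).comp ((AddMonoidHom.fst _ _).comp D.rel.subtype)
  let f₂ : D.rel →+ D.locTriv ⧸ D.coboundaries.addSubgroupOf D.locTriv :=
    (QuotientAddGroup.mk' _).comp ((AddMonoidHom.snd _ _).comp D.rel.subtype)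
  have h1 : Function.Surjective f₁ := by
    intro x
    obtain ⟨s, rfl⟩ := QuotientAddGroup.mk'_surjective _ x
    obtain ⟨c, hc⟩ := D.rel_fst_surjective s
    exact ⟨⟨(s, c), hc⟩, rfl⟩
  have h2 : Function.Surjective f₂ := by
    intro x
    obtain ⟨c, rfl⟩ := QuotientAddGroup.mk'_surjective _ x
    obtain ⟨s, hs⟩ := D.rel_snd_surjective c
    exact ⟨⟨(s, c), hs⟩, rfl⟩
  have hker : f₁.ker = f₂.ker := by
    ext ⟨⟨s, c⟩, hsc⟩
    simp only [AddMonoidHom.mem_ker, f₁, f₂, AddMonoidHom.coe_comp, Function.comp_apply,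
      AddSubgroup.coe_subtype, AddMonoidHom.coe_fst, AddMonoidHom.coe_snd,
      QuotientAddGroup.mk'_apply, QuotientAddGroup.eq_zero_iff, AddSubgroup.mem_addSubgroupOf]
    exact D.rel_iff hsc
  exact ⟨(QuotientAddGroup.quotientKerEquivOfSurjective f₁ h1).symm.trans
    ((QuotientAddGroup.quotientAddEquivOfEq hker).trans
      (QuotientAddGroup.quotientKerEquivOfSurjective f₂ h2))⟩

end PTDiagram

end Fermat.Agent.ClassField.S55
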