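import Fermat.Agent.ClassField.S55.Basics
import Fermat.Agent.ClassField.S55.Complex

/-!
# S55: conjugation action on homomorphism groups
-/

set_option autoImplicit false

namespace Fermat.Agent.ClassField.S55

/-- Homomorphisms, with the conjugation action of a group. -/
@[ext]
structure CHom (R X : Type*) [AddCommGroup R] [AddCommGroup X] where
  /-- the underlying homomorphism -/
  hom : R →+ X

variable {G R X Y : Type*} [AddCommGroup R] [AddCommGroup X] [AddCommGroup Y]

instance : CoeFun (CHom R X) fun _ => R → X := ⟨fun f => f.hom⟩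

@[ext] lemma CHom.ext' {f f' : CHom R X} (h : ∀ r, f r = f' r) : f = f' :=
  CHom.ext (AddMonoidHom.ext h)

instance : Add (CHom R X) := ⟨fun f f' => ⟨f.hom + f'.hom⟩⟩
instance : Zero (CHom R X) := ⟨⟨0⟩⟩
instance : Neg (CHom R X) := ⟨fun f => ⟨-f.hom⟩⟩
instance : Sub (CHom R X) := ⟨fun f f' => ⟨f.hom - f'.hom⟩⟩

instance : AddCommGroup (CHom R X) where
  add_assoc f g h := CHom.ext (add_assoc _ _ _)
  zero_add f := CHom.ext (zero_add _)
  add_zero f := CHom.ext (add_zero _)
  add_comm f g := CHom.ext (add_comm _ _)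
  sub_eq_add_neg f g := CHom.ext (sub_eq_add_neg _ _)
  neg_add_cancel f := CHom.ext (neg_add_cancel _)
  nsmul := nsmulRec
  zsmul := zsmulRec

@[simp] lemma CHom.add_apply (f f' : CHom R X) (r : R) : (f + f') r = f r + f' r := rfl
@[simp] lemma CHom.sub_apply (f f' : CHom R X) (r : R) : (f - f') r = f r - f' r := rfl
@[simp] lemma CHom.neg_apply (f : CHom R X) (r : R) : (-f) r = -f r := rfl
@[simp] lemma CHom.zero_apply (r : R) : (0 : CHom R X) r = 0 := rfl

/-- evaluation at an element -/
def CHom.evalHom (r : R) : CHom R X →+ X where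
  toFun f := f r
  map_zero' := rfl
  map_add' _ _ := rfl

@[simp] lemma CHom.nsmul_apply (n : ℕ) (f : CHom R X) (r : R) : (n • f) r = n • f r :=
  map_nsmul (CHom.evalHom r) n f

@[simp] lemma CHom.zsmul_apply (n : ℤ) (f : CHom R X) (r : R) : (n • f) r = n • f r :=
  map_zsmul (CHom.evalHom r) n f

lemma CHom.sum_apply {ι : Type*} (s : Finset ι) (f : ι → CHom R X) (r : R) :
    (∑ i ∈ s, f i) r = ∑ i ∈ s, f i r :=
  map_sum (CHom.evalHom r) f s

section Action

variable [Group G] [DistribMulAction G R] [DistribMulAction G X] [DistribMulAction G Y]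

instance : DistribMulAction G (CHom R X) where
  smul g f := ⟨(DistribSMul.toAddMonoidHom X g).comp
    (f.hom.comp (DistribSMul.toAddMonoidHom R g⁻¹))⟩
  one_smul f := CHom.ext' fun r => by
    show (1 : G) • f ((1 : G)⁻¹ • r) = f r
    rw [inv_one, one_smul, one_smul]
  mul_smul g h f := CHom.ext' fun r => by
    show (g * h) • f ((g * h)⁻¹ • r) = g • h • f (h⁻¹ • g⁻¹ • r)
    rw [mul_inv_rev, mul_smul, mul_smul]
  smul_zero g := CHom.ext' fun r => smul_zero g
  smul_add g f f' := CHom.ext' fun r => smul_add g _ _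

lemma CHom.smul_apply (g : G) (f : CHom R X) (r : R) : (g • f) r = g • f (g⁻¹ • r) := rfl

lemma CHom.fixed_iff (f : CHom R X) :
    (∀ g : G, g • f = f) ↔ ∀ (g : G) (r : R), f (g • r) = g • f r := by
  constructor
  · intro h g r
    conv_lhs => rw [← h g]
    rw [CHom.smul_apply, inv_smul_smul]
  · intro h g
    refine CHom.ext' fun r => ?_
    rw [CHom.smul_apply, h, smul_inv_smul]

/-- composition with an equivariant map on the target -/
def CHom.post (φ : X →+[G] Y) : CHom R X →+[G] CHom R Y where
  toFun f := ⟨(φ : X →+ Y).comp f.hom⟩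
  map_smul' g f := CHom.ext' fun r => map_smul φ g _
  map_zero' := CHom.ext' fun r => map_zero φ
  map_add' f f' := CHom.ext' fun r => map_add φ _ _

omit [DistribMulAction G R] in
@[simp] lemma CHom.post_apply_apply [DistribMulAction G R] (φ : X →+[G] Y) (f : CHom R X) (r : R) :
    (CHom.post φ f) r = φ (f r) := rfl

variable {R' : Type*} [AddCommGroup R'] [DistribMulAction G R']

/-- composition with an equivariant map on the source -/
def CHom.pre (φ : R' →+[G] R) : CHom R X →+[G] CHom R' X where
  toFun f := ⟨f.hom.comp (φ : R' →+ R)⟩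
  map_smul' g f := CHom.ext' fun r =>
    congrArg (fun z => g • f.hom z) (map_smul φ g⁻¹ r).symm
  map_zero' := CHom.ext' fun r => rfl
  map_add' f f' := CHom.ext' fun r => rfl

lemma CHom.pre_apply_apply (φ : R' →+[G] R) (f : CHom R X) (r : R') :
    (CHom.pre φ f : CHom R' X) r = f (φ r) := rfl

lemma CHom.post_surjective [Module.Free ℤ R] {φ : X →+[G] Y} (hφ : Function.Surjective φ) :
    Function.Surjective (CHom.post (R := R) φ) := by
  intro f
  obtain ⟨l, hl⟩ := Module.projective_lifting_property
    (φ : X →+ Y).toIntLinearMap f.hom.toIntLinearMap hφ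
  exact ⟨⟨l.toAddMonoidHom⟩, CHom.ext' fun r => LinearMap.congr_fun hl r⟩

end Action

end Fermat.Agent.ClassField.S55
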