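import Fermat.Agent.ClassField.S55.Presentation

/-!
# S55: the pairing between 1-chains and 1-cochains mod `p`
-/

set_option autoImplicit false

namespace Fermat.Agent.ClassField.S55

variable {G R P N Y : Type*} [Group G] [AddCommGroup R] [AddCommGroup P] [AddCommGroup N]
  [DistribMulAction G R] [DistribMulAction G P] [DistribMulAction G N] [MulAction G Y]
  {p : ℕ} [Fact p.Prime] [Module (ZMod p) N]

variable (G N p) in
/-- `d0` as a linear map -/
def d0L : N →ₗ[ZMod p] (G → N) :=
  AddMonoidHom.toZModLinearMap p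
    { toFun := fun n => d0 (G := G) n
      map_zero' := by ext g; simp [d0]
      map_add' := d0_add }

variable (G N p) in
/-- `d1` as a linear map -/
def d1L : (G → N) →ₗ[ZMod p] (G × G → N) :=
  AddMonoidHom.toZModLinearMap p
    { toFun := fun f => d1 f
      map_zero' := by ext x; simp [d1]
      map_add' := d1_add }

lemma d0L_apply (n : N) : d0L G N p n = d0 n := rfl
lemma d1L_apply (f : G → N) : d1L G N p f = d1 f := rfl

variable [Fintype G] (D : FinPresentation G R P N Y)

variable (p) in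
/-- the pairing of chains with cochains -/
noncomputable def Phi : (G → (R →+ ℤ)) →+ Module.Dual (ZMod p) (G → N) where
  toFun a := AddMonoidHom.toZModLinearMap p
    { toFun := fun f => ∑ g : G, D.dlt p (a g) (f g)
      map_zero' := by simp
      map_add' := fun f f' => by simp [Finset.sum_add_distrib] }
  map_zero' := LinearMap.ext fun f => by
    show ∑ g : G, D.dlt p ((0 : G → (R →+ ℤ)) g) (f g) = 0
    simp
  map_add' a a' := LinearMap.ext fun f => by
    show ∑ g : G, D.dlt p ((a + a') g) (f g) =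
      (∑ g : G, D.dlt p (a g) (f g)) + ∑ g : G, D.dlt p (a' g) (f g)
    simp [Finset.sum_add_distrib]

lemma Phi_apply (a : G → (R →+ ℤ)) (f : G → N) :
    Phi p D a f = ∑ g : G, D.dlt p (a g) (f g) := rfl

lemma dlt_bd1 (a : G → (R →+ ℤ)) (n : N) :
    D.dlt p (bd1 G R a) n = Phi p D a (d0 n) := by
  have : bd1 G R a = ∑ g : G, ((a g).comp (DistribSMul.toAddMonoidHom R g) - a g) := rfl
  rw [this, map_sum, AddMonoidHom.finsetSum_apply, Phi_apply]
  refine Finset.sum_congr rfl fun g _ => ?_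
  simp [d0, D.dlt_comp_smul]

lemma Phi_bd2 (b : G → G → (R →+ ℤ)) (f : G → N) :
    Phi p D (bd2 G R b) f = ∑ x : G, ∑ y : G, D.dlt p (b x y) (d1 f (x, y)) := by
  have hterm : ∀ g : G, D.dlt p (bd2 G R b g) (f g) = ∑ h : G, (D.dlt p (b h g) (h • f g)
      - D.dlt p (b h (h⁻¹ * g)) (f g) + D.dlt p (b g h) (f g)) := by
    intro g
    have : bd2 G R b g = ∑ h : G, ((b h g).comp (DistribSMul.toAddMonoidHom R h)
      - b h (h⁻¹ * g) + b g h) := rfl
    rw [this, map_sum, AddMonoidHom.finsetSum_apply]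
    exact Finset.sum_congr rfl fun h _ => by simp [D.dlt_comp_smul]
  rw [Phi_apply, Finset.sum_congr rfl fun g _ => hterm g]
  simp only [d1, map_add, map_sub, Finset.sum_add_distrib, Finset.sum_sub_distrib]
  congr 1
  congr 1
  · rw [Finset.sum_comm]
  · rw [Finset.sum_comm]
    exact Finset.sum_congr rfl fun h _ =>
      Fintype.sum_equiv (Equiv.mulLeft h⁻¹) _ _ fun g => by simp

lemma dlt_eq_zero_of_Phi_eq_zero {a : G → (R →+ ℤ)} (h : Phi p D a = 0) (g : G) :
    D.dlt p (a g) = 0 := by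
  classical
  ext n
  have := LinearMap.congr_fun h (Pi.single g n)
  rw [Phi_apply, Fintype.sum_eq_single g (fun x hx => by simp [hx]), Pi.single_eq_same] at this
  exact this

lemma exists_Phi_eq (Λ : Module.Dual (ZMod p) (G → N)) : ∃ a, Phi p D a = Λ := by
  classical
  have : ∀ g : G, ∃ φ : R →+ ℤ, D.dlt p φ = Λ.toAddMonoidHom.comp (AddMonoidHom.single _ g) :=
    fun g => D.dlt_surjective _
  choose a ha using this
  refine ⟨a, LinearMap.ext fun f => ?_⟩
  rw [Phi_apply]
  simp only [ha, AddMonoidHom.coe_comp, Function.comp_apply, AddMonoidHom.single_apply,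
    LinearMap.toAddMonoidHom_coe]
  rw [← map_sum, Finset.univ_sum_single]

/-- the chains killed by the pairing come from `P` -/
lemma exists_of_Phi_eq_zero {a : G → (R →+ ℤ)} (ha : bd1 G R a = 0) (h : Phi p D a = 0) :
    ∃ e : G → (P →+ ℤ), bd1 G P e = 0 ∧ (fun g => (e g).comp (D.i : R →+ P)) = a := by
  choose e he using fun g => D.exists_of_dlt_eq_zero (dlt_eq_zero_of_Phi_eq_zero D h g)
  refine ⟨e, ?_, funext he⟩
  ext y
  have h0 : bd1 G P e (D.i (D.pR p y)) = 0 := by
    rw [← bd1_comp D.i e, funext he, ha]; rfl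
  rw [D.i_pR, map_nsmul, smul_eq_zero] at h0
  exact h0.resolve_left (Fact.out : p.Prime).ne_zero

variable [Fintype Y]

/-- every functional killing coboundaries comes from a cycle -/
lemma exists_cycle_Phi_eq (Λ : Module.Dual (ZMod p) (G → N))
    (hΛ : ∀ n : N, Λ (d0 n) = 0) : ∃ a, bd1 G R a = 0 ∧ Phi p D a = Λ := by
  obtain ⟨a, ha⟩ := exists_Phi_eq D Λ
  obtain ⟨ψ, hψ⟩ := D.exists_of_dlt_eq_zero (p := p) (φ := bd1 G R a) (by
    ext n; rw [dlt_bd1, ha, hΛ]; rfl)
  obtain ⟨e, he⟩ := D.exists_bd1_eq ψ fun y hy => by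
    have hfix : ∀ g : G, g • D.pR p y = D.pR p y := fun g => by rw [← D.pR_smul, hy]
    have h0 : ψ (D.i (D.pR p y)) = 0 := by
      rw [show ψ (D.i (D.pR p y)) = bd1 G R a (D.pR p y) from
        DFunLike.congr_fun hψ _, bd1_apply]
      exact Finset.sum_eq_zero fun g _ => by rw [hfix, sub_self]
    rw [D.i_pR, map_nsmul, smul_eq_zero] at h0
    exact h0.resolve_left (Fact.out : p.Prime).ne_zero
  refine ⟨a - fun g => (e g).comp (D.i : R →+ P), ?_, ?_⟩
  · rw [map_sub, sub_eq_zero]
    ext r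
    rw [bd1_comp, he, ← hψ]
    rfl
  · rw [map_sub, ha, sub_eq_self]
    ext f
    rw [Phi_apply]
    exact Finset.sum_eq_zero fun g _ => by rw [D.dlt_comp_i]; rfl

end Fermat.Agent.ClassField.S55
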