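import Fermat.Agent.ClassField.S55.ClassModuleTransfer
import Fermat.Agent.ClassField.RestrictionH2

/-!
# Class modules: restriction to a subgroup, scaling by a unit, the order of the group kills `H²`
-/

set_option autoImplicit false

noncomputable section

namespace Fermat.Agent.ClassField.S55

open CochainH2

variable {p : ℕ} [Fact p.Prime] {G : Type*} [Group G] {C : Type*} [AddCommGroup C]
  [DistribMulAction G C]

omit [Fact p.Prime] in
/-- The order of a finite group kills its `H²`. -/
theorem natCard_smul_eq_zero [Finite G] (z : H2 G C) : Nat.card G • z = 0 := by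
  rw [← Subgroup.index_bot (G := G)]
  refine CochainH2.index_smul_eq_zero ⊥ ?_
  obtain ⟨f, rfl⟩ := CochainH2.mk_surjective z
  rw [CochainH2.restriction, CochainH2.map_mk_eq_zero]
  refine ⟨fun _ => (f : G × G → C) (1, 1), funext fun ⟨g, h⟩ => ?_⟩
  obtain rfl : g = 1 := Subsingleton.elim _ _
  obtain rfl : h = 1 := Subsingleton.elim _ _
  rw [CochainH2.d1_apply, one_smul, sub_self, zero_add]
  rfl

omit [Fact p.Prime] in
/-- Class modules restrict to subgroups. -/
theorem IsPClassModule.restrict [Finite G] {u : G × G → C} (hu : IsPClassModule p G C u)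
    (D : Subgroup G)
    (hb : ∀ P : Subgroup G, IsPGroup p P → Devissage.H1Vanishes P C ∧ Finite (H2 P C) ∧
      Nat.card (H2 P C) ≤ Nat.card P) :
    IsPClassModule p D C fun x => u ((x.1 : G), (x.2 : G)) := by
  refine isPClassModule_of_bounds _ (fun g h j => mem_Z2_iff_cocycle.2 hu.cocycle (g : G) h j)
    (fun P hP => ?_) fun P hP n b hb' => ?_
  · let P' := P.map D.subtype
    let E : P ≃* P' := P.equivMapOfInjective D.subtype Subtype.val_injective
    obtain ⟨h1, hfin, hle⟩ := hb P' (hP.of_equiv E)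
    have he : ∀ (w : P') (a : C), E.symm w • a = w • a := fun w a => by
      obtain ⟨g, rfl⟩ := E.surjective w
      rw [E.symm_apply_apply]
      rfl
    obtain ⟨hf, hc⟩ := Devissage.card_h2_of_equiv E.symm he hfin
    exact ⟨Devissage.h1Vanishes_of_equiv E.symm he h1, hf,
      hc.le.trans (hle.trans (Nat.card_congr E.toEquiv).ge)⟩
  · let P' := P.map D.subtype
    let E : P ≃* P' := P.equivMapOfInjective D.subtype Subtype.val_injective
    rw [Nat.card_congr E.toEquiv]
    refine hu.h2_order P' (hP.of_equiv E) n (fun g => b (E.symm g)) (funext fun ⟨g, h⟩ => ?_)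
    obtain ⟨g, rfl⟩ := E.surjective g
    obtain ⟨h, rfl⟩ := E.surjective h
    refine (congrFun hb' (g, h)).trans ?_
    show (g : D) • b h - b (g * h) + b g =
      ((E g : P') : G) • b (E.symm (E h)) - b (E.symm (E g * E h)) + b (E.symm (E g))
    rw [← map_mul, E.symm_apply_apply, E.symm_apply_apply, E.symm_apply_apply]
    rfl

/-- Multiplying the class by an integer prime to `p`. -/
theorem IsPClassModule.zsmul [Finite G] {u : G × G → C} (hu : IsPClassModule p G C u) {μ : ℤ}
    (hμ : ¬ (p : ℤ) ∣ μ) : IsPClassModule p G C fun x => μ • u x := by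
  have hcop : ∀ P : Subgroup G, IsPGroup p P → IsCoprime μ (Nat.card P : ℤ) := fun P hP => by
    obtain ⟨k, hk⟩ := hP.exists_card_eq
    rw [hk, Nat.cast_pow]
    exact ((Nat.prime_iff_prime_int.1 (Fact.out : p.Prime)).coprime_iff_not_dvd.2 hμ).symm.pow_right
  refine ⟨fun g h j => ?_, hu.h1, fun P hP c hc => ?_, fun P hP n b hb => ?_⟩
  · rw [smul_comm g μ, ← smul_sub, ← smul_add, ← smul_sub, hu.cocycle, smul_zero]
  · obtain ⟨n, b, hb⟩ := hu.h2_gen P hP c hc
    obtain ⟨ν, k, hνk⟩ := hcop P hP
    set uP : Z2 P C := ⟨fun x => u ((x.1 : G), (x.2 : G)),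
      mem_Z2_iff_cocycle.2 fun g h j => hu.cocycle g h j⟩
    have h0 := natCard_smul_eq_zero (CochainH2.mk P C uP)
    rw [← map_nsmul, mk_eq_zero] at h0
    obtain ⟨b', hb'⟩ := h0
    refine ⟨n * ν, b + (n * k) • b', funext fun x => ?_⟩
    rw [hb]
    show n • u ((x.1 : G), (x.2 : G)) + S55.d1 b x = _
    rw [← d1_eq_cochain (b + (n * k) • b'), map_add, map_zsmul, Pi.add_apply, Pi.smul_apply, hb',
      d1_eq_cochain]
    show _ = (n * ν) • μ • u ((x.1 : G), (x.2 : G)) +
      (S55.d1 b x + (n * k) • Nat.card P • u ((x.1 : G), (x.2 : G)))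
    rw [← natCast_zsmul (u _) (Nat.card P), ← mul_smul, ← mul_smul,
      show n * ν * μ = n - n * k * (Nat.card P : ℤ) by linear_combination n * hνk, sub_smul]
    abel
  · refine (hcop P hP).symm.dvd_of_dvd_mul_right (hu.h2_order P hP (n * μ) b ?_)
    rw [← hb]
    funext x
    exact mul_smul n μ _

end Fermat.Agent.ClassField.S55
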