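import Fermat.Agent.ClassField.S55.TateNakayama

/-!
# S55: presentations of finite modules by permutation lattices, and the mod `p` reduction of chains
-/

set_option autoImplicit false

namespace Fermat.Agent.ClassField.S55

/-- An exact sequence `0 → R → P → N → 0` of `G`-modules, with `P` a permutation lattice. -/
structure FinPresentation (G R P N Y : Type*) [Group G] [AddCommGroup R] [AddCommGroup P]
    [AddCommGroup N] [DistribMulAction G R] [DistribMulAction G P] [DistribMulAction G N]
    [MulAction G Y] where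
  /-- the inclusion -/
  i : R →+[G] P
  /-- the projection -/
  π : P →+[G] N
  i_inj : Function.Injective i
  π_surj : Function.Surjective π
  exact : ∀ y, π y = 0 ↔ ∃ r, i r = y
  /-- the permuted basis -/
  b : Module.Basis Y ℤ P
  smul_b : ∀ (g : G) (y : Y), g • b y = b (g • y)

variable {G R P N Y : Type*} [Group G] [AddCommGroup R] [AddCommGroup P] [AddCommGroup N]
  [DistribMulAction G R] [DistribMulAction G P] [DistribMulAction G N] [MulAction G Y]

namespace FinPresentation

/-- restriction to a subgroup -/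
def restrict (D : FinPresentation G R P N Y) (H : Subgroup G) : FinPresentation H R P N Y where
  i := { toFun := D.i, map_smul' := fun g r => map_smul D.i (g : G) r, map_zero' := map_zero D.i,
         map_add' := map_add D.i }
  π := { toFun := D.π, map_smul' := fun g r => map_smul D.π (g : G) r, map_zero' := map_zero D.π,
         map_add' := map_add D.π }
  i_inj := D.i_inj
  π_surj := D.π_surj
  exact := D.exact
  b := D.b
  smul_b g y := D.smul_b (g : G) y

variable (D : FinPresentation G R P N Y)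

lemma free_P (D : FinPresentation G R P N Y) : Module.Free ℤ P := Module.Free.of_basis D.b

lemma π_i (r : R) : D.π (D.i r) = 0 := (D.exact _).2 ⟨r, rfl⟩

/-- functionals vanishing on invariants are boundaries -/
lemma exists_bd1_eq [Fintype G] [Fintype Y] (D : FinPresentation G R P N Y) (d : P →+ ℤ)
    (hd : ∀ y : P, (∀ g : G, g • y = y) → d y = 0) :
    ∃ e : G → (P →+ ℤ), bd1 G P e = d := by
  classical
  let r : Y → Y := fun y => Quotient.out (Quotient.mk (MulAction.orbitRel G Y) y)
  have hr : ∀ y, ∃ g : G, g • y = r y := fun y =>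
    MulAction.orbitRel_apply.1 (Quotient.mk_out (s := MulAction.orbitRel G Y) y)
  choose k hk using hr
  have hrs : ∀ (g : G) (y : Y), r (g • y) = r y := fun g y => by
    simp only [r]
    rw [Quotient.sound (show (MulAction.orbitRel G Y) (g • y) y from
      MulAction.orbitRel_apply.2 ⟨g, rfl⟩)]
  let e : G → (P →+ ℤ) := fun h =>
    (D.b.constr ℤ fun z => ∑ y : Y, if r y = z ∧ k y = h then d (D.b y) else 0).toAddMonoidHom
  have he : ∀ h z, e h (D.b z) = ∑ y : Y, if r y = z ∧ k y = h then d (D.b y) else 0 := fun h z =>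
    D.b.constr_basis ℤ _ z
  refine ⟨e, ?_⟩
  have : (bd1 G P e).toIntLinearMap = d.toIntLinearMap := by
    refine D.b.ext fun z => ?_
    show bd1 G P e (D.b z) = d (D.b z)
    rw [bd1_apply]
    simp only [D.smul_b, he, Finset.sum_sub_distrib]
    have e1 : ∑ h : G, ∑ y : Y, (if r y = h • z ∧ k y = h then d (D.b y) else 0) = d (D.b z) := by
      rw [Finset.sum_comm, Fintype.sum_eq_single z]
      · rw [Fintype.sum_eq_single (k z) (fun h hh => if_neg fun h' => hh h'.2.symm)]
        rw [if_pos ⟨(hk z).symm, rfl⟩]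
      · intro y hy
        refine Finset.sum_eq_zero fun h _ => if_neg fun ⟨h1, h2⟩ => hy ?_
        rw [← hk y, ← h2] at h1
        exact MulAction.injective (k y) h1
    have e2 : ∑ h : G, ∑ y : Y, (if r y = z ∧ k y = h then d (D.b y) else 0) = 0 := by
      rw [Finset.sum_comm]
      have h0 : d (∑ y ∈ Finset.univ.filter (fun y => r y = z), D.b y) = 0 := hd _ fun g => by
        rw [Finset.smul_sum]
        simp only [D.smul_b]
        exact Finset.sum_equiv (MulAction.toPerm g) (fun y => by simp [hrs]) fun y _ => rfl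
      rw [map_sum, Finset.sum_filter] at h0
      refine Eq.trans (Finset.sum_congr rfl fun y _ => ?_) h0
      by_cases hy : r y = z
      · rw [if_pos hy, Fintype.sum_eq_single (k y)
          (fun h hh => if_neg fun h' => hh h'.2.symm), if_pos ⟨hy, rfl⟩]
      · simp [hy]
    rw [e1, e2, sub_zero]
  exact AddMonoidHom.ext fun y => LinearMap.congr_fun this y

variable {p : ℕ} [Fact p.Prime] [Module (ZMod p) N]

variable (p) in
lemma exists_pR (y : P) : ∃ r : R, D.i r = p • y :=
  (D.exact _).1 (by rw [map_nsmul]; exact ZModModule.char_nsmul_eq_zero p _)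

variable (p) in
/-- `y ↦ p • y` as a map `P → R` -/
noncomputable def pR : P →+ R where
  toFun y := (D.exists_pR p y).choose
  map_zero' := D.i_inj (by rw [(D.exists_pR p 0).choose_spec, smul_zero, map_zero])
  map_add' y y' := D.i_inj (by
    rw [map_add, (D.exists_pR p y).choose_spec, (D.exists_pR p y').choose_spec,
      (D.exists_pR p (y + y')).choose_spec, nsmul_add])

lemma i_pR (y : P) : D.i (D.pR p y) = p • y := (D.exists_pR p y).choose_spec

lemma pR_i (r : R) : D.pR p (D.i r) = p • r := D.i_inj (by rw [i_pR, map_nsmul])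

lemma pR_smul (g : G) (y : P) : D.pR p (g • y) = g • D.pR p y :=
  D.i_inj (by rw [i_pR, map_smul, i_pR, smul_comm p g y])

/-- a section of `π` -/
noncomputable def sec (n : N) : P := Function.surjInv D.π_surj n

lemma π_sec (n : N) : D.π (D.sec n) = n := Function.surjInv_eq D.π_surj n

lemma dlt_spec (φ : R →+ ℤ) {y : P} {n : N} (h : D.π y = n) :
    (φ (D.pR p (D.sec n)) : ZMod p) = (φ (D.pR p y) : ZMod p) := by
  obtain ⟨r, hr⟩ := (D.exact (D.sec n - y)).1 (by rw [map_sub, π_sec, h, sub_self])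
  have e : φ (D.pR p (D.sec n)) = φ (D.pR p y) + (p : ℤ) * φ r := by
    rw [← nsmul_eq_mul, ← map_nsmul, ← D.pR_i (p := p), hr, map_sub, map_sub]
    abel
  rw [e]
  simp

variable (p) in
/-- the connecting map `R^∨ → N^∧` -/
noncomputable def dlt : (R →+ ℤ) →+ (N →+ ZMod p) where
  toFun φ :=
    { toFun := fun n => (φ (D.pR p (D.sec n)) : ZMod p)
      map_zero' := by
        rw [D.dlt_spec φ (map_zero D.π)]; simp
      map_add' := fun n n' => by
        rw [D.dlt_spec φ (y := D.sec n + D.sec n') (by rw [map_add, π_sec, π_sec])]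
        simp }
  map_zero' := by ext; simp
  map_add' φ ψ := by ext; simp

lemma dlt_apply (φ : R →+ ℤ) {y : P} {n : N} (h : D.π y = n) :
    D.dlt p φ n = (φ (D.pR p y) : ZMod p) := D.dlt_spec φ h

lemma dlt_comp_smul (φ : R →+ ℤ) (g : G) (n : N) :
    D.dlt p (φ.comp (DistribSMul.toAddMonoidHom R g)) n = D.dlt p φ (g • n) := by
  rw [D.dlt_apply _ (D.π_sec n), D.dlt_apply φ (y := g • D.sec n) (by rw [map_smul, π_sec])]
  simp [pR_smul]

lemma dlt_comp_i (ψ : P →+ ℤ) : D.dlt p (ψ.comp (D.i : R →+ P)) = 0 := by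
  ext n
  rw [D.dlt_apply _ (D.π_sec n)]
  show ((ψ (D.i (D.pR p (D.sec n))) : ℤ) : ZMod p) = 0
  rw [i_pR, map_nsmul, nsmul_eq_mul]
  simp

lemma exists_of_dlt_eq_zero {φ : R →+ ℤ} (h : D.dlt p φ = 0) :
    ∃ ψ : P →+ ℤ, ψ.comp (D.i : R →+ P) = φ := by
  have hdvd : ∀ y, (p : ℤ) ∣ φ (D.pR p y) := fun y =>
    (ZMod.intCast_zmod_eq_zero_iff_dvd _ p).1 (by
      rw [← D.dlt_apply φ (rfl : D.π y = D.π y), h]; rfl)
  refine ⟨AddMonoidHom.mk' (fun y => φ (D.pR p y) / p) (fun y y' => by
    rw [map_add, map_add, Int.add_ediv_of_dvd_left (hdvd y)]), AddMonoidHom.ext fun r => ?_⟩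
  show φ (D.pR p (D.i r)) / p = φ r
  rw [pR_i, map_nsmul, nsmul_eq_mul]
  exact Int.mul_ediv_cancel_left _ (Int.natCast_ne_zero.2 (Fact.out : p.Prime).ne_zero)

lemma dlt_surjective (χ : N →+ ZMod p) : ∃ φ : R →+ ℤ, D.dlt p φ = χ := by
  have := D.free_P
  obtain ⟨ψ, hψ⟩ := Module.projective_lifting_property
    (Int.castAddHom (ZMod p)).toIntLinearMap (χ.comp (D.π : P →+ N)).toIntLinearMap
    (ZMod.intCast_surjective)
  have hψ' : ∀ y, ((ψ y : ℤ) : ZMod p) = χ (D.π y) := fun y => LinearMap.congr_fun hψ y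
  have hdvd : ∀ r, (p : ℤ) ∣ ψ (D.i r) := fun r =>
    (ZMod.intCast_zmod_eq_zero_iff_dvd _ p).1 (by rw [hψ', π_i, map_zero])
  refine ⟨AddMonoidHom.mk' (fun r => ψ (D.i r) / p) (fun r r' => by
    rw [map_add, map_add, Int.add_ediv_of_dvd_left (hdvd r)]), AddMonoidHom.ext fun n => ?_⟩
  rw [D.dlt_apply _ (D.π_sec n)]
  show (((ψ (D.i (D.pR p (D.sec n)))) / p : ℤ) : ZMod p) = χ n
  rw [i_pR, map_nsmul, nsmul_eq_mul,
    Int.mul_ediv_cancel_left _ (Int.natCast_ne_zero.2 (Fact.out : p.Prime).ne_zero), hψ', π_sec]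

end FinPresentation

end Fermat.Agent.ClassField.S55
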