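import Fermat.Agent.ClassField.S55.ClassModule
import Fermat.Agent.ClassField.S55.TateLattice

/-!
# S55: Tate's splitting module of a 2-cocycle
-/

set_option autoImplicit false

namespace Fermat.Agent.ClassField.S55

variable {G : Type*} [Group G] [Fintype G] {C : Type*} [AddCommGroup C]

open Classical in
/-- `δ_g` -/
noncomputable def zdelta (g : G) : G → ℤ := fun τ => if τ = g then 1 else 0

/-- `C ⊕ I_G`, the augmentation ideal being functions of sum zero. -/
@[ext]
structure SplitMod (u : G × G → C) where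
  /-- component in `C` -/
  c : C
  /-- component in the augmentation ideal -/
  f : G → ℤ
  hf : ∑ h : G, f h = 0

variable {u : G × G → C}

instance : Add (SplitMod u) :=
  ⟨fun x y => ⟨x.c + y.c, x.f + y.f, by simp [Finset.sum_add_distrib, x.hf, y.hf]⟩⟩
instance : Zero (SplitMod u) := ⟨⟨0, 0, by simp⟩⟩
instance : Neg (SplitMod u) := ⟨fun x => ⟨-x.c, -x.f, by simp [x.hf]⟩⟩
instance : Sub (SplitMod u) :=
  ⟨fun x y => ⟨x.c - y.c, x.f - y.f, by simp [Finset.sum_sub_distrib, x.hf, y.hf]⟩⟩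

instance : AddCommGroup (SplitMod u) where
  add_assoc x y z := SplitMod.ext (add_assoc _ _ _) (add_assoc _ _ _)
  zero_add x := SplitMod.ext (zero_add _) (zero_add _)
  add_zero x := SplitMod.ext (add_zero _) (add_zero _)
  add_comm x y := SplitMod.ext (add_comm _ _) (add_comm _ _)
  sub_eq_add_neg x y := SplitMod.ext (sub_eq_add_neg _ _) (sub_eq_add_neg _ _)
  neg_add_cancel x := SplitMod.ext (neg_add_cancel _) (neg_add_cancel _)
  nsmul := nsmulRec
  zsmul := zsmulRec

omit [Group G] in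
@[simp] lemma SplitMod.add_c (x y : SplitMod u) : (x + y).c = x.c + y.c := rfl
omit [Group G] in
@[simp] lemma SplitMod.add_f (x y : SplitMod u) : (x + y).f = x.f + y.f := rfl
omit [Group G] in
@[simp] lemma SplitMod.sub_c (x y : SplitMod u) : (x - y).c = x.c - y.c := rfl
omit [Group G] in
@[simp] lemma SplitMod.sub_f (x y : SplitMod u) : (x - y).f = x.f - y.f := rfl
omit [Group G] in
@[simp] lemma SplitMod.zero_c : (0 : SplitMod u).c = 0 := rfl
omit [Group G] in
@[simp] lemma SplitMod.zero_f : (0 : SplitMod u).f = 0 := rfl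

/-- projection to `C` -/
def SplitMod.cHom : SplitMod u →+ C where
  toFun x := x.c
  map_zero' := rfl
  map_add' _ _ := rfl

/-- projection to a coordinate -/
def SplitMod.fHom (g : G) : SplitMod u →+ ℤ where
  toFun x := x.f g
  map_zero' := rfl
  map_add' _ _ := rfl

omit [Group G] in
@[simp] lemma SplitMod.nsmul_c (n : ℕ) (x : SplitMod u) : (n • x).c = n • x.c :=
  map_nsmul SplitMod.cHom n x
omit [Group G] in
@[simp] lemma SplitMod.nsmul_f (n : ℕ) (x : SplitMod u) (g : G) : (n • x).f g = n * x.f g := by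
  rw [← nsmul_eq_mul]; exact map_nsmul (SplitMod.fHom g) n x
omit [Group G] in
lemma SplitMod.sum_c {ι : Type*} (s : Finset ι) (x : ι → SplitMod u) :
    (∑ i ∈ s, x i).c = ∑ i ∈ s, (x i).c := map_sum SplitMod.cHom x s
omit [Group G] in
lemma SplitMod.sum_f {ι : Type*} (s : Finset ι) (x : ι → SplitMod u) (g : G) :
    (∑ i ∈ s, x i).f g = ∑ i ∈ s, (x i).f g := map_sum (SplitMod.fHom g) x s

/-- the inclusion of `C` -/
def SplitMod.incl : C →+ SplitMod u where
  toFun c := ⟨c, 0, by simp⟩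
  map_zero' := rfl
  map_add' _ _ := SplitMod.ext rfl (add_zero _).symm

/-- `δ_g - δ_1` in the augmentation ideal -/
noncomputable def SplitMod.aug1 (g : G) : SplitMod u :=
  ⟨0, zdelta g - zdelta 1, by
    simp only [Pi.sub_apply, zdelta, Finset.sum_sub_distrib]
    rw [Fintype.sum_eq_single g (fun x hx => if_neg hx),
      Fintype.sum_eq_single (1 : G) (fun x hx => if_neg hx), if_pos rfl, if_pos rfl, sub_self]⟩

variable [DistribMulAction G C]

/-- being a cocycle, as an instance argument for the action -/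
class IsTwoCocycle (u : G × G → C) : Prop where
  cocycle : ∀ g h j : G, g • u (h, j) - u (g * h, j) + u (g, h * j) - u (g, h) = 0

omit [Fintype G] in
lemma IsTwoCocycle.apply_one [IsTwoCocycle u] (g : G) : u (g, 1) = g • u (1, 1) := by
  have := IsTwoCocycle.cocycle (u := u) g 1 1
  simp only [mul_one] at this
  rw [← sub_eq_zero, ← neg_eq_zero, ← this]; abel

omit [Fintype G] in
lemma IsTwoCocycle.one_apply [IsTwoCocycle u] (g : G) : u (1, g) = u (1, 1) := by
  have := IsTwoCocycle.cocycle (u := u) 1 1 g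
  simp only [mul_one, one_mul, one_smul] at this
  rw [← sub_eq_zero, ← this]; abel

variable [IsTwoCocycle u]

instance : DistribMulAction G (SplitMod u) where
  smul σ x := ⟨σ • x.c + ∑ h : G, x.f h • u (σ, h), fun τ => x.f (σ⁻¹ * τ),
    (Fintype.sum_equiv (Equiv.mulLeft σ⁻¹) _ _ fun _ => rfl).trans x.hf⟩
  one_smul x := SplitMod.ext (by
    show (1 : G) • x.c + ∑ h : G, x.f h • u (1, h) = x.c
    simp only [IsTwoCocycle.one_apply, one_smul]
    rw [← Finset.sum_smul, x.hf, zero_smul, add_zero]) (funext fun τ => by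
    show x.f (1⁻¹ * τ) = x.f τ
    rw [inv_one, one_mul])
  mul_smul σ τ x := SplitMod.ext (by
    show (σ * τ) • x.c + ∑ h : G, x.f h • u (σ * τ, h) =
      σ • (τ • x.c + ∑ h : G, x.f h • u (τ, h)) + ∑ h : G, x.f (τ⁻¹ * h) • u (σ, h)
    rw [← Fintype.sum_equiv (Equiv.mulLeft τ) (fun h => x.f h • u (σ, τ * h))
      (fun h => x.f (τ⁻¹ * h) • u (σ, h)) (fun h => by simp), smul_add, mul_smul, Finset.smul_sum,
      add_assoc, ← Finset.sum_add_distrib]
    congr 1
    rw [← sub_eq_zero, ← Finset.sum_sub_distrib]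
    have h0 : ∑ h : G, x.f h • u (σ, τ) = 0 := by rw [← Finset.sum_smul, x.hf, zero_smul]
    rw [← neg_eq_zero, ← Finset.sum_neg_distrib, ← h0]
    refine Finset.sum_congr rfl fun h _ => ?_
    have e := IsTwoCocycle.cocycle (u := u) σ τ h
    rw [smul_comm σ, ← smul_add, ← smul_sub, ← smul_neg]
    congr 1
    rw [← sub_eq_zero, ← e]; abel) (funext fun h => by
    show x.f ((σ * τ)⁻¹ * h) = x.f (τ⁻¹ * (σ⁻¹ * h))
    rw [mul_inv_rev, mul_assoc])
  smul_zero σ := SplitMod.ext (by
    show σ • (0 : C) + ∑ h : G, (0 : ℤ) • u (σ, h) = 0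
    simp) rfl
  smul_add σ x y := SplitMod.ext (by
    show σ • (x.c + y.c) + ∑ h : G, (x.f h + y.f h) • u (σ, h) =
      σ • x.c + (∑ h : G, x.f h • u (σ, h)) + (σ • y.c + ∑ h : G, y.f h • u (σ, h))
    simp only [smul_add, add_smul, Finset.sum_add_distrib]; abel) rfl

lemma SplitMod.smul_c (σ : G) (x : SplitMod u) :
    (σ • x).c = σ • x.c + ∑ h : G, x.f h • u (σ, h) := rfl

lemma SplitMod.smul_f (σ : G) (x : SplitMod u) (τ : G) : (σ • x).f τ = x.f (σ⁻¹ * τ) := rfl

lemma SplitMod.smul_incl (σ : G) (c : C) :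
    σ • (SplitMod.incl c : SplitMod u) = SplitMod.incl (σ • c) :=
  SplitMod.ext (by simp [SplitMod.smul_c, SplitMod.incl]) rfl

lemma SplitMod.smul_aug1_c (σ g : G) :
    (σ • (SplitMod.aug1 g : SplitMod u)).c = u (σ, g) - u (σ, 1) := by
  classical
  simp [SplitMod.smul_c, SplitMod.aug1, zdelta, sub_smul, Finset.sum_sub_distrib, ite_smul]

lemma SplitMod.smul_aug1_f (σ g : G) :
    (σ • (SplitMod.aug1 g : SplitMod u)).f = zdelta (σ * g) - zdelta σ := by
  classical
  funext τ
  simp [SplitMod.smul_f, SplitMod.aug1, zdelta, inv_mul_eq_iff_eq_mul]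

lemma SplitMod.d1_aug1 (σ τ : G) :
    d1 (fun g : G => (SplitMod.aug1 g : SplitMod u)) (σ, τ)
      = SplitMod.incl (u (σ, τ) - σ • u (1, 1)) := by
  refine SplitMod.ext ?_ ?_
  · show _ = u (σ, τ) - σ • u (1, 1)
    rw [← IsTwoCocycle.apply_one σ]
    simp only [d1, SplitMod.add_c, SplitMod.sub_c, SplitMod.smul_aug1_c]
    simp [SplitMod.aug1]
  · funext h
    simp only [d1, SplitMod.add_f, SplitMod.sub_f, SplitMod.smul_aug1_f]
    simp [SplitMod.incl, SplitMod.aug1]

section Acyclic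

variable (Q : Subgroup G)

/-- the `Q`-component of `τ` -/
noncomputable def retr (τ : G) : Q :=
  ⟨τ * Quotient.out ((τ⁻¹ : G) : G ⧸ Q), by
    obtain ⟨s, hs⟩ := QuotientGroup.mk_out_eq_mul Q τ⁻¹
    rw [hs, mul_inv_cancel_left]; exact s.2⟩

omit [Fintype G] [DistribMulAction G C] [IsTwoCocycle u] in
lemma retr_mul (σ : Q) (τ : G) : retr Q (σ * τ) = σ * retr Q τ := by
  refine Subtype.ext ?_
  show (σ : G) * τ * Quotient.out ((((σ : G) * τ)⁻¹ : G) : G ⧸ Q) = σ * (τ * Quotient.out ((τ⁻¹ : G) : G ⧸ Q))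
  rw [mul_assoc, mul_inv_rev, QuotientGroup.mk_mul_of_mem τ⁻¹ (Q.inv_mem σ.2)]

variable {Q} {p : ℕ} [Fact p.Prime] (hu : IsPClassModule p G C u) (hQ : IsPGroup p Q)

include hu hQ

lemma SplitMod.acyclic_h1 (z : Q → SplitMod u) (hz : d1 z = 0) : ∃ x, d0 x = z := by
  classical
  have hzf : ∀ (g h : Q) (τ : G),
      (z (g * h)).f τ = (z g).f τ + (z h).f ((g : G)⁻¹ * τ) := by
    intro g h τ
    have := congrArg (fun e : SplitMod u => e.f τ) (congrFun hz (g, h))
    simp only [d1, SplitMod.add_f, SplitMod.sub_f, Pi.add_apply, Pi.sub_apply, Pi.zero_apply,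
      SplitMod.zero_f] at this
    change (z h).f ((g : G)⁻¹ * τ) - (z (g * h)).f τ + (z g).f τ = 0 at this
    linarith
  let F : G → ℤ := fun τ => -(z (retr Q τ)).f τ
  have hF : ∀ (g : Q) (τ : G), F ((g : G)⁻¹ * τ) - F τ = (z g).f τ := by
    intro g τ
    have h1 : retr Q ((g : G)⁻¹ * τ) = g⁻¹ * retr Q τ := by
      rw [← retr_mul Q g⁻¹ τ]; simp
    have h2 := hzf g (g⁻¹ * retr Q τ) τ
    rw [mul_inv_cancel_left] at h2
    simp only [F, h1]
    linarith
  let d : ℤ := ∑ h : G, F h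
  let x₀ : SplitMod u := ⟨0, F - d • zdelta 1, by simp [zdelta, d, Finset.sum_sub_distrib]⟩
  -- `z - d0 x₀` has augmentation part `d • (δ_σ - δ_1)`
  let w : Q → SplitMod u := fun g => z g - d0 x₀ g - d • SplitMod.aug1 (g : G)
  have hsm : ∀ (n : ℤ) (y : SplitMod u) (τ : G), (n • y).f τ = n * y.f τ := fun n y τ => by
    rw [← smul_eq_mul]; exact map_zsmul (SplitMod.fHom τ) n y
  have hwf : ∀ g, (w g).f = 0 := fun g => funext fun τ => by
    simp [w, d0, x₀, hsm, SplitMod.aug1, SplitMod.smul_f, Subgroup.smul_def, ← hF g τ, zdelta,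
      inv_mul_eq_iff_eq_mul]
    split_ifs <;> ring
  have hwincl : ∀ g, w g = SplitMod.incl (w g).c := fun g => SplitMod.ext rfl (hwf g)
  have hkey : ∀ g h : Q, d1 (fun g => (w g).c) (g, h) + d • (u (↑g, ↑h) - (g : G) • u (1, 1)) = 0 := by
    intro g h
    have e1 : z = w + d0 x₀ + d • fun g : Q => SplitMod.aug1 (g : G) := funext fun g => by
      simp only [w, Pi.add_apply, Pi.smul_apply]
      abel
    have e2 : d1 (d • fun g : Q => (SplitMod.aug1 (g : G) : SplitMod u)) (g, h)
        = d • d1 (fun g : G => (SplitMod.aug1 g : SplitMod u)) ((g : G), (h : G)) := by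
      simp only [d1, Pi.smul_apply, Subgroup.smul_def, Subgroup.coe_mul, smul_comm (g : G) d,
        smul_sub, smul_add]
    have := congrArg SplitMod.cHom (congrFun hz (g, h))
    rw [e1, d1_add, d1_add, d1_d0, add_zero, Pi.add_apply, e2, map_add, map_zsmul,
      SplitMod.d1_aug1, show w = SplitMod.incl ∘ fun g => (w g).c from funext hwincl] at this
    rw [Pi.zero_apply, map_zero] at this
    simp only [d1, map_add, map_sub, Function.comp_apply, Subgroup.smul_def,
      SplitMod.smul_incl] at this ⊢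
    exact this
  obtain ⟨e, he⟩ := hu.h2_order Q hQ d (fun g => -(w g).c + d • u (1, 1))
    (funext fun ⟨g, h⟩ => by
      have := hkey g h
      simp only [d1, Subgroup.smul_def, smul_add, smul_neg, smul_comm (g : G) d, smul_sub] at this ⊢
      rw [← sub_eq_zero, ← this]; abel)
  let F' : G → ℤ := ∑ q : Q, (zdelta (q : G) - zdelta 1)
  let x₁ : SplitMod u :=
    ⟨0, F - d • zdelta 1 - e • F', by
      simp only [Pi.sub_apply, Pi.smul_apply, smul_eq_mul, F', Finset.sum_apply,
        Finset.sum_sub_distrib, ← Finset.mul_sum]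
      rw [Finset.sum_comm (s := (Finset.univ : Finset G))]
      simp [zdelta, d, Finset.sum_sub_distrib]⟩
  have hF' : ∀ (g : Q) (τ : G), F' ((g : G)⁻¹ * τ) - F' τ
      = -(Nat.card Q : ℤ) * (zdelta (g : G) τ - zdelta 1 τ) := by
    intro g τ
    simp only [F', Finset.sum_apply, Pi.sub_apply, Finset.sum_sub_distrib, zdelta]
    have : ∑ q : Q, (if (g : G)⁻¹ * τ = q then (1 : ℤ) else 0)
        = ∑ q : Q, if τ = (q : G) then (1 : ℤ) else 0 :=
      Fintype.sum_equiv (Equiv.mulLeft g) _ _ fun q => if_congr inv_mul_eq_iff_eq_mul rfl rfl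
    rw [this]
    simp [inv_mul_eq_iff_eq_mul, mul_sub]
    split_ifs <;> simp
  let v : Q → SplitMod u := z - d0 x₁
  have hvf : ∀ g, (v g).f = 0 := fun g => funext fun τ => by
    have a1 := hF g τ
    have a2 := hF' g τ
    have hδ : zdelta (1 : G) ((g : G)⁻¹ * τ) = zdelta (g : G) τ := by
      simp [zdelta, inv_mul_eq_iff_eq_mul]
    show (z g).f τ - ((F ((g : G)⁻¹ * τ) - d * zdelta (1 : G) ((g : G)⁻¹ * τ)
      - e * F' ((g : G)⁻¹ * τ)) - (F τ - d * zdelta (1 : G) τ - e * F' τ)) = 0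
    rw [hδ]
    linear_combination -a1 + e * a2 + (zdelta (g : G) τ - zdelta (1 : G) τ) * he
  have hvincl : v = SplitMod.incl ∘ fun g => (v g).c := funext fun g => SplitMod.ext rfl (hvf g)
  obtain ⟨x, hx⟩ := hu.h1 Q hQ (fun g => (v g).c) (funext fun ⟨g, h⟩ => by
    have : d1 v = 0 := by rw [d1_sub, hz, d1_d0, sub_zero]
    have := congrArg SplitMod.cHom (congrFun this (g, h))
    rw [hvincl] at this
    simp only [d1, Function.comp_apply, Subgroup.smul_def, SplitMod.smul_incl] at this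
    exact this)
  refine ⟨x₁ + SplitMod.incl x, ?_⟩
  rw [d0_add]
  funext g
  have h1 := congrFun hx g
  simp only [d0, Subgroup.smul_def] at h1
  have h2 : v g = SplitMod.incl (v g).c := congrFun hvincl g
  rw [← h1, map_sub, ← SplitMod.smul_incl] at h2
  simp only [Pi.add_apply, d0, Subgroup.smul_def]
  rw [← h2]
  simp [v, d0, Subgroup.smul_def]

lemma SplitMod.acyclic_h2 (z : Q × Q → SplitMod u)
    (hz : ∀ g h j : Q, g • z (h, j) - z (g * h, j) + z (g, h * j) - z (g, h) = 0) :
    ∃ b, d1 b = z := by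
  classical
  have hzf : ∀ (g h j : Q) (τ : G),
      (z (h, j)).f ((g : G)⁻¹ * τ) - (z (g * h, j)).f τ + (z (g, h * j)).f τ - (z (g, h)).f τ = 0 :=
    fun g h j τ => congrArg (fun e : SplitMod u => e.f τ) (hz g h j)
  let b : Q → G → ℤ := fun g τ => (z ((retr Q τ)⁻¹, g)).f (((retr Q τ : Q) : G)⁻¹ * τ)
  have hb : ∀ (g h : Q) (τ : G),
      b h ((g : G)⁻¹ * τ) - b (g * h) τ + b g τ = (z (g, h)).f τ := by
    intro g h τ
    have h1 : retr Q ((g : G)⁻¹ * τ) = g⁻¹ * retr Q τ := by
      rw [← retr_mul Q g⁻¹ τ]; simp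
    have e := hzf (retr Q τ)⁻¹ g h (((retr Q τ : Q) : G)⁻¹ * τ)
    simp only [Subgroup.coe_inv, inv_inv, mul_inv_cancel_left] at e
    simp only [b, h1, mul_inv_rev, inv_inv, Subgroup.coe_mul, Subgroup.coe_inv, mul_assoc,
      mul_inv_cancel_left]
    linarith
  have hdeg : ∀ g, ∑ τ : G, b g τ = 0 := by
    have hadd : ∀ g h : Q, ∑ τ, b (g * h) τ = (∑ τ, b g τ) + ∑ τ, b h τ := by
      intro g h
      have e : ∑ τ, (b h ((g : G)⁻¹ * τ) - b (g * h) τ + b g τ) = 0 :=
        (Finset.sum_congr rfl fun τ _ => hb g h τ).trans (z (g, h)).hf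
      simp only [Finset.sum_add_distrib, Finset.sum_sub_distrib] at e
      have e' : ∑ τ : G, b h ((g : G)⁻¹ * τ) = ∑ τ : G, b h τ :=
        Fintype.sum_equiv (Equiv.mulLeft (g : G)⁻¹) _ _ fun _ => rfl
      linarith
    intro g
    let φ : Q →* Multiplicative ℤ := MonoidHom.mk' (fun g => Multiplicative.ofAdd (∑ τ, b g τ))
      fun g h => by rw [hadd]; rfl
    have hfin : IsOfFinOrder (φ g) := φ.isOfFinOrder (isOfFinOrder_of_finite g)
    exact Multiplicative.ofAdd.injective ((isOfFinOrder_iff_eq_one _).1 hfin)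
  let bX : Q → SplitMod u := fun g => ⟨0, b g, hdeg g⟩
  let v : Q × Q → SplitMod u := z - d1 bX
  have hvf : ∀ x, (v x).f = 0 := fun ⟨g, h⟩ => funext fun τ => by
    simp [v, d1, bX, SplitMod.smul_f, Subgroup.smul_def, ← hb g h τ]
  have hvincl : ∀ x, v x = SplitMod.incl (v x).c := fun x => SplitMod.ext rfl (hvf x)
  have hvcoc : ∀ g h j : Q, g • v (h, j) - v (g * h, j) + v (g, h * j) - v (g, h) = 0 := by
    intro g h j
    rw [← hz g h j]
    simp only [v, Pi.sub_apply, d1, smul_sub, smul_add, mul_smul, mul_assoc]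
    abel
  obtain ⟨n, c, hc⟩ := hu.h2_gen Q hQ (fun x => (v x).c) fun g h j => by
    have := congrArg SplitMod.cHom (hvcoc g h j)
    rw [hvincl (h, j), hvincl (g * h, j), hvincl (g, h * j), hvincl (g, h), Subgroup.smul_def,
      SplitMod.smul_incl] at this
    exact this
  refine ⟨bX + n • (fun g : Q => SplitMod.aug1 (g : G)) + SplitMod.incl ∘
    (fun g => c g + n • u (1, 1)), funext fun ⟨g, h⟩ => ?_⟩
  have e1 : d1 (n • fun g : Q => (SplitMod.aug1 (g : G) : SplitMod u)) (g, h)
      = n • d1 (fun g : G => (SplitMod.aug1 g : SplitMod u)) ((g : G), (h : G)) := by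
    simp only [d1, Pi.smul_apply, Subgroup.smul_def, Subgroup.coe_mul, smul_comm (g : G) n,
      smul_sub, smul_add]
  have e2 := congrFun hc (g, h)
  rw [d1_add, d1_add, Pi.add_apply, Pi.add_apply, e1, SplitMod.d1_aug1]
  have e3 : z (g, h) = d1 bX (g, h) + SplitMod.incl (v (g, h)).c := by
    rw [← hvincl]; simp [v]
  rw [e3, add_assoc, e2]
  congr 1
  simp only [d1, Subgroup.smul_def, Function.comp_apply, SplitMod.smul_incl, ← map_zsmul, ← map_sub,
    ← map_add]
  congr 1
  rw [smul_sub, smul_add, smul_comm (g : G) n]; abel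

omit hQ in
/-- restricted to a `p`-subgroup, the splitting module is acyclic -/
theorem SplitMod.acyclic {P : Subgroup G} (hP : IsPGroup p P) : Acyclic P (SplitMod u) := by
  have hH : ∀ H : Subgroup P, IsPGroup p (H.map P.subtype) := fun H =>
    hP.to_subgroup H |>.map P.subtype
  constructor
  · intro H f hf
    let e : H ≃* H.map P.subtype := H.equivMapOfInjective _ P.subtype_injective
    have hs : ∀ (g : H) (x : SplitMod u), e g • x = g • x := fun g x => rfl
    obtain ⟨x, hx⟩ := SplitMod.acyclic_h1 hu (hH H) (fun g => f (e.symm g))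
      (funext fun ⟨g, h⟩ => by
        obtain ⟨g, rfl⟩ := e.surjective g
        obtain ⟨h, rfl⟩ := e.surjective h
        simpa [d1, hs, ← map_mul] using congrFun hf (g, h))
    exact ⟨x, funext fun g => by simpa [d0, hs] using congrFun hx (e g)⟩
  · intro H c hc
    let e : H ≃* H.map P.subtype := H.equivMapOfInjective _ P.subtype_injective
    have hs : ∀ (g : H) (x : SplitMod u), e g • x = g • x := fun g x => rfl
    obtain ⟨b, hb⟩ := SplitMod.acyclic_h2 hu (hH H) (fun x => c (e.symm x.1, e.symm x.2))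
      fun g h j => by
        obtain ⟨g, rfl⟩ := e.surjective g
        obtain ⟨h, rfl⟩ := e.surjective h
        obtain ⟨j, rfl⟩ := e.surjective j
        simpa [hs, ← map_mul] using hc g h j
    exact ⟨b ∘ e, funext fun ⟨g, h⟩ => by simpa [d1, hs, ← map_mul] using congrFun hb (e g, e h)⟩

end Acyclic

end Fermat.Agent.ClassField.S55
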