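import Fermat.Agent.ClassField.S55.CHom

/-!
# S55: Tate's criterion, in low degrees

If `P` is a finite `p`-group and `X` a `P`-module with `H¹(Q,X) = H²(Q,X) = 0` for all
subgroups `Q`, then for every `ℤ`-free module `R` the invariants of `Hom(R,X)` are norms and
norm-zero elements lie in the augmentation.
-/

set_option autoImplicit false

namespace Fermat.Agent.ClassField.S55

variable {p : ℕ} {P : Type*} [Group P]

/-! ### torsion-free modules which are induced mod `p` -/

section TorsionFree

variable [Fintype P] {V B : Type*} [AddCommGroup V] [DistribMulAction P V] [AddCommGroup B]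

/-- `V` has no `p`-torsion and `V/pV` is induced. -/
structure InducedMod (p : ℕ) (q : V →+[P] Ind P B) : Prop where
  tf : ∀ v : V, p • v = 0 → v = 0
  surj : Function.Surjective q
  q_smul : ∀ v : V, q (p • v) = 0
  ker : ∀ v : V, q v = 0 → ∃ w, p • w = v

variable {q : V →+[P] Ind P B} (hq : InducedMod p q)
include hq

lemma InducedMod.h1_step {z : P → V} (hz : ∃ x, d0 x = p • z) : ∃ x, d0 x = z := by
  obtain ⟨x, hx⟩ := hz
  have hfix : ∀ g : P, g • q x = q x := fun g => by
    rw [← sub_eq_zero, ← map_smul, ← map_sub]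
    have := congrFun hx g
    simp only [d0, Pi.smul_apply] at this
    rw [this, hq.q_smul]
  obtain ⟨y, hy⟩ := Ind.exists_normSum_of_fixed hfix
  obtain ⟨yt, rfl⟩ := hq.surj y
  obtain ⟨x', hx'⟩ := hq.ker (x - normSum P yt) (by rw [map_sub, map_normSum, hy, sub_self])
  refine ⟨x', funext fun g => sub_eq_zero.1 (hq.tf _ ?_)⟩
  have h := congrFun hx g
  simp only [d0, Pi.smul_apply] at h
  rw [nsmul_sub, d0, nsmul_sub, ← h, smul_comm p g, hx', smul_sub, smul_normSum]
  abel

lemma InducedMod.h1 (hP : ∃ k, Fintype.card P = p ^ k) {z : P → V} (hz : d1 z = 0) :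
    ∃ x, d0 x = z := by
  obtain ⟨k, hk⟩ := hP
  have hbase : ∃ x, d0 x = p ^ k • z := by
    refine ⟨-∑ τ : P, z τ, funext fun σ => ?_⟩
    have hc : ∀ τ, σ • z τ = z (σ * τ) - z σ := fun τ => by
      have h := congrFun hz (σ, τ)
      simp only [d1, Pi.zero_apply] at h
      rw [← sub_eq_zero, ← h]; abel
    have hs : ∑ τ : P, z (σ * τ) = ∑ τ : P, z τ :=
      Fintype.sum_equiv (Equiv.mulLeft σ) _ _ fun _ => rfl
    simp only [d0, smul_neg, Finset.smul_sum, hc, Finset.sum_sub_distrib, hs, Finset.sum_const,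
      Finset.card_univ, hk, Pi.smul_apply]
    abel
  clear hk
  induction k with
  | zero => simpa using hbase
  | succ k ih =>
    refine ih (hq.h1_step ?_)
    obtain ⟨x, hx⟩ := hbase
    exact ⟨x, by rw [hx, pow_succ', mul_smul]⟩

lemma InducedMod.norm_step {v : V} (hv : ∃ y, normSum P y = p • v) : ∃ y, normSum P y = v := by
  obtain ⟨y, hy⟩ := hv
  have h0 : normSum P (q y) = 0 := by rw [← map_normSum, hy, hq.q_smul]
  obtain ⟨a, ha, hqa⟩ := exists_mem_aug_lift q hq.surj (Ind.mem_aug_of_normSum h0)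
  obtain ⟨y', hy'⟩ := hq.ker (y - a) (by rw [map_sub, hqa, sub_self])
  refine ⟨y', sub_eq_zero.1 (hq.tf _ ?_)⟩
  rw [nsmul_sub, ← map_nsmul, hy', map_sub, normSum_eq_zero_of_mem_aug ha, hy, sub_zero, sub_self]

lemma InducedMod.fixed_eq_norm (hP : ∃ k, Fintype.card P = p ^ k) {v : V}
    (hv : ∀ g : P, g • v = v) : ∃ y, normSum P y = v := by
  obtain ⟨k, hk⟩ := hP
  have hbase : ∃ y, normSum P y = p ^ k • v := ⟨v, by rw [normSum_of_fixed hv, hk]⟩
  clear hk
  induction k with
  | zero => simpa using hbase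
  | succ k ih =>
    refine ih (hq.norm_step ?_)
    obtain ⟨x, hx⟩ := hbase
    exact ⟨x, by rw [hx, pow_succ', mul_smul]⟩

end TorsionFree

/-! ### `p`-torsion modules with `H¹ = 0` are induced -/

lemma exists_projection [Fact p.Prime] {V : Type*} [AddCommGroup V] [Module (ZMod p) V]
    (S : AddSubgroup V) : ∃ f : V →+ S, ∀ (v : V) (hv : v ∈ S), f v = ⟨v, hv⟩ := by
  obtain ⟨F', hF'⟩ := Submodule.exists_isCompl (AddSubgroup.toZModSubmodule p S)
  refine ⟨AddMonoidHom.mk' (fun v => ⟨(Submodule.projectionOnto _ F' hF' v).1,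
    (Submodule.projectionOnto _ F' hF' v).2⟩) (fun a b => Subtype.ext
      (congrArg Subtype.val (map_add (Submodule.projectionOnto _ F' hF') a b))), fun v hv => ?_⟩
  exact Subtype.ext (congrArg Subtype.val (Submodule.projectionOnto_apply_left hF' ⟨v, hv⟩))

section Criterion

variable [Fact p.Prime] [Fintype P] (hP : IsPGroup p P)
variable {V : Type*} [AddCommGroup V] [DistribMulAction P V] (hp : ∀ v : V, p • v = 0)
include hP hp

lemma exists_fixed_ne_zero {v : V} (hv : v ≠ 0) (S : AddSubgroup V)
    (hS : ∀ g : P, ∀ x ∈ S, g • x ∈ S) (hvS : v ∈ S) :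
    ∃ w ∈ S, w ≠ 0 ∧ ∀ g : P, g • w = w := by
  let T : AddSubgroup V := AddSubgroup.closure (Set.range fun g : P => g • v)
  have hTS : T ≤ S := (AddSubgroup.closure_le _).2 (by
    rintro _ ⟨g, rfl⟩
    exact hS g v hvS)
  have hstab : ∀ g : P, ∀ x ∈ T, g • x ∈ T := by
    intro g x hx
    induction hx using AddSubgroup.closure_induction with
    | mem y hy =>
      obtain ⟨h, rfl⟩ := hy
      exact AddSubgroup.subset_closure ⟨g * h, mul_smul g h v⟩
    | zero => rw [smul_zero]; exact zero_mem _
    | add a b _ _ ha hb => rw [smul_add]; exact add_mem ha hb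
    | neg a _ ha => rw [smul_neg]; exact neg_mem ha
  let _ : MulAction P T :=
    { smul := fun g x => ⟨g • (x : V), hstab g x x.2⟩
      one_smul := fun x => Subtype.ext (one_smul P (x : V))
      mul_smul := fun g h x => Subtype.ext (mul_smul g h (x : V)) }
  have hfg : AddGroup.FG T :=
    (AddGroup.fg_iff_addSubgroup_fg T).2 ((AddSubgroup.fg_iff T).2 ⟨_, rfl, Set.finite_range _⟩)
  have htor : IsAddTorsion T := fun x => isOfFinAddOrder_iff_nsmul_eq_zero.2
    ⟨p, (Fact.out : p.Prime).pos, Subtype.ext (hp x)⟩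
  have : Finite T := AddCommGroup.finite_of_fg_isAddTorsion T htor
  have hvT : v ∈ T := AddSubgroup.subset_closure ⟨1, one_smul _ _⟩
  have hdvd : p ∣ Nat.card T := by
    have h1 : addOrderOf (⟨v, hvT⟩ : T) = p := addOrderOf_eq_prime (Subtype.ext (hp v))
      fun h => hv (congrArg Subtype.val h)
    exact h1 ▸ addOrderOf_dvd_natCard _
  have h0 : (0 : T) ∈ MulAction.fixedPoints P T := fun g => Subtype.ext (smul_zero g)
  obtain ⟨b, hb, hb0⟩ := hP.exists_fixed_point_of_prime_dvd_card_of_fixed_point T hdvd h0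
  exact ⟨b, hTS b.2, fun h => hb0 (Subtype.ext h.symm), fun g => congrArg Subtype.val (hb g)⟩

variable (P V) in
/-- the invariants -/
def fixedSub : AddSubgroup V where
  carrier := {v | ∀ g : P, g • v = v}
  add_mem' ha hb g := by rw [smul_add, ha g, hb g]
  zero_mem' g := smul_zero g
  neg_mem' ha g := by rw [smul_neg, ha g]

theorem exists_ind_equiv (h1 : ∀ z : P → V, d1 z = 0 → ∃ x, d0 x = z) :
    ∃ q : V →+[P] Ind P (fixedSub P V), Function.Bijective q := by
  classical
  obtain ⟨lf, hl'⟩ : ∃ lf : V →+ fixedSub P V,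
      ∀ (v : V) (hv : v ∈ fixedSub P V), lf v = ⟨v, hv⟩ := by
    let _ : Module (ZMod p) V := AddCommGroup.zmodModule hp
    exact exists_projection (p := p) (fixedSub P V)
  let q : V →+[P] Ind P (fixedSub P V) :=
    { toFun := fun v => ⟨fun τ => lf (τ⁻¹ • v)⟩
      map_smul' := fun g v => Ind.ext (funext fun τ => by
        show lf (τ⁻¹ • g • v) = lf ((g⁻¹ * τ)⁻¹ • v)
        rw [mul_inv_rev, inv_inv, mul_smul])
      map_zero' := Ind.ext (funext fun τ => by
        show lf (τ⁻¹ • (0 : V)) = 0
        rw [smul_zero, map_zero])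
      map_add' := fun v w => Ind.ext (funext fun τ => by
        show lf (τ⁻¹ • (v + w)) = lf (τ⁻¹ • v) + lf (τ⁻¹ • w)
        rw [smul_add, map_add]) }
  have hfix : ∀ v, ∀ hv : v ∈ fixedSub P V, q v = ⟨fun _ => ⟨v, hv⟩⟩ := fun v hv =>
    Ind.ext (funext fun τ => by
      show lf (τ⁻¹ • v) = ⟨v, hv⟩
      rw [hv, hl' v hv])
  have hinj : Function.Injective q := by
    rw [injective_iff_map_eq_zero]
    intro v hv
    by_contra hne
    obtain ⟨w, hw, hw0, hwfix⟩ := exists_fixed_ne_zero hP hp hne
      ((q : V →+ Ind P (fixedSub P V)).ker) (fun g x hx => by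
        rw [AddMonoidHom.mem_ker] at hx ⊢
        show q (g • x) = 0
        rw [map_smul, show q x = 0 from hx, smul_zero]) hv
    replace hw : q w = 0 := hw
    rw [hfix w hwfix] at hw
    exact hw0 (congrArg (fun f : Ind P (fixedSub P V) => ((f.val 1 : fixedSub P V) : V)) hw)
  refine ⟨q, hinj, fun f => ?_⟩
  by_contra hne
  -- quotient by the image
  let R : AddSubgroup (Ind P (fixedSub P V)) := (q : V →+ Ind P (fixedSub P V)).range
  have hR : ∀ g : P, ∀ x ∈ R, g • x ∈ R := by
    rintro g _ ⟨v, rfl⟩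
    exact ⟨g • v, map_smul q g v⟩
  let _ : DistribMulAction P (Ind P (fixedSub P V) ⧸ R) :=
    { smul := fun g => QuotientAddGroup.map R R
        (DistribSMul.toAddMonoidHom (Ind P (fixedSub P V)) g) (fun x hx => hR g x hx)
      one_smul := fun x => by
        induction x using QuotientAddGroup.induction_on with
        | H y => exact congrArg QuotientAddGroup.mk (one_smul P y)
      mul_smul := fun g h x => by
        induction x using QuotientAddGroup.induction_on with
        | H y => exact congrArg QuotientAddGroup.mk (mul_smul g h y)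
      smul_zero := fun g => congrArg QuotientAddGroup.mk (smul_zero g)
      smul_add := fun g x y => map_add _ x y }
  have hpq : ∀ x : Ind P (fixedSub P V) ⧸ R, p • x = 0 := fun x => by
    induction x using QuotientAddGroup.induction_on with
    | H y =>
      have : p • y = 0 := Ind.ext (funext fun τ => by
        rw [Ind.nsmul_apply, Ind.zero_apply]; exact Subtype.ext (hp _))
      rw [← QuotientAddGroup.mk_nsmul, this]; rfl
  obtain ⟨b, -, hb0, hbfix⟩ := exists_fixed_ne_zero hP hpq
    (v := (f : Ind P (fixedSub P V) ⧸ R))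
    (fun h => hne ((QuotientAddGroup.eq_zero_iff f).1 h)) ⊤
    (fun _ _ _ => trivial) trivial
  induction b using QuotientAddGroup.induction_on with
  | H y =>
    refine hb0 ((QuotientAddGroup.eq_zero_iff y).2 ?_)
    have hy : ∀ g : P, ∃ v, q v = g • y - y := fun g => by
      have h : ((g • y - y : Ind P (fixedSub P V)) : Ind P (fixedSub P V) ⧸ R) = 0 := by
        rw [QuotientAddGroup.mk_sub]; exact sub_eq_zero.2 (hbfix g)
      exact (QuotientAddGroup.eq_zero_iff _).1 h
    choose z hz using hy
    have hzc : d1 z = 0 := funext fun ⟨g, h⟩ => hinj (by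
      simp only [d1, map_add, map_sub, map_smul, hz, Pi.zero_apply, map_zero, smul_sub, mul_smul]
      abel)
    obtain ⟨x, hx⟩ := h1 z hzc
    have hyx : ∀ g : P, g • (y - q x) = y - q x := fun g => by
      have := congrArg q (congrFun hx g)
      simp only [d0, map_sub, map_smul, hz] at this
      rw [← sub_eq_zero, smul_sub]
      rw [← sub_eq_zero] at this
      rw [← neg_eq_zero, ← this]; abel
    have hconst : ∀ τ, (y - q x).val τ = (y - q x).val 1 := fun τ => by
      conv_lhs => rw [← hyx τ, Ind.smul_apply, inv_mul_cancel]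
    have hyr : y - q x = q ((y - q x).val 1 : V) := by
      rw [hfix _ ((y - q x).val 1).2]
      exact Ind.ext (funext fun τ => hconst τ)
    exact ⟨x + ((y - q x).val 1 : V), by
      show q (x + _) = y
      rw [map_add, ← hyr]; abel⟩

end Criterion

end Fermat.Agent.ClassField.S55
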