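import Fermat.Agent.ClassField.S55.SplittingModule

/-!
# S55: Tate–Nakayama in degree `-2`, for lattices

For a lattice `R` the map `θ : H₁(G, R^∨) → Ĥ⁰(G, Hom(R,C))` is bijective up to multiplication by
integers prime to `p`.
-/

set_option autoImplicit false

namespace Fermat.Agent.ClassField.S55

section Transfer

variable {G : Type*} [Group G] [Fintype G] (P : Subgroup G) [Fintype P]
  {V : Type*} [AddCommGroup V] [DistribMulAction G V]

lemma bijective_out_mul :
    Function.Bijective (fun x : (G ⧸ P) × P => Quotient.out x.1 * (x.2 : G)) := by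
  constructor
  · rintro ⟨q, s⟩ ⟨q', s'⟩ h
    have hq := congrArg (QuotientGroup.mk : G → G ⧸ P) h
    simp only [QuotientGroup.mk_mul_of_mem _ s.2, QuotientGroup.mk_mul_of_mem _ s'.2,
      QuotientGroup.out_eq'] at hq
    subst hq
    simp only [mul_right_inj, Subtype.coe_inj] at h
    rw [h]
  · intro g
    obtain ⟨s, hs⟩ := QuotientGroup.mk_out_eq_mul P g
    exact ⟨(g, s⁻¹), by simp [hs]⟩

lemma normSum_eq_sum_normSum [Fintype (G ⧸ P)] (v : V) :
    normSum G v = ∑ q : G ⧸ P, (Quotient.out q) • normSum P v := by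
  refine (Fintype.sum_equiv (Equiv.ofBijective _ (bijective_out_mul P)) _ _ fun _ => rfl).symm.trans ?_
  rw [Fintype.sum_prod_type]
  refine Finset.sum_congr rfl fun q _ => ?_
  simp [normSum, Finset.smul_sum, mul_smul, Subgroup.smul_def]

lemma index_smul_eq_normSum {v y : V} (hv : ∀ g : G, g • v = v) (hy : normSum P y = v) :
    normSum G y = P.index • v := by
  classical
  rw [normSum_eq_sum_normSum P, hy]
  simp [hv, Subgroup.index_eq_card, Nat.card_eq_fintype_card]

lemma index_smul_mem_aug {v : V} (hv : normSum G v = 0)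
    (hP : ∀ w : V, normSum P w = 0 → w ∈ aug P V) : P.index • v ∈ aug G V := by
  classical
  let w : V := ∑ q : G ⧸ P, (Quotient.out q)⁻¹ • v
  have hw : normSum P w = 0 := by
    rw [← hv]
    show ∑ s : P, (s : G) • w = ∑ g : G, g • v
    simp only [w, Finset.smul_sum, ← mul_smul]
    rw [Finset.sum_comm, ← Fintype.sum_prod_type']
    refine Fintype.sum_equiv (((Equiv.refl _).prodCongr (Equiv.inv P)).trans
      ((Equiv.ofBijective _ (bijective_out_mul P)).trans (Equiv.inv G))) _ _ fun x => ?_
    simp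
  have hmem : w ∈ aug G V :=
    AddSubgroup.closure_mono (by rintro x ⟨g, y, rfl⟩; exact ⟨(g : G), y, rfl⟩) (hP w hw)
  have : P.index • v = w - ∑ q : G ⧸ P, ((Quotient.out q)⁻¹ • v - v) := by
    simp [w, Finset.sum_sub_distrib, Subgroup.index_eq_card, Nat.card_eq_fintype_card]
  rw [this]
  exact sub_mem hmem (sum_mem fun q _ => smul_sub_mem_aug _ _)

end Transfer

section Chains

variable {G : Type*} [Group G] [Fintype G] {R : Type*} [AddCommGroup R] [DistribMulAction G R]

variable (G R) in
/-- boundary of 1-chains -/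
noncomputable def bd1 : (G → (R →+ ℤ)) →+ (R →+ ℤ) where
  toFun a := ∑ g : G, ((a g).comp (DistribSMul.toAddMonoidHom R g) - a g)
  map_zero' := by simp
  map_add' a a' := by
    simp only [Pi.add_apply, AddMonoidHom.add_comp, ← Finset.sum_add_distrib]
    exact Finset.sum_congr rfl fun g _ => by abel

lemma bd1_apply (a : G → (R →+ ℤ)) (r : R) :
    bd1 G R a r = ∑ g : G, (a g (g • r) - a g r) := by
  simp [bd1, AddMonoidHom.finsetSum_apply]

variable (G R) in
/-- boundary of 2-chains -/
noncomputable def bd2 : (G → G → (R →+ ℤ)) →+ (G → (R →+ ℤ)) where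
  toFun b g := ∑ h : G, ((b h g).comp (DistribSMul.toAddMonoidHom R h) - b h (h⁻¹ * g) + b g h)
  map_zero' := by ext g r; simp
  map_add' b b' := by
    ext g r
    simp [AddMonoidHom.finsetSum_apply, Finset.sum_add_distrib, Finset.sum_sub_distrib]
    abel

lemma bd2_apply (b : G → G → (R →+ ℤ)) (g : G) (r : R) :
    bd2 G R b g r = ∑ h : G, (b h g (h • r) - b h (h⁻¹ * g) r + b g h r) := by
  simp [bd2, AddMonoidHom.finsetSum_apply]

open Classical in
lemma exists_bd2_single (φ : R →+ ℤ) :
    bd2 G R (fun x y => if x = 1 ∧ y = 1 then φ else 0) = fun g => if g = 1 then φ else 0 := by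
  funext g
  ext r
  rw [bd2_apply, Finset.sum_eq_single (1 : G)]
  · by_cases hg : g = 1 <;> simp [hg]
  · intro h _ hh; simp [hh]
  · simp

end Chains

variable {G : Type*} [Group G] [Fintype G] {C : Type*} [AddCommGroup C]
  {R : Type*} [AddCommGroup R] [DistribMulAction G R] {u : G × G → C}

variable (u) in
/-- the element `Σ a_g ⊗ ([g] - 1)` -/
noncomputable def xi (a : G → (R →+ ℤ)) : CHom R (SplitMod u) :=
  ⟨{ toFun := fun r => ∑ g : G, a g r • SplitMod.aug1 g
     map_zero' := by simp
     map_add' := fun r r' => by simp [add_smul, Finset.sum_add_distrib] }⟩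

variable (u) in
/-- the cup product with `u`, from 1-chains of `R^∨` to `Hom(R,C)` -/
noncomputable def theta : (G → (R →+ ℤ)) →+ CHom R C where
  toFun a := ⟨{ toFun := fun r => ∑ τ : G, ∑ g : G, a g (τ⁻¹ • r) • (u (τ, g) - u (τ, 1))
                map_zero' := by simp
                map_add' := fun r r' => by simp [add_smul, Finset.sum_add_distrib] }⟩
  map_zero' := CHom.ext' fun r => by simp
  map_add' a a' := CHom.ext' fun r => by
    simp [add_smul, Finset.sum_add_distrib]

lemma theta_apply (a : G → (R →+ ℤ)) (r : R) :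
    theta u a r = ∑ τ : G, ∑ g : G, a g (τ⁻¹ • r) • (u (τ, g) - u (τ, 1)) := rfl

lemma xi_apply (a : G → (R →+ ℤ)) (r : R) :
    xi u a r = ∑ g : G, a g r • (SplitMod.aug1 g : SplitMod u) := rfl

omit [DistribMulAction G R] in
lemma SplitMod.zsmul_f (n : ℤ) (x : SplitMod u) (g : G) : (n • x).f g = n * x.f g := by
  rw [← smul_eq_mul]; exact map_zsmul (SplitMod.fHom g) n x

lemma SplitMod.zsmul_c (n : ℤ) (x : SplitMod u) : (n • x).c = n • x.c :=
  map_zsmul SplitMod.cHom n x

lemma xi_f (a : G → (R →+ ℤ)) (r : R) (h : G) :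
    (xi u a r).f h = a h r - zdelta 1 h * ∑ g : G, a g r := by
  classical
  rw [xi_apply, SplitMod.sum_f]
  simp only [SplitMod.zsmul_f, SplitMod.aug1, Pi.sub_apply, mul_sub, Finset.sum_sub_distrib,
    Finset.mul_sum]
  rw [Fintype.sum_eq_single h (fun x hx => by simp [zdelta, Ne.symm hx])]
  simp [zdelta, mul_comm]

lemma xi_c (a : G → (R →+ ℤ)) (r : R) : (xi u a r).c = 0 := by
  simp [xi_apply, SplitMod.sum_c, SplitMod.zsmul_c, SplitMod.aug1]

variable [DistribMulAction G C] [IsTwoCocycle u]

lemma normSum_xi_c (a : G → (R →+ ℤ)) (r : R) : (normSum G (xi u a) r).c = theta u a r := by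
  show ((∑ τ : G, τ • xi u a) r).c = _
  rw [CHom.sum_apply, SplitMod.sum_c, theta_apply]
  refine Finset.sum_congr rfl fun τ _ => ?_
  rw [CHom.smul_apply, xi_apply, Finset.smul_sum, SplitMod.sum_c]
  refine Finset.sum_congr rfl fun g _ => ?_
  rw [smul_comm, SplitMod.zsmul_c, SplitMod.smul_aug1_c]

lemma normSum_xi_f (a : G → (R →+ ℤ)) (r : R) (h : G) :
    (normSum G (xi u a) r).f h = bd1 G R a (h⁻¹ • r) := by
  classical
  show ((∑ τ : G, τ • xi u a) r).f h = _
  rw [CHom.sum_apply, SplitMod.sum_f, bd1_apply]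
  simp only [CHom.smul_apply, SplitMod.smul_f, xi_f, Finset.sum_sub_distrib]
  congr 1
  · exact Fintype.sum_equiv ((Equiv.inv G).trans (Equiv.mulRight h)) _ _ fun τ => by
      simp [← mul_smul, mul_assoc]
  · rw [Fintype.sum_eq_single h (fun τ hτ => by simp [zdelta, inv_mul_eq_one, hτ])]
    simp [zdelta]

lemma normSum_xi_of_cycle {a : G → (R →+ ℤ)} (ha : bd1 G R a = 0) :
    normSum G (xi u a) = ⟨(SplitMod.incl : C →+ SplitMod u).comp (theta u a).hom⟩ :=
  CHom.ext' fun r => SplitMod.ext (normSum_xi_c a r) (funext fun h => by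
    rw [normSum_xi_f, ha]; rfl)

variable (u) in
/-- `Hom(R,C) → Hom(R,X)` -/
noncomputable def inclHom : CHom R C →+[G] CHom R (SplitMod u) :=
  CHom.post
    { toFun := SplitMod.incl
      map_smul' := fun g c => (SplitMod.smul_incl g c).symm
      map_zero' := map_zero _
      map_add' := map_add _ }

lemma inclHom_c (y : CHom R C) (r : R) : (inclHom u y r).c = y r := rfl
lemma inclHom_f (y : CHom R C) (r : R) : (inclHom u y r).f = 0 := rfl

/-- the coefficient chain of an element of `Hom(R, X)` -/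
def coeffChain (η : CHom R (SplitMod u)) : G → (R →+ ℤ) :=
  fun g => (SplitMod.fHom g).comp η.hom

lemma coeffChain_apply (η : CHom R (SplitMod u)) (g : G) (r : R) :
    coeffChain η g r = (η r).f g := rfl

lemma eq_xi_add (η : CHom R (SplitMod u)) :
    η = xi u (coeffChain η) + inclHom u ⟨(SplitMod.cHom : SplitMod u →+ C).comp η.hom⟩ :=
  CHom.ext' fun r => SplitMod.ext (by
    simp [xi_c, inclHom_c, SplitMod.cHom]) (funext fun h => by
    simp [xi_f, inclHom_f, coeffChain_apply, (η r).hf])

open Classical in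
lemma coeffChain_mem_bdry {η : CHom R (SplitMod u)} (hη : η ∈ aug G (CHom R (SplitMod u))) :
    coeffChain η ∈ (bd2 G R).range := by
  induction hη using AddSubgroup.closure_induction with
  | mem x hx =>
    obtain ⟨σ, ψ, rfl⟩ := hx
    refine ⟨-(fun x y => if x = σ then (coeffChain ψ y).comp (DistribSMul.toAddMonoidHom R σ⁻¹)
      else 0), ?_⟩
    funext g
    ext r
    rw [map_neg, Pi.neg_apply, AddMonoidHom.neg_apply, bd2_apply]
    simp only [Finset.sum_add_distrib, Finset.sum_sub_distrib]
    rw [Fintype.sum_eq_single σ (fun x hx => by simp [hx]),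
      Fintype.sum_eq_single σ (fun x hx => by simp [hx])]
    have hlast : ∑ h : G, (if g = σ then (coeffChain ψ h).comp
        (DistribSMul.toAddMonoidHom R σ⁻¹) else 0) r = 0 := by
      by_cases hg : g = σ
      · simpa [hg, coeffChain_apply] using (ψ (σ⁻¹ • r)).hf
      · simp [hg]
    rw [hlast]
    simp [coeffChain_apply, CHom.smul_apply, SplitMod.smul_f]
  | zero => exact ⟨0, by rw [map_zero]; funext g; ext r; rfl⟩
  | add x y _ _ hx hy =>
    obtain ⟨b, hb⟩ := hx
    obtain ⟨c, hc⟩ := hy
    exact ⟨b + c, by rw [map_add, hb, hc]; funext g; ext r; rfl⟩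
  | neg x _ hx =>
    obtain ⟨b, hb⟩ := hx
    exact ⟨-b, by rw [map_neg, hb]; funext g; ext r; rfl⟩

/-- `θ` maps boundaries to norms. -/
lemma theta_bd2 (b : G → G → (R →+ ℤ)) :
    ∃ y : CHom R C, theta u (bd2 G R b) = normSum G y := by
  classical
  let ψ : G → CHom R (SplitMod u) := fun x =>
    xi u fun h => (b x h).comp (DistribSMul.toAddMonoidHom R x)
  let D : CHom R (SplitMod u) := xi u (bd2 G R b) - ∑ x : G, (ψ x - x • ψ x)
  have hf : ∀ r h, (D r).f h = 0 := by
    intro r h
    simp only [D, ψ, CHom.sub_apply, SplitMod.sub_f, Pi.sub_apply, CHom.sum_apply, SplitMod.sum_f,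
      CHom.smul_apply, SplitMod.smul_f, xi_f, AddMonoidHom.coe_comp, Function.comp_apply,
      DistribSMul.toAddMonoidHom_apply, smul_inv_smul, bd2_apply, Finset.sum_add_distrib,
      Finset.sum_sub_distrib, ← Finset.mul_sum]
    have e1 : ∑ x : G, zdelta (1 : G) (x⁻¹ * h) * ∑ y : G, b x y r = ∑ y : G, b h y r := by
      rw [Fintype.sum_eq_single h (fun x hx => by simp [zdelta, inv_mul_eq_one, hx])]
      simp [zdelta]
    have e2 : ∑ g : G, ∑ x : G, b x (x⁻¹ * g) r = ∑ g : G, ∑ x : G, b g x r := by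
      rw [Finset.sum_comm]
      exact Finset.sum_congr rfl fun x _ =>
        Fintype.sum_equiv (Equiv.mulLeft x⁻¹) _ _ fun g => rfl
    rw [e1, e2, Finset.sum_comm (f := fun g x => b x g (x • r))]
    ring
  let y : CHom R C := ⟨(SplitMod.cHom : SplitMod u →+ C).comp D.hom⟩
  have hD : D = inclHom u y := CHom.ext' fun r => SplitMod.ext rfl (funext (hf r))
  refine ⟨y, CHom.ext' fun r => ?_⟩
  have hN : normSum G (xi u (bd2 G R b)) = inclHom u (normSum G y) := by
    rw [map_normSum, ← hD, map_sub, map_sum]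
    simp [normSum_smul]
  rw [← normSum_xi_c, hN, inclHom_c]

variable {p : ℕ} [Fact p.Prime] [Module.Free ℤ R] (hu : IsPClassModule p G C u)
include hu

/-- Surjectivity of Tate–Nakayama, up to an integer prime to `p`. -/
theorem theta_surjective : ∃ m : ℕ, ¬ p ∣ m ∧ ∀ x : CHom R C, (∀ g : G, g • x = x) →
    ∃ (a : G → (R →+ ℤ)) (y : CHom R C), bd1 G R a = 0 ∧ m • x = theta u a + normSum G y := by
  classical
  let P : Sylow p G := default
  refine ⟨(P : Subgroup G).index, P.not_dvd_index, fun x hx => ?_⟩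
  obtain ⟨η, hη⟩ := hom_fixed_eq_norm P.isPGroup' (SplitMod.acyclic hu P.isPGroup')
    (inclHom u x) fun g => by
      show (g : G) • inclHom u x = inclHom u x
      rw [← map_smul, hx]
  have hG := index_smul_eq_normSum (P : Subgroup G) (v := inclHom u x)
    (fun g => by rw [← map_smul, hx]) hη
  have hsplit := eq_xi_add η
  set a := coeffChain η
  set y : CHom R C := ⟨(SplitMod.cHom : SplitMod u →+ C).comp η.hom⟩
  rw [hsplit, map_add, ← map_normSum, ← map_nsmul] at hG
  have hc : bd1 G R a = 0 := by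
    ext r
    have := congrArg (fun F : CHom R (SplitMod u) => (F r).f 1) hG
    simpa [normSum_xi_f, inclHom_f] using this
  refine ⟨a, y, hc, CHom.ext' fun r => ?_⟩
  have := congrArg (fun F : CHom R (SplitMod u) => (F r).c) hG
  simp only [CHom.add_apply, SplitMod.add_c, normSum_xi_c, inclHom_c] at this
  rw [CHom.add_apply, this]

/-- Injectivity of Tate–Nakayama, up to an integer prime to `p`. -/
theorem theta_injective : ∃ m : ℕ, ¬ p ∣ m ∧ ∀ (a : G → (R →+ ℤ)) (y : CHom R C),
    bd1 G R a = 0 → theta u a = normSum G y → m • a ∈ (bd2 G R).range := by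
  classical
  let P : Sylow p G := default
  refine ⟨(P : Subgroup G).index, P.not_dvd_index, fun a y ha h => ?_⟩
  have h0 : normSum G (xi u a - inclHom u y) = 0 := by
    rw [map_sub, normSum_xi_of_cycle ha, ← map_normSum, ← h]
    exact sub_self _
  have hmem := coeffChain_mem_bdry (index_smul_mem_aug (P : Subgroup G) h0 fun w hw =>
    hom_mem_aug P.isPGroup' (SplitMod.acyclic hu P.isPGroup') w hw)
  set m := (P : Subgroup G).index
  obtain ⟨b, hb⟩ := hmem
  refine ⟨b + fun x z => if x = 1 ∧ z = 1 then m • ∑ g : G, a g else 0, ?_⟩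
  rw [map_add, exists_bd2_single, hb]
  funext g
  ext r
  simp [coeffChain_apply, xi_f, inclHom_f, zdelta]
  split_ifs <;> simp [mul_sub]

omit hu

omit [Fact p.Prime] [Module.Free ℤ R]

/-- naturality in the lattice -/
lemma theta_comp {R' : Type*} [AddCommGroup R'] [DistribMulAction G R'] (φ : R' →+[G] R)
    (a : G → (R →+ ℤ)) :
    theta u (fun g => (a g).comp (φ : R' →+ R)) = CHom.pre φ (theta u a) :=
  CHom.ext' fun r => by
    simp only [CHom.pre_apply_apply, theta_apply, AddMonoidHom.coe_comp, Function.comp_apply]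
    exact Finset.sum_congr rfl fun τ _ => Finset.sum_congr rfl fun g _ => by
      rw [show (φ : R' →+ R) (τ⁻¹ • r) = τ⁻¹ • φ r from map_smul φ τ⁻¹ r]

omit [DistribMulAction G C] [IsTwoCocycle u] in
lemma bd1_comp {R' : Type*} [AddCommGroup R'] [DistribMulAction G R'] (φ : R' →+[G] R)
    (a : G → (R →+ ℤ)) (r : R') :
    bd1 G R' (fun g => (a g).comp (φ : R' →+ R)) r = bd1 G R a (φ r) := by
  simp only [bd1_apply, AddMonoidHom.coe_comp, Function.comp_apply]
  exact Finset.sum_congr rfl fun g _ => by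
    rw [show (φ : R' →+ R) (g • r) = g • φ r from map_smul φ g r]; rfl

/-- change of cocycle along a morphism of modules -/
lemma theta_change {B : Type*} [AddCommGroup B] [DistribMulAction G B] {v : G × G → B}
    (ι : B →+[G] C) (w : G → C) (hw : ∀ x, u x = ι (v x) + d1 w x)
    {a : G → (R →+ ℤ)} (ha : bd1 G R a = 0) :
    ∃ y : CHom R C, theta u a = CHom.post ι (theta v a) + normSum G y := by
  let y : CHom R C := ⟨{ toFun := fun r => ∑ g : G, a g r • (w g - w 1)
                         map_zero' := by simp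
                         map_add' := fun r r' => by simp [add_smul, Finset.sum_add_distrib] }⟩
  refine ⟨y, CHom.ext' fun r => ?_⟩
  show theta u a r = ι (theta v a r) + (∑ τ : G, τ • y) r
  have hz : ∑ τ : G, ∑ g : G, a g (τ⁻¹ • r) • (w (τ * g) - w τ) = 0 := by
    simp only [smul_sub, Finset.sum_sub_distrib]
    have e : ∑ τ : G, ∑ g : G, a g (τ⁻¹ • r) • w (τ * g)
        = ∑ h : G, (∑ g : G, a g (g • h⁻¹ • r)) • w h := by
      simp only [Finset.sum_smul]
      rw [Finset.sum_comm, Finset.sum_comm (f := fun h g => a g (g • h⁻¹ • r) • w h)]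
      exact Finset.sum_congr rfl fun g _ =>
        Fintype.sum_equiv (Equiv.mulRight g) _ _ fun τ => by simp [← mul_smul]
    rw [e, ← Finset.sum_sub_distrib]
    refine Finset.sum_eq_zero fun h _ => ?_
    rw [← Finset.sum_smul, ← sub_smul, ← Finset.sum_sub_distrib, ← bd1_apply, ha]
    simp
  rw [CHom.sum_apply, theta_apply, theta_apply, ← sub_eq_zero]
  simp only [map_sum, map_zsmul, map_sub, CHom.smul_apply, hw, d1]
  rw [← neg_eq_zero, ← hz, ← Finset.sum_add_distrib, ← Finset.sum_sub_distrib,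
    ← Finset.sum_neg_distrib]
  refine Finset.sum_congr rfl fun τ _ => ?_
  show -(_ - (_ + τ • ∑ g : G, a g (τ⁻¹ • r) • (w g - w 1))) = _
  rw [Finset.smul_sum, ← Finset.sum_add_distrib, ← Finset.sum_sub_distrib,
    ← Finset.sum_neg_distrib]
  refine Finset.sum_congr rfl fun g _ => ?_
  rw [smul_comm τ, ← smul_add, ← smul_sub, ← smul_neg, mul_one, smul_sub τ]
  congr 1
  abel

section Corestriction

variable (H : Subgroup G) [Fintype H]

open Classical in
/-- extension by zero of a chain -/
noncomputable def extChain (a : H → (R →+ ℤ)) : G → (R →+ ℤ) :=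
  fun g => if h : g ∈ H then a ⟨g, h⟩ else 0

omit [Fintype G] [DistribMulAction G R] in
lemma extChain_coe (a : H → (R →+ ℤ)) (h : H) : extChain H a (h : G) = a h := by
  simp [extChain]

omit [DistribMulAction G R] in
lemma sum_extChain {M : Type*} [AddCommMonoid M] (a : H → (R →+ ℤ)) (F : G → (R →+ ℤ) → M)
    (hF : ∀ g, F g 0 = 0) : ∑ g : G, F g (extChain H a g) = ∑ h : H, F h (a h) := by
  classical
  symm
  refine Finset.sum_bij_ne_zero (fun h _ _ => (h : G)) (fun _ _ _ => Finset.mem_univ _)
    (fun _ _ _ _ _ _ h => Subtype.ext h) (fun g _ hg => ?_) (fun h _ _ => by rw [extChain_coe])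
  by_cases hgH : g ∈ H
  · exact ⟨⟨g, hgH⟩, Finset.mem_univ _, by simpa [extChain, hgH] using hg, rfl⟩
  · exact absurd (by simp [extChain, hgH, hF]) hg

lemma bd1_extChain (a : H → (R →+ ℤ)) (r : R) :
    bd1 G R (extChain H a) r = bd1 H R a r := by
  rw [bd1_apply, bd1_apply]
  exact sum_extChain H a (fun g φ => φ (g • r) - φ r) (by simp)

/-- compatibility with corestriction -/
lemma theta_extChain [Fintype (G ⧸ H)] {a : H → (R →+ ℤ)} (ha : bd1 H R a = 0) :
    theta u (extChain H a)
      = ∑ q : G ⧸ H, Quotient.out q • theta (fun x : H × H => u ((x.1 : G), (x.2 : G))) a := by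
  have key : normSum H (xi u (extChain H a))
      = inclHom u (theta (fun x : H × H => u ((x.1 : G), (x.2 : G))) a) := by
    refine CHom.ext' fun r => ?_
    show (∑ τ : H, τ • xi u (extChain H a)) r = _
    have hterm : ∀ τ : H, (τ • xi u (extChain H a)) r
        = ∑ g : H, a g (τ⁻¹ • r) • ((τ : G) • (SplitMod.aug1 (g : G) : SplitMod u)) := by
      intro τ
      show (τ : G) • xi u (extChain H a) ((τ⁻¹ : H) • r) = _
      rw [xi_apply, Finset.smul_sum]
      simp only [smul_comm (τ : G) (_ : ℤ)]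
      exact sum_extChain H a (fun g φ => φ ((τ⁻¹ : H) • r) • ((τ : G) • SplitMod.aug1 g)) (by simp)
    rw [CHom.sum_apply, Finset.sum_congr rfl fun τ _ => hterm τ]
    refine SplitMod.ext ?_ (funext fun x => ?_)
    · simp only [SplitMod.sum_c, SplitMod.zsmul_c, SplitMod.smul_aug1_c, inclHom_c, theta_apply,
        Subgroup.coe_one]
    · rw [inclHom_f, Pi.zero_apply]
      simp only [SplitMod.sum_f, SplitMod.zsmul_f, SplitMod.smul_aug1_f, Pi.sub_apply, mul_sub,
        Finset.sum_sub_distrib]
      have e : ∑ τ : H, ∑ g : H, a g (τ⁻¹ • r) * zdelta ((τ : G) * g) x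
          = ∑ τ : H, ∑ g : H, a g (g • τ⁻¹ • r) * zdelta (τ : G) x := by
        rw [Finset.sum_comm, Finset.sum_comm (f := fun (τ g : H) => a g (g • τ⁻¹ • r) * zdelta (τ : G) x)]
        exact Finset.sum_congr rfl fun g _ =>
          Fintype.sum_equiv (Equiv.mulRight g) _ _ fun τ => by simp [← mul_smul]
      rw [e, ← Finset.sum_sub_distrib]
      refine Finset.sum_eq_zero fun τ _ => ?_
      rw [← Finset.sum_mul, ← Finset.sum_mul, ← sub_mul, ← Finset.sum_sub_distrib, ← bd1_apply,
        ha]
      simp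
  refine CHom.ext' fun r => ?_
  rw [← normSum_xi_c, normSum_eq_sum_normSum H, key]
  simp only [← map_smul, ← map_sum, inclHom_c]

end Corestriction

end Fermat.Agent.ClassField.S55
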