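import Fermat.Agent.ClassField.S55.TateCriterion

/-!
# S55: vanishing of `Ĥ⁰` and `Ĥ⁻¹` of `Hom(R,X)`
-/

set_option autoImplicit false

namespace Fermat.Agent.ClassField.S55

variable {p : ℕ} [Fact p.Prime] {P : Type*} [Group P]

/-- `H¹` and `H²` vanish for all subgroups. -/
structure Acyclic (P X : Type*) [Group P] [AddCommGroup X] [DistribMulAction P X] : Prop where
  h1 : ∀ H : Subgroup P, ∀ f : H → X, d1 f = 0 → ∃ x, d0 x = f
  h2 : ∀ H : Subgroup P, ∀ c : H × H → X,
    (∀ g h j : H, g • c (h, j) - c (g * h, j) + c (g, h * j) - c (g, h) = 0) → ∃ b, d1 b = c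

section Cyclic

variable {X : Type*} [AddCommGroup X] [DistribMulAction P X]

lemma carry_assoc (a b c n : ℕ) (hn : 0 < n) :
    (a + b) / n + ((a + b) % n + c) / n = (b + c) / n + (a + (b + c) % n) / n := by
  have e1 : a + b + c = ((a + b) % n + c) + n * ((a + b) / n) := by
    have := Nat.mod_add_div (a + b) n; omega
  have e2 : a + b + c = (a + (b + c) % n) + n * ((b + c) / n) := by
    have := Nat.mod_add_div (b + c) n; omega
  have f1 := congrArg (· / n) e1
  have f2 := congrArg (· / n) e2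
  simp only [Nat.add_mul_div_left _ _ hn] at f1 f2
  omega

/-- One step: if `K ◁ H` has index `p`, `H¹(K,X) = 0` and `H²(H,X) = 0`, every `H`-invariant
is a norm from `H/K` of a `K`-invariant. -/
lemma exists_step (hX : Acyclic P X) (H : Subgroup P) (K : Subgroup H) [K.Normal]
    (hK : K.index = p) {x : X} (hx : ∀ g : H, g • x = x) :
    ∃ (y : X) (σ : H), (∀ k : K, (k : H) • y = y) ∧
      Function.Bijective (fun jk : Fin p × K => σ ^ (jk.1 : ℕ) * (jk.2 : H)) ∧
      ∑ j : Fin p, (σ ^ (j : ℕ)) • y = x := by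
  classical
  have : Fact p.Prime := inferInstance
  have hp : 0 < p := (Fact.out : p.Prime).pos
  have : NeZero p := ⟨hp.ne'⟩
  let e : H ⧸ K ≃* Multiplicative (ZMod p) :=
    mulEquivOfPrimeCardEq (p := p) hK (by simp)
  let χ : H →* Multiplicative (ZMod p) := e.toMonoidHom.comp (QuotientGroup.mk' K)
  let a : H → ℕ := fun g => (Multiplicative.toAdd (χ g)).val
  have ha_lt : ∀ g, a g < p := fun g => ZMod.val_lt _
  have ha_mul : ∀ g h, a (g * h) = (a g + a h) % p := fun g h => by
    simp only [a, map_mul, toAdd_mul, ZMod.val_add]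
  have ha_zero : ∀ g, a g = 0 ↔ g ∈ K := fun g => by
    rw [← QuotientGroup.eq_one_iff g]
    simp only [a, χ, MonoidHom.coe_comp, Function.comp_apply, QuotientGroup.mk'_apply,
      MulEquiv.coe_toMonoidHom, ZMod.val_eq_zero, toAdd_eq_zero, map_eq_one_iff e e.injective]
  obtain ⟨σ, hσ⟩ : ∃ σ, a σ = 1 := by
    obtain ⟨σ, hσ⟩ := QuotientGroup.mk'_surjective K (e.symm (Multiplicative.ofAdd 1))
    have : Fact (1 < p) := ⟨(Fact.out : p.Prime).one_lt⟩
    exact ⟨σ, by
      simp only [a, χ, MonoidHom.coe_comp, Function.comp_apply, hσ, MulEquiv.coe_toMonoidHom,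
        MulEquiv.apply_symm_apply, toAdd_ofAdd, ZMod.val_one]⟩
  have ha_pow : ∀ j : ℕ, a (σ ^ j) = j % p := by
    intro j
    induction j with
    | zero => rw [pow_zero, Nat.zero_mod]; exact (ha_zero 1).2 (one_mem K)
    | succ j ih => rw [pow_succ, ha_mul, ih, hσ, Nat.mod_add_mod]
  -- the carry cocycle
  let c : H × H → X := fun gh => ((a gh.1 + a gh.2) / p) • x
  obtain ⟨w, hw⟩ := hX.h2 H c (fun g h j => by
    simp only [c, smul_comm g, hx g, ha_mul]
    rw [sub_add_eq_add_sub, sub_sub, sub_eq_zero, ← add_nsmul, ← add_nsmul]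
    congr 1
    have := carry_assoc (a g) (a h) (a j) p hp
    omega)
  have hwK : ∀ g h : H, a g = 0 ∨ a h = 0 → g • w h - w (g * h) + w g = 0 := by
    intro g h hgh
    have := congrFun hw (g, h)
    simp only [d1, c] at this
    rw [this]
    rcases hgh with h0 | h0 <;> simp [h0, Nat.div_eq_of_lt (ha_lt _)]
  let K' : Subgroup P := K.map H.subtype
  let ι : K → K' := fun k => ⟨((k : H) : P), ⟨k, k.2, rfl⟩⟩
  have hι : ∀ k' : K', ∃ k : K, ι k = k' := by
    rintro ⟨_, k, hk, rfl⟩
    exact ⟨⟨k, hk⟩, rfl⟩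
  let f : K' → X := fun k' => if h : (k' : P) ∈ H then w ⟨k', h⟩ else 0
  have hf : ∀ k : K, f (ι k) = w k := fun k => by simp [f, ι, SetLike.coe_mem]
  obtain ⟨t, ht⟩ := hX.h1 K' f (funext fun ⟨k₁, k₂⟩ => by
    obtain ⟨k₁, rfl⟩ := hι k₁
    obtain ⟨k₂, rfl⟩ := hι k₂
    have hm : ι k₁ * ι k₂ = ι (k₁ * k₂) := rfl
    simp only [d1, Pi.zero_apply, hm, hf]
    exact hwK k₁ k₂ (Or.inl ((ha_zero _).2 k₁.2)))
  -- normalise `w`
  let w' : H → X := fun g => w g - (g • t - t)
  have hw'K : ∀ k : K, w' k = 0 := fun k => by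
    have := congrFun ht (ι k)
    simp only [d0, hf] at this
    simp only [w']
    rw [← this]
    exact sub_self _
  have hw' : ∀ g h : H, g • w' h - w' (g * h) + w' g = c (g, h) := fun g h => by
    have := congrFun hw (g, h)
    simp only [d1] at this
    rw [← this]
    simp only [w', smul_sub, mul_smul]
    abel
  have hcK : ∀ g h : H, a g = 0 ∨ a h = 0 → c (g, h) = 0 := by
    intro g h hgh
    rcases hgh with h0 | h0 <;> simp [c, h0, Nat.div_eq_of_lt (ha_lt _)]
  have hright : ∀ (g : H) (k : K), w' (g * k) = w' g := fun g k => by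
    have := hw' g k
    rw [hw'K, smul_zero, hcK _ _ (Or.inr ((ha_zero _).2 k.2))] at this
    rw [← sub_eq_zero, ← neg_eq_zero, ← this]; abel
  have hfixw : ∀ (k : K) (g : H), (k : H) • w' g = w' g := fun k g => by
    have h1 : w' ((k : H) * g) = w' g := by
      have hk : g⁻¹ * k * g ∈ K := by
        simpa using (inferInstance : K.Normal).conj_mem k k.2 g⁻¹
      have := hright g ⟨_, hk⟩
      rw [← this]; congr 1; simp [mul_assoc]
    have := hw' k g
    rw [hw'K, h1, hcK _ _ (Or.inl ((ha_zero _).2 k.2)), add_zero, sub_eq_zero] at this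
    exact this
  refine ⟨w' σ, σ, fun k => hfixw k σ, ⟨?_, ?_⟩, ?_⟩
  · rintro ⟨i, k⟩ ⟨j, l⟩ hij
    have hij' := congrArg a hij
    simp only [ha_mul, ha_pow, (ha_zero _).2 k.2, (ha_zero _).2 l.2, add_zero,
      Nat.mod_eq_of_lt i.2, Nat.mod_eq_of_lt j.2] at hij'
    obtain rfl := Fin.ext hij'
    simpa using hij
  · intro g
    refine ⟨(⟨a g, ha_lt g⟩, ⟨(σ ^ a g)⁻¹ * g, ?_⟩), by simp⟩
    rw [← ha_zero]
    have h := ha_mul (σ ^ a g) ((σ ^ a g)⁻¹ * g)
    rw [mul_inv_cancel_left, ha_pow, Nat.mod_eq_of_lt (ha_lt g)] at h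
    have hlt := ha_lt ((σ ^ a g)⁻¹ * g)
    have hg := ha_lt g
    by_cases hc : a g + a ((σ ^ a g)⁻¹ * g) < p
    · rw [Nat.mod_eq_of_lt hc] at h; omega
    · rw [Nat.mod_eq_sub_mod (by omega), Nat.mod_eq_of_lt (by omega)] at h; omega
  · have h1 : w' 1 = 0 := by simpa using hw'K 1
    have key : ∀ n, n ≤ p → ∑ j ∈ Finset.range n, (σ ^ j) • w' σ
        = w' (σ ^ n) + (if n = p then x else 0) := by
      intro n
      induction n with
      | zero => intro _; simp [h1, hp.ne]
      | succ n ih =>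
        intro hn
        have hn' : n < p := by omega
        have h := hw' (σ ^ n) σ
        simp only [c, ha_pow, hσ, Nat.mod_eq_of_lt hn', ← pow_succ] at h
        rw [Finset.sum_range_succ, ih (by omega), if_neg (by omega), add_zero]
        by_cases hnp : n + 1 = p
        · rw [hnp, Nat.div_self hp, one_nsmul] at h
          rw [if_pos hnp, hnp, ← h]; abel
        · rw [Nat.div_eq_of_lt (by omega), zero_nsmul] at h
          rw [if_neg hnp, add_zero, ← sub_eq_zero, ← h]; abel
    have hK0 : w' (σ ^ p) = 0 := by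
      have : σ ^ p ∈ K := (ha_zero _).1 (by rw [ha_pow, Nat.mod_self])
      exact hw'K ⟨_, this⟩
    have := key p le_rfl
    rw [hK0, if_pos rfl, zero_add] at this
    rw [← this, Finset.sum_range]

lemma fixed_eq_norm [Fintype P] (hP : IsPGroup p P) (hX : Acyclic P X) {x : X}
    (hx : ∀ g : P, g • x = x) : ∃ y, normSum P y = x := by
  classical
  suffices h : ∀ (n : ℕ) (H : Subgroup P), Nat.card H = p ^ n → ∀ x : X,
      (∀ g : H, g • x = x) → ∃ y, ∑ g : H, (g : P) • y = x by
    obtain ⟨n, hn⟩ := IsPGroup.iff_card.1 hP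
    obtain ⟨y, hy⟩ := h n ⊤ (by rw [Subgroup.card_top, hn]) x fun g => hx g
    refine ⟨y, ?_⟩
    rw [← hy]
    exact (Fintype.sum_equiv Subgroup.topEquiv.toEquiv _ _ fun _ => rfl).symm
  intro n
  induction n with
  | zero =>
    intro H hH x hx
    have : Subsingleton H := (Nat.card_eq_one_iff_unique.1 (by simpa using hH)).1
    refine ⟨x, ?_⟩
    rw [Fintype.sum_subsingleton _ (1 : H), Subgroup.coe_one, one_smul]
  | succ n ih =>
    intro H hH x hx
    obtain ⟨K, hK⟩ := Sylow.exists_subgroup_card_pow_prime (G := H) p (n := n)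
      (hH ▸ pow_dvd_pow p n.le_succ)
    have hp := (Fact.out : p.Prime)
    have hidx : K.index = p := by
      have := K.card_mul_index
      rw [hK, hH, pow_succ] at this
      exact mul_left_cancel₀ (pow_ne_zero n hp.ne_zero) this
    have : K.Normal := Subgroup.normal_of_index_eq_minFac_card (by
      rw [hidx, hH, Nat.pow_minFac n.succ_ne_zero, hp.minFac_eq])
    obtain ⟨y, σ, hy, hbij, hsum⟩ := exists_step hX H K hidx hx
    let eK : K ≃* K.map H.subtype := K.equivMapOfInjective _ H.subtype_injective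
    obtain ⟨z, hz⟩ := ih (K.map H.subtype)
      (by rw [← hK]; exact Nat.card_congr eK.toEquiv.symm) y fun g => by
        obtain ⟨k, rfl⟩ := eK.surjective g
        exact hy k
    refine ⟨z, ?_⟩
    calc ∑ g : H, (g : P) • z
        = ∑ jk : Fin p × K, ((σ ^ (jk.1 : ℕ) * (jk.2 : H) : H) : P) • z :=
          (Fintype.sum_equiv (Equiv.ofBijective _ hbij) _ _ fun _ => rfl).symm
      _ = ∑ j : Fin p, (σ ^ (j : ℕ)) • y := by
          rw [Fintype.sum_prod_type]
          refine Finset.sum_congr rfl fun j _ => ?_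
          rw [← hz, Finset.smul_sum]
          refine Fintype.sum_equiv eK.toEquiv _ _ fun k => ?_
          simp only [Subgroup.coe_mul, mul_smul]
          rfl
      _ = x := hsum

end Cyclic

end Fermat.Agent.ClassField.S55
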